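/-
PT layer BASE: vocabulary of the arithmetic base inputs of the Poitou–Tate engine.

Level systems: `Bridge.levS S` (the `S`-levels of `G_ℚ`) and `Bridge.levD V` (all finite levels
on a subgroup `V ≤ G_ℚ`) of `PT/Bridge.lean`; the datum is `Bridge.datum S`.

* `IsBaseField p S K` : `K` finite, unramified outside `S`, `μ_p ⊂ K`;
* `CU p S U`   : the `S`-level complex of the subgroup `U ≤ G_ℚ` with trivial coefficients `𝔽_p`;
* `CV p V`     : the all-level complex of a subgroup `V ≤ G_ℚ` with trivial coefficients `𝔽_p`;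
* `resUV`      : restriction `CU p S U ⟶ CV p V` for `V ≤ U`;
* `Sha2 p S U` : the classes of `H²(U; 𝔽_p)` dying on `U ⊓ D_A` for all `A` over primes of `S`;
* `decomp A`   : the decomposition group of a valuation subring of `ℚ̄`;
* `numPlaces S U` : the number of places over `S` of the fixed field of `U`
  (`∑_{q ∈ S} #(U \ G_ℚ / D_q)`);
* `chiRep χ`   : the one-dimensional representation attached to a character.
-/
import Fermat.Agent.PT.Coh.Setup
import Fermat.Agent.PT.Coh.CountUnip
import Fermat.Agent.PT.Bridge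

set_option autoImplicit false

open ExtCitation

namespace Fermat.Agent.PT.Base

local notation "Qb" => AlgebraicClosure ℚ
local notation "GQ" => (AlgebraicClosure ℚ ≃ₐ[ℚ] AlgebraicClosure ℚ)

local instance isAlgebraicQbar_bs : Algebra.IsAlgebraic ℚ Qb := AlgebraicClosure.isAlgebraic ℚ
local instance isAlgClosureQbar_bs : IsAlgClosure ℚ Qb := ⟨inferInstance, inferInstance⟩
local instance normalQbar_bs : Normal ℚ Qb := IsAlgClosure.normal ℚ Qb

noncomputable section

open Bridge

/-- The decomposition group of a valuation subring of `ℚ̄`. -/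
abbrev decomp (A : ValuationSubring Qb) : Subgroup GQ := A.decompositionSubgroup ℚ

variable (p : ℕ) [Fact p.Prime] (S : Finset Nat.Primes)

/-- `K` is a base field for `(p, S)`: finite over `ℚ`, unramified outside `S`, and `μ_p ⊂ K`
(the cyclotomic character is trivial on `Gal(ℚ̄/K)`).  Exactly the class of fields of
`DevissageGQ.devissage_GQ`. -/
structure IsBaseField (K : IntermediateField ℚ Qb) : Prop where
  unram : K.IsUnramifiedOutside S
  cyc : ∀ s ∈ K.fixingSubgroup, cycloChar p s = 1

/-- The `S`-level complex of `U ≤ G_ℚ` with trivial coefficients `𝔽_p`: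
`H^n(U; 𝔽_p) = (CU p S U).H n`. -/
abbrev CU (U : Subgroup GQ) : Cx (ZMod p) := ((levS S).sub U).trivCx p

/-- The all-level complex of `V ≤ G_ℚ` with trivial coefficients `𝔽_p` (local cohomology for
`V = U ⊓ D_A`). -/
abbrev CV (V : Subgroup GQ) : Cx (ZMod p) := (levD V).trivCx p

/-- The inclusion `V ≤ U` is continuous from the all-levels of `V` to the `S`-levels of `U`. -/
lemma isCts_inclusion {U V : Subgroup GQ} (h : V ≤ U) :
    ((levS S).sub U).IsCts (levD V) (Subgroup.inclusion h) := by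
  rintro _ ⟨_, ⟨L, hL, hLn, rfl⟩, rfl⟩
  refine ⟨L.fixingSubgroup.subgroupOf V, ⟨L, hL.1, hLn, rfl⟩, ?_⟩
  intro x hx
  exact hx

/-- Restriction `H^n(U; 𝔽_p) → H^n(V; 𝔽_p)` (from `S`-levels to all levels), `V ≤ U`. -/
def resUV {U V : Subgroup GQ} (h : V ≤ U) : Cx.Hom (CU p S U) (CV p V) :=
  ((levS S).sub U).res (levD V) (isCts_inclusion S h)
    (Representation.trivial (ZMod p) U (ZMod p)) ((levS S).sub U).isSmooth_trivial
    (levD V).isSmooth_trivial

@[simp] lemma resUV_apply {U V : Subgroup GQ} (h : V ≤ U) (n : ℕ) (f : (CU p S U).X n)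
    (g : Fin n → V) : ((resUV p S h).f n f).1 g = f.1 (Subgroup.inclusion h ∘ g) := rfl

/-- `Ш²(U; 𝔽_p)`: the classes of `H²(U; 𝔽_p)` which die on `U ⊓ D_A` for every valuation
subring `A` of `ℚ̄` over a prime of `S`. -/
def Sha2 (U : Subgroup GQ) : Submodule (ZMod p) ((CU p S U).H 2) :=
  ⨅ (A : ValuationSubring Qb) (_ : ∃ q ∈ S, A.LiesOverPrime (q : ℕ)),
    LinearMap.ker ((resUV p S (inf_le_left : U ⊓ decomp A ≤ U)).mapH 2)

lemma mem_Sha2 {U : Subgroup GQ} {x : (CU p S U).H 2} :
    x ∈ Sha2 p S U ↔ ∀ A : ValuationSubring Qb, (∃ q ∈ S, A.LiesOverPrime (q : ℕ)) →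
      (resUV p S (inf_le_left : U ⊓ decomp A ≤ U)).mapH 2 x = 0 := by
  simp [Sha2]

/-- The number of places over `S` of the fixed field of `U`:
`∑_{q ∈ S} #(U \ G_ℚ / D_q)`, `D_q` the decomposition group of `primeLocalPlace q`. -/
noncomputable def numPlaces (U : Subgroup GQ) : ℕ :=
  ∑ q ∈ S, Nat.card (DoubleCoset.Quotient (U : Set GQ) (decomp (primeLocalPlace q) : Set GQ))

section chiRep

variable {k : Type} [CommRing k] {G : Type} [Group G]

/-- The one-dimensional representation `k(χ)` of a character `χ : G →* kˣ`. -/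
def chiRep (χ : G →* kˣ) : Representation k G k where
  toFun g := (χ g : k) • LinearMap.id
  map_one' := by
    ext
    simp
  map_mul' g h := by
    ext
    simp [mul_comm]

@[simp] lemma chiRep_apply (χ : G →* kˣ) (g : G) (x : k) : chiRep χ g x = (χ g : k) * x := rfl

end chiRep

/-- `T = 𝔽_p(χ_cyc) ≅ μ_p` is smooth for the `S`-levels when `p ∈ S`. -/
lemma isSmooth_chiRep_cycloChar (hpS : pPrime p ∈ S) :
    (levS S).IsSmooth (chiRep (cycloChar p)) := by
  obtain ⟨ζ, hζ⟩ := Levels.exists_primitiveRoot_Qbar p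
  have hζS := Levels.isUnramifiedOutside_adjoin_primitiveRoot p S hpS hζ
  obtain ⟨L, hle, hL, hLn⟩ := Levels.exists_normal_level_ge hζS
  intro m
  refine ⟨L.fixingSubgroup, ⟨L, hL, hLn, rfl⟩, fun s hs => ?_⟩
  rw [chiRep_apply, Levels.cycloChar_eq_one_of_mem_fixingSubgroup p hζ
    (IntermediateField.fixingSubgroup_antitone hle hs)]
  simp

end

end Fermat.Agent.PT.Base
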