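/-
PT layer BASE: the arithmetic base inputs (B1)–(B6) of the Poitou–Tate engine as `Prop`s
(blueprint v1 #1434, architect decisions #1515).  Nothing is proved here: each `Prop` is a
TARGET with an owner; the engine (layer F) takes them as hypotheses, the arithmetic layers G/L
prove them.  Vocabulary: `Base/Defs.lean`; the datum is `Bridge.datum S` (`PT/Bridge.lean`).

Notation: `K` a base field (`IsBaseField p S K`), `U = K.fixingSubgroup = Gal(ℚ̄/K)`,
`H^n(U; 𝔽_p) = (CU p S U).H n` (`S`-levels), `H^n(V; 𝔽_p) = (CV p V).H n` (all levels) for the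
local groups `V = U ⊓ D_A`, `A` a valuation subring of `ℚ̄` over a prime of `S`.
-/
import Fermat.Agent.PT.Base.Defs

set_option autoImplicit false

open ExtCitation Module

namespace Fermat.Agent.PT.Base

local notation "Qb" => AlgebraicClosure ℚ
local notation "GQ" => (AlgebraicClosure ℚ ≃ₐ[ℚ] AlgebraicClosure ℚ)

noncomputable section

open Bridge

variable (p : ℕ) [Fact p.Prime] (S : Finset Nat.Primes)

/-- `T = 𝔽_p(χ_cyc)` is smooth for the datum when `p ∈ S`. -/
lemma isSmooth_T (hpS : pPrime p ∈ S) : (datum S).IsSmooth (chiRep (cycloChar p)) :=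
  isSmooth_chiRep_cycloChar p S hpS

/-- **(B1)** [G1 + G3; the class group cancels]: for every base field `K`, `U = G_K`,
`2·h¹(U; 𝔽_p) = 2·dim Ш²(U; 𝔽_p) + [G_ℚ : U] + 2·s_K`
(i.e. `h¹ = dim Ш² + r₂(K) + s_K`). -/
def B1 : Prop :=
  ∀ K : IntermediateField ℚ Qb, IsBaseField p S K →
    2 * finrank (ZMod p) ((CU p S K.fixingSubgroup).H 1) =
      2 * finrank (ZMod p) (Sha2 p S K.fixingSubgroup) + K.fixingSubgroup.index +
        2 * numPlaces S K.fixingSubgroup

/-- **(B2)** [L1]: `h¹(U ⊓ D_A; 𝔽_p) = 2 + [q = p]·[D_A : U ⊓ D_A]` for `A` over `q ∈ S`,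
`U = Gal(ℚ̄/K)` for EVERY finite `K/ℚ` containing `μ_p` (no ramification condition: the local
complexes are all-level, and the local counting needs a cofinal family of open subgroups). -/
def B2 : Prop :=
  ∀ K : IntermediateField ℚ Qb, FiniteDimensional ℚ K →
    (∀ s ∈ K.fixingSubgroup, cycloChar p s = 1) → ∀ q ∈ S, ∀ A : ValuationSubring Qb,
    A.LiesOverPrime (q : ℕ) →
    finrank (ZMod p) ((CV p (K.fixingSubgroup ⊓ decomp A)).H 1) =
      2 + if (q : ℕ) = p then K.fixingSubgroup.relIndex (decomp A) else 0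

/-- **(B3)** [L2]: `h²(U ⊓ D_A; 𝔽_p) = 1` for `A` over `q ∈ S`, `U = Gal(ℚ̄/K)` for EVERY finite
`K/ℚ` containing `μ_p`. -/
def B3 : Prop :=
  ∀ K : IntermediateField ℚ Qb, FiniteDimensional ℚ K →
    (∀ s ∈ K.fixingSubgroup, cycloChar p s = 1) → ∀ q ∈ S, ∀ A : ValuationSubring Qb,
    A.LiesOverPrime (q : ℕ) →
    finrank (ZMod p) ((CV p (K.fixingSubgroup ⊓ decomp A)).H 2) = 1

/-- **(B3T)** [L2 over `ℚ_q`]: `h²(D_q; T) = 1` for `q ∈ S`, `T = 𝔽_p(χ_cyc)`. -/
def B3T (hpS : pPrime p ∈ S) : Prop :=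
  ∀ q : ↥S, finrank (ZMod p)
    ((datum S).Hv (chiRep (cycloChar p)) (isSmooth_T p S hpS) q 2) = 1

/-- **(B4)** [G2 "⊆", over `ℚ` only — no coordinate line]: a class of `H²(G_{ℚ,S}; T)` which is
locally trivial at all places of `S` but one is locally trivial at that one, too. -/
def B4 (hpS : pPrime p ∈ S) : Prop :=
  ∀ (q₀ : ↥S) (x : (datum S).H (chiRep (cycloChar p)) (isSmooth_T p S hpS) 2),
    (∀ q : ↥S, q ≠ q₀ →
      (datum S).locH (chiRep (cycloChar p)) (isSmooth_T p S hpS) 2 x q = 0) →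
    (datum S).locH (chiRep (cycloChar p)) (isSmooth_T p S hpS) 2 x q₀ = 0

/-- **(B5)** [cyclotomic tower]: above every base field `K` there are base fields `K'`, Galois
over `K` of arbitrarily large `p`-power degree, with a bounded number of places over `S`. -/
def B5 : Prop :=
  ∀ K : IntermediateField ℚ Qb, IsBaseField p S K → ∃ B : ℕ, ∀ m : ℕ,
    ∃ K' : IntermediateField ℚ Qb, IsBaseField p S K' ∧ K ≤ K' ∧
      (K'.fixingSubgroup.subgroupOf K.fixingSubgroup).Normal ∧
      (∃ j : ℕ, m ≤ j ∧ K'.fixingSubgroup.relIndex K.fixingSubgroup = p ^ j) ∧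
      numPlaces S K'.fixingSubgroup ≤ B

/-- **(B6)** finiteness of `Ш²(U; 𝔽_p)` (all other finiteness statements follow from
(B1)–(B3): a `finrank` which is positive forces finite-dimensionality). -/
def B6 : Prop :=
  ∀ K : IntermediateField ℚ Qb, IsBaseField p S K →
    Module.Finite (ZMod p) (Sha2 p S K.fixingSubgroup)

/-- All arithmetic base inputs of the engine. -/
structure BaseInputs (hpS : pPrime p ∈ S) : Prop where
  b1 : B1 p S
  b2 : B2 p S
  b3 : B3 p S
  b3T : B3T p S hpS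
  b4 : B4 p S hpS
  b5 : B5 p S
  b6 : B6 p S

end

end Fermat.Agent.PT.Base
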