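/-
PT layer BASE: the "ChiLin producers" — the translation between the literal base statements of
`Base/Interfaces.lean` and the counting hypothesis `CdCount.ChiLin` of `Coh/CdCount.lean`.

* `finrank_H0_triv` : `H⁰(Γ; 𝔽_p)` is a line, for any leveled group;
* `exists_field_of_le` : a subgroup of `G_ℚ` containing `Gal(ℚ̄/F)`, `F` finite, is `Gal(ℚ̄/K)`;
* `exists_field_inf_eq` : every open subgroup `V` of a subgroup `D ≤ G_ℚ` (all levels) on which
  the cyclotomic character is trivial is `Gal(ℚ̄/K) ⊓ D` for a finite `K ⊇ μ_p`;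
* `chiLin_levD` : **local**: (B2) + (B3) give `ChiLin (levD D_A) p 1 (−[q = p]) (D_A ⊓ ker χ)`;
* `finv_of_b23`, `cdv_of_b23` : the fields `finv`, `cdv` of the engine's `CountHyp` for
  `Bridge.datum S`;
* `chiLin_levS` : **global**: finiteness of `H^{≤2}` and `2·χ₂(G_K) = −[G_ℚ : G_K]` for all base
  fields `K` give `ChiLin (levS S) p 2 (−1) (ker χ)`;
* `fin_of_chi`, `cd_of_chi` : the fields `fin`, `cd` of `CountHyp` for `Bridge.datum S`.
-/
import Fermat.Agent.PT.Base.Interfaces
import Fermat.Agent.PT.Base.B5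
import Fermat.Agent.PT.Coh.CdCount

set_option autoImplicit false

open ExtCitation Module

namespace Fermat.Agent.PT.Base

local notation "Qb" => AlgebraicClosure ℚ
local notation "GQ" => (AlgebraicClosure ℚ ≃ₐ[ℚ] AlgebraicClosure ℚ)

local instance isAlgebraicQbar_bcd : Algebra.IsAlgebraic ℚ Qb := AlgebraicClosure.isAlgebraic ℚ
local instance isAlgClosureQbar_bcd : IsAlgClosure ℚ Qb := ⟨inferInstance, inferInstance⟩
local instance normalQbar_bcd : Normal ℚ Qb := IsAlgClosure.normal ℚ Qb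
local instance isSeparableQbar_bcd : Algebra.IsSeparable ℚ Qb :=
  Algebra.IsAlgebraic.isSeparable_of_perfectField
local instance isGaloisQbar_bcd : IsGalois ℚ Qb := ⟨⟩

noncomputable section

open Bridge CdCount

/-! ### `H⁰` with trivial coefficients -/

section H0

variable {Γ : Type} [Group Γ] (L : LevelSys Γ) (p : ℕ) [Fact p.Prime]

/-- Evaluation of a class of degree `0` at the empty tuple. -/
def ev0Triv : (L.trivCx p).H 0 →ₗ[ZMod p] ZMod p :=
  Submodule.liftQ _
    ({ toFun := fun f => f.1.1 Fin.elim0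
       map_add' := fun _ _ => rfl
       map_smul' := fun _ _ => rfl } : (L.trivCx p).Z 0 →ₗ[ZMod p] ZMod p)
    (by
      intro f hf
      rw [Submodule.mem_comap, Cx.mem_B_zero] at hf
      rw [LinearMap.mem_ker]
      have h0 : (f : (L.trivCx p).X 0) = 0 := hf
      show (f : (L.trivCx p).X 0).1 Fin.elim0 = 0
      rw [h0]
      rfl)

theorem ev0Triv_Hπ (z : (L.trivCx p).Z 0) :
    ev0Triv L p ((L.trivCx p).Hπ 0 z) = z.1.1 Fin.elim0 := rfl

theorem ev0Triv_bijective : Function.Bijective (ev0Triv L p) := by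
  constructor
  · rw [injective_iff_map_eq_zero]
    intro x hx
    obtain ⟨z, rfl⟩ := (L.trivCx p).Hπ_surjective 0 x
    rw [ev0Triv_Hπ] at hx
    have hz : z = 0 := by
      apply Subtype.ext
      apply Subtype.ext
      funext g
      rw [Subsingleton.elim g Fin.elim0]
      exact hx
    rw [hz, map_zero]
  · intro c
    have hc : (⟨fun _ => c, LevelSys.isLevelConst_const c⟩ : (L.trivCx p).X 0) ∈
        (L.trivCx p).Z 0 := by
      rw [Cx.mem_Z]
      apply LevelSys.cx_ext
      intro g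
      rw [LevelSys.cx_d_apply, Fin.sum_univ_one]
      simp
    exact ⟨(L.trivCx p).Hπ 0 ⟨_, hc⟩, rfl⟩

/-- `H⁰(Γ; 𝔽_p)` is finite-dimensional of dimension one. -/
theorem finrank_H0_triv :
    Module.Finite (ZMod p) ((L.trivCx p).H 0) ∧ finrank (ZMod p) ((L.trivCx p).H 0) = 1 := by
  have e := LinearEquiv.ofBijective (ev0Triv L p) (ev0Triv_bijective L p)
  exact ⟨Module.Finite.equiv e.symm, by rw [e.finrank_eq, finrank_self]⟩

end H0

variable (p : ℕ) [Fact p.Prime] (S : Finset Nat.Primes)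

/-! ### Subgroups and fields -/

/-- A subgroup of `G_ℚ` containing `Gal(ℚ̄/F)` for a finite extension `F` is `Gal(ℚ̄/K)` for a
subfield `K` of `F`. -/
theorem exists_field_of_le (F : IntermediateField ℚ Qb) [FiniteDimensional ℚ F]
    (H : Subgroup GQ) (hFH : F.fixingSubgroup ≤ H) :
    ∃ K : IntermediateField ℚ Qb, K ≤ F ∧ FiniteDimensional ℚ K ∧ K.fixingSubgroup = H := by
  have hHopen : IsOpen (H : Set GQ) := Subgroup.isOpen_mono hFH F.fixingSubgroup_isOpen
  have hHclosed : IsClosed (H : Set GQ) := Subgroup.isClosed_of_isOpen _ hHopen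
  have hle : IntermediateField.fixedField H ≤ F := by
    rw [← InfiniteGalois.fixedField_fixingSubgroup F]
    exact IntermediateField.fixedField_antitone hFH
  exact ⟨IntermediateField.fixedField H, hle,
    FiniteDimensional.of_injective (IntermediateField.inclusion hle).toLinearMap
      (IntermediateField.inclusion_injective hle),
    InfiniteGalois.fixingSubgroup_fixedField ⟨H, hHclosed⟩⟩

/-- The kernel of the mod `p` cyclotomic character has index prime to `p`. -/
theorem not_dvd_index_ker_cycloChar : ¬ p ∣ (cycloChar p).ker.index := by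
  have hp : p.Prime := Fact.out
  intro h
  rw [Subgroup.index_ker] at h
  have h1 : Nat.card (cycloChar p).range ∣ Nat.card (ZMod p)ˣ :=
    Subgroup.card_subgroup_dvd_card _
  have h2 : Nat.card (ZMod p)ˣ = p - 1 := by
    rw [Nat.card_eq_fintype_card, ZMod.card_units]
  rw [h2] at h1
  have h3 := Nat.le_of_dvd (by have := hp.two_le; omega) (h.trans h1)
  have := hp.two_le
  omega

/-- The same for the trace of the kernel on a subgroup. -/
theorem not_dvd_index_ker_cycloChar_subgroupOf (D : Subgroup GQ) :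
    ¬ p ∣ ((cycloChar p).ker.subgroupOf D).index := fun h =>
  not_dvd_index_ker_cycloChar p
    (h.trans (Subgroup.relIndex_dvd_index_of_normal (cycloChar p).ker D))

/-- `ker χ_cyc` contains an `S`-level when `p ∈ S`. -/
theorem exists_mem_levS_le_ker (hpS : pPrime p ∈ S) :
    ∃ N ∈ (levS S).lev, N ≤ (cycloChar p).ker := by
  obtain ⟨ζ, hζ⟩ := Levels.exists_primitiveRoot_Qbar p
  obtain ⟨N, hN, hle⟩ :=
    exists_mem_levS_le (Levels.isUnramifiedOutside_adjoin_primitiveRoot p S hpS hζ)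
  exact ⟨N, hN, fun s hs => MonoidHom.mem_ker.mpr
    (Levels.cycloChar_eq_one_of_mem_fixingSubgroup p hζ (hle hs))⟩

/-- `D ⊓ ker χ_cyc` contains a level of `D`. -/
theorem exists_mem_levD_le_ker (D : Subgroup GQ) :
    ∃ N ∈ (levD D).lev, N ≤ (cycloChar p).ker.subgroupOf D := by
  have hp : p.Prime := Fact.out
  obtain ⟨ζ, hζ⟩ := Levels.exists_primitiveRoot_Qbar p
  have hfd : FiniteDimensional ℚ (IntermediateField.adjoin ℚ {ζ}) :=
    IntermediateField.adjoin.finiteDimensional (hζ.isIntegral hp.pos).tower_top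
  obtain ⟨N, hN, hle⟩ := exists_mem_levD_le D (IntermediateField.adjoin ℚ {ζ})
  refine ⟨N, hN, fun s hs => ?_⟩
  have h1 := hle hs
  rw [Subgroup.mem_subgroupOf] at h1 ⊢
  exact MonoidHom.mem_ker.mpr (Levels.cycloChar_eq_one_of_mem_fixingSubgroup p hζ h1)

/-- Every open subgroup `V` of `D ≤ G_ℚ` (for the all-levels system `levD D`) on which the
cyclotomic character is trivial is `Gal(ℚ̄/K) ⊓ D` for a finite extension `K/ℚ` containing
`μ_p`. -/
theorem exists_field_inf_eq (D : Subgroup GQ) (V : Subgroup D)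
    (hV : V ≤ (cycloChar p).ker.subgroupOf D) (hVo : ∃ N ∈ (levD D).lev, N ≤ V) :
    ∃ K : IntermediateField ℚ Qb, FiniteDimensional ℚ K ∧
      (∀ s ∈ K.fixingSubgroup, cycloChar p s = 1) ∧
      V.map D.subtype = K.fixingSubgroup ⊓ D := by
  have hp : p.Prime := Fact.out
  obtain ⟨_, ⟨F, hFfin, hFn, rfl⟩, hFV⟩ := hVo
  obtain ⟨ζ, hζ⟩ := Levels.exists_primitiveRoot_Qbar p
  have hfd : FiniteDimensional ℚ (IntermediateField.adjoin ℚ {ζ}) :=
    IntermediateField.adjoin.finiteDimensional (hζ.isIntegral hp.pos).tower_top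
  have hFnorm : F.fixingSubgroup.Normal := Levels.fixingSubgroup_normal F
  -- the normal subgroup `N' = G_F ⊓ ker χ`
  set N' : Subgroup GQ := F.fixingSubgroup ⊓ (cycloChar p).ker with hN'
  have hN'n : N'.Normal := inferInstance
  set H : Subgroup GQ := V.map D.subtype ⊔ N' with hH
  have hfd2 : FiniteDimensional ℚ (F ⊔ IntermediateField.adjoin ℚ {ζ} : IntermediateField ℚ Qb) :=
    IntermediateField.finiteDimensional_sup F _
  have hle : (F ⊔ IntermediateField.adjoin ℚ {ζ} : IntermediateField ℚ Qb).fixingSubgroup ≤ H := by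
    rw [IntermediateField.fixingSubgroup_sup]
    intro s hs
    refine (le_sup_right : N' ≤ H) ⟨hs.1, ?_⟩
    exact MonoidHom.mem_ker.mpr (Levels.cycloChar_eq_one_of_mem_fixingSubgroup p hζ hs.2)
  obtain ⟨K, -, hKfin, hKH⟩ := exists_field_of_le _ H hle
  have hVker : V.map D.subtype ≤ (cycloChar p).ker := by
    rintro _ ⟨v, hv, rfl⟩
    have := hV hv
    rw [Subgroup.mem_subgroupOf] at this
    exact this
  refine ⟨K, hKfin, fun s hs => ?_, ?_⟩
  · rw [hKH] at hs
    have hHker : H ≤ (cycloChar p).ker := sup_le hVker inf_le_right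
    exact MonoidHom.mem_ker.mp (hHker hs)
  · rw [hKH]
    apply le_antisymm
    · refine le_inf le_sup_left ?_
      rintro _ ⟨v, -, rfl⟩
      exact v.2
    · rintro x ⟨hxH, hxD⟩
      have hxH' : x ∈ ((V.map D.subtype ⊔ N' : Subgroup GQ) : Set GQ) := hxH
      rw [Subgroup.mul_normal] at hxH'
      obtain ⟨v, hv, n, hn, rfl⟩ := Set.mem_mul.mp hxH'
      obtain ⟨v', hv', rfl⟩ := hv
      have hnD : n ∈ D := by
        have h1 : ((v' : D) : GQ)⁻¹ * (((v' : D) : GQ) * n) ∈ D := D.mul_mem (D.inv_mem v'.2) hxD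
        rwa [inv_mul_cancel_left] at h1
      have hnV : (⟨n, hnD⟩ : D) ∈ V := hFV (Subgroup.mem_subgroupOf.mpr hn.1)
      exact ⟨v' * ⟨n, hnD⟩, V.mul_mem hv' hnV, rfl⟩

/-! ### Comparison of the level systems of a nested subgroup -/

theorem levD_nest_isCts (D : Subgroup GQ) (V : Subgroup D) :
    (levD (V.map D.subtype)).IsCts ((levD D).sub V) (nestEquiv D V).toMonoidHom := by
  rintro _ ⟨F, hFfin, hFn, rfl⟩
  refine ⟨(F.fixingSubgroup.subgroupOf D).subgroupOf V,
    ⟨_, ⟨F, hFfin, hFn, rfl⟩, rfl⟩, ?_⟩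
  intro w hw
  rw [Subgroup.mem_subgroupOf, Subgroup.mem_subgroupOf] at hw
  rw [Subgroup.mem_comap, Subgroup.mem_subgroupOf]
  exact hw

theorem levD_nest_isCts_symm (D : Subgroup GQ) (V : Subgroup D) :
    ((levD D).sub V).IsCts (levD (V.map D.subtype)) (nestEquiv D V).symm.toMonoidHom := by
  rintro _ ⟨_, ⟨F, hFfin, hFn, rfl⟩, rfl⟩
  refine ⟨F.fixingSubgroup.subgroupOf (V.map D.subtype), ⟨F, hFfin, hFn, rfl⟩, ?_⟩
  intro y hy
  rw [Subgroup.mem_subgroupOf] at hy
  rw [Subgroup.mem_comap, Subgroup.mem_subgroupOf, Subgroup.mem_subgroupOf]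
  show ((((nestEquiv D V).symm y : V) : D) : GQ) ∈ F.fixingSubgroup
  rw [nestEquiv_symm_coe]
  exact hy

/-- The comparison map `H^n(V.map D.subtype; 𝔽_p) → H^n(V; 𝔽_p)` (all levels of `G_ℚ` on the
left, the levels of `D` restricted to `V` on the right). -/
def levDNest (D : Subgroup GQ) (V : Subgroup D) :
    Cx.Hom (CV p (V.map D.subtype)) (((levD D).sub V).trivCx p) :=
  pullTriv ((levD D).sub V) (levD (V.map D.subtype)) p (levD_nest_isCts D V)

theorem levDNest_bijective (D : Subgroup GQ) (V : Subgroup D) (n : ℕ) :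
    Function.Bijective ((levDNest p D V).mapH n) :=
  pullTriv_bijective _ _ (nestEquiv D V) (levD_nest_isCts D V) (levD_nest_isCts_symm D V) n

/-! ### Local: (B2) + (B3) give the counting hypothesis -/

/-- Finiteness of `H^{≤2}(G_K ⊓ D_A; 𝔽_p)` from (B2), (B3). -/
theorem finite_CV_of_b23 (hb2 : B2 p S) (hb3 : B3 p S) (K : IntermediateField ℚ Qb)
    (hKfin : FiniteDimensional ℚ K) (hKcyc : ∀ s ∈ K.fixingSubgroup, cycloChar p s = 1)
    (q : Nat.Primes) (hq : q ∈ S) (A : ValuationSubring Qb) (hA : A.LiesOverPrime (q : ℕ))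
    (n : ℕ) (hn : n ≤ 2) :
    Module.Finite (ZMod p) ((CV p (K.fixingSubgroup ⊓ decomp A)).H n) := by
  have h1 := hb2 K hKfin hKcyc q hq A hA
  have h2 := hb3 K hKfin hKcyc q hq A hA
  interval_cases n
  · exact (finrank_H0_triv (levD (K.fixingSubgroup ⊓ decomp A)) p).1
  · exact Module.finite_of_finrank_pos (by rw [h1]; exact Nat.lt_of_lt_of_le (by norm_num) (Nat.le_add_right _ _))
  · exact Module.finite_of_finrank_pos (by rw [h2]; norm_num)

/-- The local Euler characteristic `χ₂(G_K ⊓ D_A; 𝔽_p) = −[q = p]·[D_A : G_K ⊓ D_A]` from (B2),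
(B3). -/
theorem chi_CV_of_b23 (hb2 : B2 p S) (hb3 : B3 p S) (K : IntermediateField ℚ Qb)
    (hKfin : FiniteDimensional ℚ K) (hKcyc : ∀ s ∈ K.fixingSubgroup, cycloChar p s = 1)
    (q : Nat.Primes) (hq : q ∈ S) (A : ValuationSubring Qb) (hA : A.LiesOverPrime (q : ℕ)) :
    Cx.chi (CV p (K.fixingSubgroup ⊓ decomp A)) 2 =
      (if (q : ℕ) = p then -1 else 0) * (K.fixingSubgroup.relIndex (decomp A) : ℤ) := by
  have h1 := hb2 K hKfin hKcyc q hq A hA
  have h2 := hb3 K hKfin hKcyc q hq A hA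
  rw [Cx.chi_two, (finrank_H0_triv (levD (K.fixingSubgroup ⊓ decomp A)) p).2, h1, h2]
  split_ifs <;> push_cast <;> ring

/-- **Local counting hypothesis.**  (B2) and (B3) give `ChiLin` for the decomposition group `D_A`
(`A` over `q ∈ S`) with all finite levels: for every open `V ≤ D_A ⊓ ker χ_cyc`,
`H^{≤2}(V; 𝔽_p)` is finite and `χ₂(V; 𝔽_p) = −[q = p]·[D_A : V]`. -/
theorem chiLin_levD (hb2 : B2 p S) (hb3 : B3 p S) (q : Nat.Primes) (hq : q ∈ S)
    (A : ValuationSubring Qb) (hA : A.LiesOverPrime (q : ℕ)) :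
    ChiLin (levD (decomp A)) p 1 (if (q : ℕ) = p then -1 else 0)
      ((cycloChar p).ker.subgroupOf (decomp A)) := by
  intro V hV hVo
  obtain ⟨K, hKfin, hKcyc, hVK⟩ := exists_field_inf_eq p (decomp A) V hV hVo
  have hf := finite_CV_of_b23 p S hb2 hb3 K hKfin hKcyc q hq A hA
  have hc := chi_CV_of_b23 p S hb2 hb3 K hKfin hKcyc q hq A hA
  rw [← hVK] at hf hc
  have hrel : K.fixingSubgroup.relIndex (decomp A) = V.index := by
    have hKV : K.fixingSubgroup.subgroupOf (decomp A) = V := by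
      ext x
      rw [Subgroup.mem_subgroupOf]
      constructor
      · intro hx
        have hx' : (x : GQ) ∈ V.map (decomp A).subtype := by
          rw [hVK]
          exact ⟨hx, x.2⟩
        obtain ⟨y, hy, hyx⟩ := hx'
        have hyx' : y = x := Subtype.ext hyx
        rw [← hyx']
        exact hy
      · intro hx
        have hx' : (x : GQ) ∈ K.fixingSubgroup ⊓ decomp A := by
          rw [← hVK]
          exact ⟨x, hx, rfl⟩
        exact hx'.1
    rw [Subgroup.relIndex, hKV]
  rw [hrel] at hc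
  refine ⟨fun n hn => ?_, ?_⟩
  · have := hf n hn
    exact finite_of_bijective (levDNest p (decomp A) V) (levDNest_bijective p (decomp A) V n)
  · rw [← chi_eq_of_bijective (levDNest p (decomp A) V) 2
      (fun n _ => levDNest_bijective p (decomp A) V n), hc, one_mul]

/-- The field `finv` of the engine's `CountHyp` for `Bridge.datum S`, from (B2) and (B3):
local cohomology of finite smooth modules is finite in degrees `≤ 2`. -/
theorem finv_of_b23 (hb2 : B2 p S) (hb3 : B3 p S)
    {M : Type} [AddCommGroup M] [Module (ZMod p) M] [Module.Finite (ZMod p) M]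
    (ρ : Representation (ZMod p) GQ M) (hρ : (datum S).IsSmooth ρ) (v : (datum S).ι) (n : ℕ)
    (hn : n ≤ 2) : Module.Finite (ZMod p) ((datum S).Hv ρ hρ v n) := by
  have H := chiLin_levD p S hb2 hb3 v.1 v.2 (primeLocalPlace v.1)
    (liesOverPrime_primeLocalPlace v.1)
  exact finite_H ((datum S).Lv v) _ (exists_mem_levD_le_ker p _)
    (not_dvd_index_ker_cycloChar_subgroupOf p _) n (fun V hV hVo => (H V hV hVo).1 n hn)
    ((datum S).resRep ρ v) ((datum S).isSmooth_resRep hρ v)

/-- The field `cdv` of the engine's `CountHyp` for `Bridge.datum S`, from (B2) and (B3):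
`H³(D_q; M) = 0` for finite smooth `M`. -/
theorem cdv_of_b23 (hb2 : B2 p S) (hb3 : B3 p S)
    {M : Type} [AddCommGroup M] [Module (ZMod p) M] [Module.Finite (ZMod p) M]
    (ρ : Representation (ZMod p) GQ M) (hρ : (datum S).IsSmooth ρ) (v : (datum S).ι) :
    Subsingleton ((datum S).Hv ρ hρ v 3) := by
  have H := chiLin_levD p S hb2 hb3 v.1 v.2 (primeLocalPlace v.1)
    (liesOverPrime_primeLocalPlace v.1)
  exact subsingleton_H3 ((datum S).Lv v) one_ne_zero _ (exists_mem_levD_le_ker p _)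
    (not_dvd_index_ker_cycloChar_subgroupOf p _) H
    ((datum S).resRep ρ v) ((datum S).isSmooth_resRep hρ v)

/-! ### Global: `2·χ₂(G_K) = −[G_ℚ : G_K]` on base fields gives the counting hypothesis -/

/-- **Global counting hypothesis.**  Finiteness of `H^{≤2}(G_K; 𝔽_p)` and
`2·χ₂(G_K; 𝔽_p) = −[G_ℚ : G_K]` for all base fields `K` give `ChiLin` for `G_ℚ` with the
`S`-levels: every subgroup of `ker χ_cyc` containing an `S`-level is `G_K` for a base field. -/
theorem chiLin_levS
    (h : ∀ K : IntermediateField ℚ Qb, IsBaseField p S K →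
      (∀ n ≤ 2, Module.Finite (ZMod p) ((CU p S K.fixingSubgroup).H n)) ∧
        2 * Cx.chi (CU p S K.fixingSubgroup) 2 = -(K.fixingSubgroup.index : ℤ)) :
    ChiLin (levS S) p 2 (-1) (cycloChar p).ker := by
  intro V hV hVo
  obtain ⟨_, ⟨L, hL, hLn, rfl⟩, hLV⟩ := hVo
  obtain ⟨K, -, hK, rfl⟩ := DevissageGQ.exists_level_of_le S hL V hLV
  have hb : IsBaseField p S K := ⟨hK, fun s hs => MonoidHom.mem_ker.mp (hV hs)⟩
  obtain ⟨h1, h2⟩ := h K hb
  refine ⟨h1, ?_⟩
  rw [neg_one_mul]
  exact h2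

/-- The field `hχ` of the engine's `CountHyp` for `Bridge.datum S` and `χ = χ_cyc`. -/
theorem hχ_cycloChar (hpS : pPrime p ∈ S) :
    ∃ N ∈ (datum S).L.lev, ∀ s ∈ N, cycloChar p s = 1 := by
  obtain ⟨N, hN, hle⟩ := exists_mem_levS_le_ker p S hpS
  exact ⟨N, hN, fun s hs => MonoidHom.mem_ker.mp (hle hs)⟩

/-- The field `fin` of the engine's `CountHyp` for `Bridge.datum S`. -/
theorem fin_of_chi (hpS : pPrime p ∈ S)
    (h : ∀ K : IntermediateField ℚ Qb, IsBaseField p S K →
      (∀ n ≤ 2, Module.Finite (ZMod p) ((CU p S K.fixingSubgroup).H n)) ∧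
        2 * Cx.chi (CU p S K.fixingSubgroup) 2 = -(K.fixingSubgroup.index : ℤ))
    {M : Type} [AddCommGroup M] [Module (ZMod p) M] [Module.Finite (ZMod p) M]
    (ρ : Representation (ZMod p) GQ M) (hρ : (datum S).IsSmooth ρ) (n : ℕ) (hn : n ≤ 2) :
    Module.Finite (ZMod p) ((datum S).H ρ hρ n) :=
  finite_H (levS S) (cycloChar p).ker (exists_mem_levS_le_ker p S hpS)
    (not_dvd_index_ker_cycloChar p) n
    (fun V hV hVo => (chiLin_levS p S h V hV hVo).1 n hn) ρ hρ

/-- The field `cd` of the engine's `CountHyp` for `Bridge.datum S`. -/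
theorem cd_of_chi (hpS : pPrime p ∈ S)
    (h : ∀ K : IntermediateField ℚ Qb, IsBaseField p S K →
      (∀ n ≤ 2, Module.Finite (ZMod p) ((CU p S K.fixingSubgroup).H n)) ∧
        2 * Cx.chi (CU p S K.fixingSubgroup) 2 = -(K.fixingSubgroup.index : ℤ))
    {M : Type} [AddCommGroup M] [Module (ZMod p) M] [Module.Finite (ZMod p) M]
    (ρ : Representation (ZMod p) GQ M) (hρ : (datum S).IsSmooth ρ) :
    Subsingleton ((datum S).H ρ hρ 3) :=
  subsingleton_H3 (levS S) (by norm_num : (2 : ℤ) ≠ 0) (cycloChar p).ker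
    (exists_mem_levS_le_ker p S hpS) (not_dvd_index_ker_cycloChar p) (chiLin_levS p S h) ρ hρ

end

end Fermat.Agent.PT.Base

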