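/-
PT layer BASE: the local hypotheses `cdL` (and the matching finiteness) of
`LocDatum.countHyp_of_dims` (`Coh/EngineMain.lean`) for `Bridge.datum S`, from (B2) and (B3):
for EVERY finite smooth module of the local group `D_q` (all finite levels), not only for
restrictions of global modules, `H³(D_q; M) = 0` and `H^{≤2}(D_q; M)` is finite.
-/
import Fermat.Agent.PT.Base.Cd

set_option autoImplicit false

open ExtCitation Module

namespace Fermat.Agent.PT.Base

local notation "Qb" => AlgebraicClosure ℚ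
local notation "GQ" => (AlgebraicClosure ℚ ≃ₐ[ℚ] AlgebraicClosure ℚ)

open Bridge CdCount

variable (p : ℕ) [Fact p.Prime] (S : Finset Nat.Primes)

/-- `H³(D_A; M) = 0` for every finite smooth `𝔽_p`-module `M` of a decomposition group `D_A`
(`A` over a prime of `S`; all finite levels), from (B2) and (B3). -/
theorem subsingleton_H3_decomp (hb2 : B2 p S) (hb3 : B3 p S) (q : Nat.Primes) (hq : q ∈ S)
    (A : ValuationSubring Qb) (hA : A.LiesOverPrime (q : ℕ))
    {M : Type} [AddCommGroup M] [Module (ZMod p) M] [Module.Finite (ZMod p) M]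
    (ρ : Representation (ZMod p) (decomp A) M) (hρ : (levD (decomp A)).IsSmooth ρ) :
    Subsingleton (((levD (decomp A)).cx ρ hρ).H 3) :=
  subsingleton_H3 (levD (decomp A)) one_ne_zero _ (exists_mem_levD_le_ker p _)
    (not_dvd_index_ker_cycloChar_subgroupOf p _) (chiLin_levD p S hb2 hb3 q hq A hA) ρ hρ

/-- `H^n(D_A; M)`, `n ≤ 2`, is finite for every finite smooth `𝔽_p`-module `M` of a
decomposition group `D_A` (`A` over a prime of `S`; all finite levels), from (B2) and (B3). -/
theorem finite_H_decomp (hb2 : B2 p S) (hb3 : B3 p S) (q : Nat.Primes) (hq : q ∈ S)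
    (A : ValuationSubring Qb) (hA : A.LiesOverPrime (q : ℕ))
    {M : Type} [AddCommGroup M] [Module (ZMod p) M] [Module.Finite (ZMod p) M]
    (ρ : Representation (ZMod p) (decomp A) M) (hρ : (levD (decomp A)).IsSmooth ρ)
    (n : ℕ) (hn : n ≤ 2) : Module.Finite (ZMod p) (((levD (decomp A)).cx ρ hρ).H n) :=
  finite_H (levD (decomp A)) _ (exists_mem_levD_le_ker p _)
    (not_dvd_index_ker_cycloChar_subgroupOf p _) n
    (fun V hV hVo => (chiLin_levD p S hb2 hb3 q hq A hA V hV hVo).1 n hn) ρ hρ

/-- The hypothesis `cdL` of `LocDatum.countHyp_of_dims` for `Bridge.datum S`, literally. -/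
theorem cdL_of_b23 (hb2 : B2 p S) (hb3 : B3 p S) (v : (datum S).ι)
    (M : Type) [AddCommGroup M] [Module (ZMod p) M] [Module.Finite (ZMod p) M]
    (ρ : Representation (ZMod p) ((datum S).D v) M) (hρ : ((datum S).Lv v).IsSmooth ρ) :
    Subsingleton ((((datum S).Lv v).cx ρ hρ).H 3) :=
  subsingleton_H3_decomp p S hb2 hb3 v.1 v.2 (primeLocalPlace v.1)
    (liesOverPrime_primeLocalPlace v.1) ρ hρ

/-- Finiteness of the local cohomology of ALL finite smooth local modules in degrees `≤ 2`,
for `Bridge.datum S`. -/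
theorem finL_of_b23 (hb2 : B2 p S) (hb3 : B3 p S) (v : (datum S).ι)
    (M : Type) [AddCommGroup M] [Module (ZMod p) M] [Module.Finite (ZMod p) M]
    (ρ : Representation (ZMod p) ((datum S).D v) M) (hρ : ((datum S).Lv v).IsSmooth ρ)
    (n : ℕ) (hn : n ≤ 2) : Module.Finite (ZMod p) ((((datum S).Lv v).cx ρ hρ).H n) :=
  finite_H_decomp p S hb2 hb3 v.1 v.2 (primeLocalPlace v.1)
    (liesOverPrime_primeLocalPlace v.1) ρ hρ n hn

end Fermat.Agent.PT.Base
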