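import Fermat.Agent.PT.Base.Concrete
import Fermat.Agent.PT.Base.CdL
import Fermat.Agent.PT.Coh.EngineTop

/-!
# PT (S55): the concrete final assembly

* `s55_of_items` : the conclusion of S55 from the nine base items of the formal engine
  (`LocDatum.finrank_sha_eq_of_base`) for `𝔇 = Bridge.datum S`, `k = 𝔽_p`, `χ = cycloChar p`,
  `τ = Base.chiRep χ`;
* `s55_of_baseInputs` : the conclusion of S55 from the arithmetic base inputs `BaseInputs p S`
  and the two global statements on the base fields which remain to be derived from them: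
  `(F1)` `2·χ₂(G_K; 𝔽_p) = −[G_ℚ : G_K]` with finiteness, and `(F2)` = `(base)`:
  `h³_c(X_N) = 1` and `2·χ₂(G; X_N) = Σ_v χ₂(D_v; X_N)` for a cofinal family of levels `N`.
-/

set_option autoImplicit false

open CategoryTheory Module groupCohomology ExtCitation
open Fermat.Agent.PT Fermat.Agent.PT.Bridge Fermat.Agent.PT.Base

namespace Fermat.Agent.PT.Base.Asm

local notation "Qb" => AlgebraicClosure ℚ
local notation "GQ" => (AlgebraicClosure ℚ ≃ₐ[ℚ] AlgebraicClosure ℚ)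

variable {p : ℕ} [Fact p.Prime] (S : Finset Nat.Primes)

/-- **S55 from the nine base items of the formal engine.** -/
theorem s55_of_items (hp2 : p ≠ 2) (hpS : pPrime p ∈ S)
    (fin : ∀ {M : Type} [AddCommGroup M] [Module (ZMod p) M] [Module.Finite (ZMod p) M]
      (ρ : Representation (ZMod p) GQ M) (hρ : (datum S).IsSmooth ρ) (n : ℕ), n ≤ 2 →
        Module.Finite (ZMod p) ((datum S).H ρ hρ n))
    (finv : ∀ {M : Type} [AddCommGroup M] [Module (ZMod p) M] [Module.Finite (ZMod p) M]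
      (ρ : Representation (ZMod p) GQ M) (hρ : (datum S).IsSmooth ρ) (v : (datum S).ι) (n : ℕ),
        n ≤ 2 → Module.Finite (ZMod p) ((datum S).Hv ρ hρ v n))
    (cd : ∀ {M : Type} [AddCommGroup M] [Module (ZMod p) M] [Module.Finite (ZMod p) M]
      (ρ : Representation (ZMod p) GQ M) (hρ : (datum S).IsSmooth ρ),
        Subsingleton ((datum S).H ρ hρ 3))
    (cdv : ∀ {M : Type} [AddCommGroup M] [Module (ZMod p) M] [Module.Finite (ZMod p) M]
      (ρ : Representation (ZMod p) GQ M) (hρ : (datum S).IsSmooth ρ) (v : (datum S).ι),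
        Subsingleton ((datum S).Hv ρ hρ v 3))
    (cdL : ∀ (v : (datum S).ι) (M : Type) [AddCommGroup M] [Module (ZMod p) M]
      [Module.Finite (ZMod p) M] (ρ : Representation (ZMod p) ((datum S).D v) M)
      (hρ : ((datum S).Lv v).IsSmooth ρ), Subsingleton ((((datum S).Lv v).cx ρ hρ).H 3))
    (hT2 : ∀ v, Nontrivial ((datum S).Hv (chiRep (cycloChar p)) (isSmooth_T p S hpS) v 2))
    (noLine : ∀ (v₀ : (datum S).ι)
      (x : (datum S).H (chiRep (cycloChar p)) (isSmooth_T p S hpS) 2),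
      (∀ v, v ≠ v₀ → (datum S).locH (chiRep (cycloChar p)) (isSmooth_T p S hpS) 2 x v = 0) →
        (datum S).locH (chiRep (cycloChar p)) (isSmooth_T p S hpS) 2 x v₀ = 0)
    (base : ∀ N₀ ∈ (datum S).L.lev, ∃ N, ∃ hN : N ∈ (datum S).L.lev, N ≤ N₀ ∧
      finrank (ZMod p) ((datum S).Hc (Shapiro.permRep N (ZMod p))
        (Shapiro.permRep_smooth (datum S).L N (ZMod p) ⟨N, hN, le_rfl⟩) 3) = 1 ∧
      2 * Cx.chi ((datum S).C (Shapiro.permRep N (ZMod p))
        (Shapiro.permRep_smooth (datum S).L N (ZMod p) ⟨N, hN, le_rfl⟩)) 2 =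
        ∑ v, Cx.chi ((datum S).Cv (Shapiro.permRep N (ZMod p))
          (Shapiro.permRep_smooth (datum S).L N (ZMod p) ⟨N, hN, le_rfl⟩) v) 2)
    (basev : ∀ v, ∀ N₀ ∈ ((datum S).Lv v).lev, ∃ N, ∃ hN : N ∈ ((datum S).Lv v).lev, N ≤ N₀ ∧
      finrank (ZMod p) ((((datum S).Lv v).cx (Shapiro.permRep N (ZMod p))
        (Shapiro.permRep_smooth ((datum S).Lv v) N (ZMod p) ⟨N, hN, le_rfl⟩)).H 2) = 1)
    (M : Rep.{0} (ZMod p) GQ) [FiniteDimensional (ZMod p) M]
    (hsm : ∀ m : M, ∃ F : IntermediateField ℚ Qb, FiniteDimensional ℚ F ∧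
      ∀ s ∈ F.fixingSubgroup, M.ρ s m = m)
    (hMur : ∀ q : Nat.Primes, q ∉ S → ∀ A : ValuationSubring Qb,
      A.LiesOverPrime (q : ℕ) → ∀ g ∈ A.inertiaSubgroupIn ℚ, M.ρ g = 1) :
    ∃ B : sha₁ S (M.dualTwist (cycloChar p)) →ₗ[ZMod p] sha₂ S M →ₗ[ZMod p] ZMod p,
      (∀ y, (∀ x, B y x = 0) → y = 0) ∧ (∀ x, (∀ y, B y x = 0) → x = 0) := by
  have hM : (levS S).IsSmooth M.ρ := isSmooth_of_smooth_unramified S M hsm hMur
  have hM' : (levS S).IsSmooth (M.dualTwist (cycloChar p)).ρ :=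
    isSmooth_dualTwist_of_smooth_unramified S hpS M hsm hMur
  have hne : Nonempty (datum S).ι := Final.nonempty_ι S hpS
  have key : finrank (ZMod p) ((datum S).sha M.ρ hM 2) =
      finrank (ZMod p) ((datum S).sha (LocDatum.dualTw (cycloChar p) M.ρ) hM' 1) :=
    (datum S).finrank_sha_eq_of_base (cycloChar p) (τ := chiRep (cycloChar p))
      (fun _ _ => rfl) (isSmooth_T p S hpS) (Final.hχ_datum S hpS) fin finv cd cdv cdL hT2
      noLine base basev M.ρ hM hM'
  have e2 : shaCx S M hM 2 = (datum S).sha M.ρ hM 2 := shaCx_eq_ker_locH S M hM 2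
  have e1 : shaCx S (M.dualTwist (cycloChar p)) hM' 1 =
      (datum S).sha (LocDatum.dualTw (cycloChar p) M.ρ) hM' 1 :=
    shaCx_eq_ker_locH S (M.dualTwist (cycloChar p)) hM' 1
  have hfin2 : Module.Finite (ZMod p) ((datum S).H M.ρ hM 2) := fin M.ρ hM 2 le_rfl
  have : Module.Finite (ZMod p) (Module.Dual (ZMod p) M) := inferInstance
  have hfin1 : Module.Finite (ZMod p)
      ((datum S).H (LocDatum.dualTw (cycloChar p) M.ρ) hM' 1) :=
    fin (LocDatum.dualTw (cycloChar p) M.ρ) hM' 1 (by omega)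
  have f2 : FiniteDimensional (ZMod p) (shaCx S M hM 2) := by
    rw [e2]; infer_instance
  have f1 : FiniteDimensional (ZMod p) (shaCx S (M.dualTwist (cycloChar p)) hM' 1) := by
    rw [e1]; infer_instance
  refine exists_sha_pairing_of_finrank_shaCx S hp2 M hM hM' ?_
  rw [e1, e2]
  exact key.symm

/-- **S55 from the arithmetic base inputs** and the two global statements `(F1)`, `(F2)` on the
base fields (to be derived from `BaseInputs` in `Base/Formal.lean`). -/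
theorem s55_of_baseInputs (hp2 : p ≠ 2) (hpS : pPrime p ∈ S) (H : BaseInputs p S hpS)
    (hF1 : ∀ K : IntermediateField ℚ Qb, IsBaseField p S K →
      (∀ n ≤ 2, Module.Finite (ZMod p) ((CU p S K.fixingSubgroup).H n)) ∧
        2 * Cx.chi (CU p S K.fixingSubgroup) 2 = -(K.fixingSubgroup.index : ℤ))
    (hF2 : ∀ N₀ ∈ (datum S).L.lev, ∃ N, ∃ hN : N ∈ (datum S).L.lev, N ≤ N₀ ∧
      finrank (ZMod p) ((datum S).Hc (Shapiro.permRep N (ZMod p))
        (Shapiro.permRep_smooth (datum S).L N (ZMod p) ⟨N, hN, le_rfl⟩) 3) = 1 ∧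
      2 * Cx.chi ((datum S).C (Shapiro.permRep N (ZMod p))
        (Shapiro.permRep_smooth (datum S).L N (ZMod p) ⟨N, hN, le_rfl⟩)) 2 =
        ∑ v, Cx.chi ((datum S).Cv (Shapiro.permRep N (ZMod p))
          (Shapiro.permRep_smooth (datum S).L N (ZMod p) ⟨N, hN, le_rfl⟩) v) 2)
    (M : Rep.{0} (ZMod p) GQ) [FiniteDimensional (ZMod p) M]
    (hsm : ∀ m : M, ∃ F : IntermediateField ℚ Qb, FiniteDimensional ℚ F ∧
      ∀ s ∈ F.fixingSubgroup, M.ρ s m = m)
    (hMur : ∀ q : Nat.Primes, q ∉ S → ∀ A : ValuationSubring Qb,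
      A.LiesOverPrime (q : ℕ) → ∀ g ∈ A.inertiaSubgroupIn ℚ, M.ρ g = 1) :
    ∃ B : sha₁ S (M.dualTwist (cycloChar p)) →ₗ[ZMod p] sha₂ S M →ₗ[ZMod p] ZMod p,
      (∀ y, (∀ x, B y x = 0) → y = 0) ∧ (∀ x, (∀ y, B y x = 0) → x = 0) :=
  s55_of_items S hp2 hpS
    (fun ρ hρ n hn => fin_of_chi p S hpS hF1 ρ hρ n hn)
    (fun ρ hρ v n hn => finv_of_b23 p S H.b2 H.b3 ρ hρ v n hn)
    (fun ρ hρ => cd_of_chi p S hpS hF1 ρ hρ)
    (fun ρ hρ v => cdv_of_b23 p S H.b2 H.b3 ρ hρ v)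
    (fun v M _ _ _ ρ hρ => cdL_of_b23 p S H.b2 H.b3 v M ρ hρ)
    (fun v => Concrete.hT2 p S hpS H.b3T v)
    H.b4
    hF2
    (fun v => Concrete.basev p S H.b3 v)
    M hsm hMur

end Fermat.Agent.PT.Base.Asm
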