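/-
PT layer BASE: assembly of (B1) and (B6) from
* (B1a) G1-H1 (`KumH1.exists_finrank_H1_CU`, `two_mul_nrComplexPlaces_of_isBaseField`) — landed;
* (B1c) PLACES: `#S_K = numPlaces S G_K`;
* (B1b) G3: two injections `Cl_S(K)/p ↪ Ш²(G_K; 𝔽_p)` (G3-GE) and `Ш²(G_K; 𝔽_p) ↪ Cl_S(K)/p`
  (G3-LE, the Hasse principle).
The three missing inputs are hypotheses here (`PlacesHyp`, `G3GeHyp`, `G3LeHyp`).
-/
import Fermat.Agent.PT.Base.Interfaces
import Fermat.Agent.PT.G.KumH1Base

set_option autoImplicit false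

open ExtCitation Module

namespace Fermat.Agent.PT.Base

open Bridge Fermat.Agent.PT.KumBridge Fermat.Agent.PT.SelmerSeq NumberField

local notation "Qb" => AlgebraicClosure ℚ
local notation "GQ" => (AlgebraicClosure ℚ ≃ₐ[ℚ] AlgebraicClosure ℚ)

variable (p : ℕ) [Fact p.Prime] (S : Finset Nat.Primes)

/-- (B1c) PLACES: the number of primes of `K` over `S` is the number of double cosets. -/
def PlacesHyp : Prop :=
  ∀ (K : IntermediateField ℚ Qb) [NumberField K], IsBaseField p S K →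
    Nat.card (primesOver K S) = numPlaces S K.fixingSubgroup

/-- (G3-GE): `Cl_S(K)/p` injects into `Ш²(G_K; 𝔽_p)`. -/
def G3GeHyp : Prop :=
  ∀ (K : IntermediateField ℚ Qb) [NumberField K], IsBaseField p S K →
    ∃ f : ClSMod K (primesOver K S) p → (CU p S K.fixingSubgroup).H 2,
      Function.Injective f ∧ ∀ x, f x ∈ Sha2 p S K.fixingSubgroup

/-- (G3-LE), the Hasse principle: `Ш²(G_K; 𝔽_p)` injects into `Cl_S(K)/p`. -/
def G3LeHyp : Prop :=
  ∀ (K : IntermediateField ℚ Qb) [NumberField K], IsBaseField p S K →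
    ∃ g : ↥(Sha2 p S K.fixingSubgroup) → ClSMod K (primesOver K S) p, Function.Injective g

variable {p S}

/-- Under (G3-GE) and (G3-LE): `Ш²(G_K; 𝔽_p)` is finite of the cardinality of `Cl_S(K)/p`. -/
theorem card_Sha2_of_g3 (hp2 : p ≠ 2) (hpS : pPrime p ∈ S) (hge : G3GeHyp p S)
    (hle : G3LeHyp p S) (K : IntermediateField ℚ Qb) [NumberField K] (hK : IsBaseField p S K) :
    Finite ↥(Sha2 p S K.fixingSubgroup) ∧
      Nat.card ↥(Sha2 p S K.fixingSubgroup) = Nat.card (ClSMod K (primesOver K S) p) := by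
  have hp : p.Prime := Fact.out
  obtain ⟨c, hc, -, -⟩ := KumH1.exists_finrank_H1_CU p S K hp2 hpS hK
  have hfinC : Finite (ClSMod K (primesOver K S) p) := by
    apply Nat.finite_of_card_ne_zero
    rw [hc]
    exact pow_ne_zero _ hp.ne_zero
  obtain ⟨g, hg⟩ := hle K hK
  obtain ⟨f, hf, hfS⟩ := hge K hK
  have hfinS : Finite ↥(Sha2 p S K.fixingSubgroup) := Finite.of_injective g hg
  refine ⟨hfinS, le_antisymm (Nat.card_le_card_of_injective g hg) ?_⟩
  let f' : ClSMod K (primesOver K S) p → ↥(Sha2 p S K.fixingSubgroup) := fun x => ⟨f x, hfS x⟩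
  have hf' : Function.Injective f' := fun x y h => hf (congrArg Subtype.val h)
  exact Nat.card_le_card_of_injective f' hf'

/-- **(B6)** from (G3-GE) + (G3-LE). -/
theorem b6_of (hp2 : p ≠ 2) (hpS : pPrime p ∈ S) (hge : G3GeHyp p S) (hle : G3LeHyp p S) :
    B6 p S := by
  intro K hK
  haveI := KumH1.numberField_of_isBaseField p S hK
  haveI := (card_Sha2_of_g3 hp2 hpS hge hle K hK).1
  exact Module.Finite.of_finite

/-- **(B1)** from (B1a) [landed], PLACES, (G3-GE) and (G3-LE). -/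
theorem b1_of (hp2 : p ≠ 2) (hpS : pPrime p ∈ S) (hpl : PlacesHyp p S) (hge : G3GeHyp p S)
    (hle : G3LeHyp p S) : B1 p S := by
  intro K hK
  have hp : p.Prime := Fact.out
  haveI := KumH1.numberField_of_isBaseField p S hK
  obtain ⟨c, hc, -, hfr⟩ := KumH1.exists_finrank_H1_CU p S K hp2 hpS hK
  obtain ⟨hfin, hcard⟩ := card_Sha2_of_g3 hp2 hpS hge hle K hK
  haveI := hfin
  have hmf : Module.Finite (ZMod p) ↥(Sha2 p S K.fixingSubgroup) := Module.Finite.of_finite
  have h1 : Nat.card ↥(Sha2 p S K.fixingSubgroup)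
      = p ^ finrank (ZMod p) ↥(Sha2 p S K.fixingSubgroup) := by
    rw [Module.natCard_eq_pow_finrank (K := ZMod p), Nat.card_zmod]
  have h2 : finrank (ZMod p) ↥(Sha2 p S K.fixingSubgroup) = c := by
    apply Nat.pow_right_injective hp.two_le
    show p ^ _ = p ^ c
    rw [← h1, hcard, hc]
  have h3 := KumH1.two_mul_nrComplexPlaces_of_isBaseField p S K hp2 hK
  have h4 := hpl K hK
  rw [hfr, h2, h4, ← h3]
  ring

end Fermat.Agent.PT.Base
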