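import Mathlib
import Fermat.Agent.PT.Base.Interfaces
import Fermat.Agent.PT.G.CycloPow
import Fermat.Agent.PT.G.CycloTower
import Fermat.Agent.PT.LocDec

/-!
# PT layer BASE: the target (B5) (cyclotomic tower)

Above every base field `K` (finite over `ℚ`, unramified outside `S`, `μ_p ⊂ K`) the fields
`K(ζ_{p^n})` are base fields, Galois over `K` of `p`-power degree tending to infinity, with a
bounded number of places over `S`:

* `b5 : B5 p S` for `p ≠ 2`, `p ∈ S`.

Ingredients: the mod `p ^ n` cyclotomic character (`PT/G/CycloPow.lean`): its kernel, its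
surjectivity, the Frobenius values at `q ≠ p` and the total ramification at `p`; the bound for
the index of `⟨q⟩` in `(ℤ/p^n)ˣ` and the double coset count of `PT/G/CycloTower.lean`.
-/

set_option autoImplicit false

open ExtCitation

namespace Fermat.Agent.PT.Base

local notation "Qb" => AlgebraicClosure ℚ
local notation "GQ" => (AlgebraicClosure ℚ ≃ₐ[ℚ] AlgebraicClosure ℚ)

open Fermat.Agent.PT.G Fermat.Agent.Lib.FrobeniusExists

attribute [local instance] isAlgClosure_rat isGalois_rat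

/-! ### Group-theoretic preliminaries -/

section Group

variable {G : Type*} [Group G]

/-- Inversion identifies `H \ G / K` with `K \ G / H`. -/
def doubleCosetFlip (H K : Subgroup G) :
    DoubleCoset.Quotient (H : Set G) (K : Set G) ≃ DoubleCoset.Quotient (K : Set G) (H : Set G) :=
  Quotient.congr (Equiv.inv G) (by
    intro a b
    show DoubleCoset.setoid ↑H ↑K a b ↔ DoubleCoset.setoid ↑K ↑H a⁻¹ b⁻¹
    rw [DoubleCoset.rel_iff, DoubleCoset.rel_iff]
    constructor
    · rintro ⟨h, hh, k, hk, rfl⟩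
      exact ⟨k⁻¹, K.inv_mem hk, h⁻¹, H.inv_mem hh, by group⟩
    · rintro ⟨k, hk, h, hh, e⟩
      refine ⟨h⁻¹, H.inv_mem hh, k⁻¹, K.inv_mem hk, ?_⟩
      rw [← inv_inj, e]
      group)

theorem card_doubleCoset_flip (H K : Subgroup G) :
    Nat.card (DoubleCoset.Quotient (H : Set G) (K : Set G)) =
      Nat.card (DoubleCoset.Quotient (K : Set G) (H : Set G)) :=
  Nat.card_congr (doubleCosetFlip H K)

/-- For a surjective character `χ` onto a finite group and `V` of finite index:
`#((V ⊓ ker χ) \ G / D) ≤ [G : V] * [G' : χ(D)]`. -/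
theorem card_doubleCoset_le_of_ker {G' : Type*} [Group G'] [Finite G'] (χ : G →* G')
    (hχ : Function.Surjective χ) (V D : Subgroup G) (hV : V.index ≠ 0) :
    Nat.card (DoubleCoset.Quotient ((V ⊓ χ.ker : Subgroup G) : Set G) (D : Set G)) ≤
      V.index * (D.map χ).index := by
  have hker : χ.ker.index ≠ 0 := by
    rw [Subgroup.index_ker]
    exact Finite.card_pos.ne'
  have hfin : (V ⊓ χ.ker).FiniteIndex := ⟨Subgroup.index_inf_ne_zero hV hker⟩
  rw [card_doubleCoset_flip]
  have h1 : (V ⊓ χ.ker).relIndex χ.ker ≤ V.index := by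
    rw [Subgroup.inf_relIndex_right, ← Subgroup.relIndex_top_right V]
    refine Subgroup.relIndex_le_of_le_right le_top ?_
    rw [Subgroup.relIndex_top_right]
    exact hV
  have h2 : (D ⊔ χ.ker).index = (D.map χ).index := by
    rw [← Subgroup.comap_map_eq, Subgroup.index_comap_of_surjective _ hχ]
  calc Nat.card (DoubleCoset.Quotient (D : Set G) ((V ⊓ χ.ker : Subgroup G) : Set G))
      ≤ (V ⊓ χ.ker).relIndex χ.ker * (D ⊔ χ.ker).index :=
        card_doset_le D (V ⊓ χ.ker) χ.ker inf_le_right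
    _ ≤ V.index * (D.map χ).index := by
        rw [h2]
        exact Nat.mul_le_mul_right _ h1

end Group

/-! ### The units of `ℤ/p^n` congruent to `1` modulo `p` -/

section Units

variable (p : ℕ) [Fact p.Prime]

/-- The kernel of the reduction `(ZMod (p ^ n))ˣ → (ZMod p)ˣ` has order `p ^ (n - 1)`. -/
theorem card_ker_unitsMap (n : ℕ) (hn : n ≠ 0) :
    Nat.card (ZMod.unitsMap (dvd_pow_self p hn)).ker = p ^ (n - 1) := by
  have hp : p.Prime := Fact.out
  have : NeZero p := ⟨hp.ne_zero⟩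
  have : NeZero (p ^ n) := ⟨pow_ne_zero _ hp.ne_zero⟩
  have h := Subgroup.card_mul_index (ZMod.unitsMap (dvd_pow_self p hn)).ker
  have hidx : (ZMod.unitsMap (dvd_pow_self p hn)).ker.index = p - 1 := by
    rw [Subgroup.index_ker,
      MonoidHom.range_eq_top_of_surjective _ (ZMod.unitsMap_surjective (dvd_pow_self p hn)),
      Subgroup.card_top, Nat.card_eq_fintype_card, ZMod.card_units_eq_totient,
      Nat.totient_prime hp]
  have hcard : Nat.card (ZMod (p ^ n))ˣ = p ^ (n - 1) * (p - 1) := by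
    rw [Nat.card_eq_fintype_card, ZMod.card_units_eq_totient,
      Nat.totient_prime_pow hp (Nat.pos_of_ne_zero hn)]
  rw [hidx, hcard] at h
  have hp1 : 0 < p - 1 := by
    have := hp.two_le
    omega
  exact Nat.eq_of_mul_eq_mul_right hp1 h

end Units

/-! ### `primeLocalPlace q` lies over `q` -/

theorem liesOverPrime_primeLocalPlace (q : Nat.Primes) :
    (primeLocalPlace q).LiesOverPrime (q : ℕ) := by
  have : Fact (q : ℕ).Prime := ⟨q.2⟩
  have hq1 : (1 : ℝ) < (q : ℕ) := by exact_mod_cast q.2.one_lt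
  show (padicPlace (q : ℕ)).LiesOverPrime (q : ℕ)
  unfold ValuationSubring.LiesOverPrime
  rw [Fermat.Agent.PT.Levels.mem_nonunits_iff_inv]
  right
  rw [Fermat.Agent.PT.LocDec.mem_padicPlace_iff_nq, ← zpow_neg_one,
    Fermat.Agent.PT.LocDec.nq_zpow, Fermat.Agent.PT.LocDec.nq_natCast_self, zpow_neg_one, inv_inv]
  exact not_le.mpr hq1

/-! ### (B5) -/

section Main

variable (p : ℕ) [Fact p.Prime] (S : Finset Nat.Primes)

/-- On `Gal(ℚ̄/K)` for a base field `K`, the mod `p ^ n` cyclotomic character takes values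
congruent to `1` modulo `p`. -/
theorem chiPow_mem_ker_unitsMap {K : IntermediateField ℚ Qb} (hK : IsBaseField p S K) (n : ℕ)
    (hn : n ≠ 0) {s : GQ} (hs : s ∈ K.fixingSubgroup) :
    chiPow p n s ∈ (ZMod.unitsMap (dvd_pow_self p hn)).ker := by
  have hp : p.Prime := Fact.out
  have : NeZero p := ⟨hp.ne_zero⟩
  have : NeZero (p ^ n) := ⟨pow_ne_zero _ hp.ne_zero⟩
  obtain ⟨ζ, hζ⟩ := Fermat.Agent.ESJ.Rep.Cyclo.exists_primitiveRoot p n
  have hprod : p ^ n = p ^ (n - 1) * p := by
    rw [← pow_succ]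
    congr 1
    omega
  have hζ1 : IsPrimitiveRoot (ζ ^ p ^ (n - 1)) p := hζ.pow (pow_pos hp.pos n) hprod
  have h1 : s (ζ ^ p ^ (n - 1)) = ζ ^ p ^ (n - 1) :=
    (Fermat.Agent.PT.Levels.cycloChar_eq_one_iff p s hζ1).mp (hK.cyc s hs)
  have h2 := chiPow_spec p n s (ζ ^ p ^ (n - 1)) (by
    rw [← pow_mul, mul_comm, pow_mul, hζ.pow_eq_one, one_pow])
  rw [h1] at h2
  set u : ℕ := ((chiPow p n s : (ZMod (p ^ n))ˣ) : ZMod (p ^ n)).val with hu
  have h3 : u % p = 1 % p := by
    refine hζ1.pow_inj (Nat.mod_lt _ hp.pos) (Nat.mod_lt _ hp.pos) ?_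
    have e : ∀ k : ℕ, (ζ ^ p ^ (n - 1)) ^ (k % p) = (ζ ^ p ^ (n - 1)) ^ k := fun k =>
      (pow_eq_pow_mod k hζ1.pow_eq_one).symm
    rw [e, e, pow_one]
    exact h2.symm
  rw [MonoidHom.mem_ker]
  apply Units.ext
  show ZMod.castHom (dvd_pow_self p hn) (ZMod p)
    ((chiPow p n s : (ZMod (p ^ n))ˣ) : ZMod (p ^ n)) = 1
  rw [ZMod.castHom_apply, ← ZMod.natCast_val, ← hu, ← Nat.cast_one (R := ZMod p),
    ZMod.natCast_eq_natCast_iff]
  exact h3

/-- **(B5)**: the cyclotomic tower above a base field. -/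
theorem b5 (hp2 : p ≠ 2) (hpS : pPrime p ∈ S) : B5 p S := by
  intro K hK
  have hp : p.Prime := Fact.out
  have hKfin : FiniteDimensional ℚ K := hK.unram.1
  set d := K.fixingSubgroup.index with hd
  have hd0 : d ≠ 0 := by
    rw [hd, ← IntermediateField.finrank_eq_fixingSubgroup_index]
    exact Module.finrank_pos.ne'
  -- the bounds at `q ≠ p`
  have hbq : ∀ q : Nat.Primes, ∃ b : ℕ, (q : ℕ) ≠ p → ∀ n : ℕ, ∀ u : (ZMod (p ^ n))ˣ,
      (u : ZMod (p ^ n)) = ((q : ℕ) : ZMod (p ^ n)) → (Subgroup.zpowers u).index ≤ b := by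
    intro q
    by_cases hqp : (q : ℕ) = p
    · exact ⟨0, fun h => absurd hqp h⟩
    · have hndvd : ¬ p ∣ (q : ℕ) := fun h =>
        hqp ((Nat.prime_dvd_prime_iff_eq hp q.2).mp h).symm
      obtain ⟨b, hb⟩ := exists_bound_index_zpowers hp2 q.2.two_le hndvd
      exact ⟨b, fun _ => hb⟩
  choose bq hbq using hbq
  refine ⟨∑ q ∈ S, d * (bq q + 1), fun m => ?_⟩
  -- the level
  set n := m + d + 1 with hn
  have hn0 : n ≠ 0 := by omega
  have : NeZero (p ^ n) := ⟨pow_ne_zero _ hp.ne_zero⟩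
  obtain ⟨ζ, hζ⟩ := Fermat.Agent.ESJ.Rep.Cyclo.exists_primitiveRoot p n
  have hLS : (IntermediateField.adjoin ℚ {ζ}).IsUnramifiedOutside S :=
    isUnramifiedOutside_adjoin_primitiveRoot_pow p n S hpS hζ
  have hfix : (K ⊔ IntermediateField.adjoin ℚ {ζ}).fixingSubgroup =
      K.fixingSubgroup ⊓ (chiPow p n).ker := by
    rw [IntermediateField.fixingSubgroup_sup, ker_chiPow p n hζ]
  refine ⟨K ⊔ IntermediateField.adjoin ℚ {ζ}, ⟨hK.unram.sup hLS, fun s hs =>
    hK.cyc s (IntermediateField.fixingSubgroup_antitone le_sup_left hs)⟩, le_sup_left, ?_, ?_, ?_⟩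
  · -- normality
    rw [hfix, Subgroup.inf_subgroupOf_left]
    infer_instance
  · -- the degree is a large power of `p`
    rw [hfix, Subgroup.inf_relIndex_left, Subgroup.relIndex_ker]
    set I := K.fixingSubgroup.map (chiPow p n) with hI
    have hIle : I ≤ (ZMod.unitsMap (dvd_pow_self p hn0)).ker := by
      rintro _ ⟨s, hs, rfl⟩
      exact chiPow_mem_ker_unitsMap p S hK n hn0 hs
    have hcard : Nat.card I ∣ p ^ (n - 1) := by
      rw [← card_ker_unitsMap p n hn0]
      exact Subgroup.card_dvd_of_le hIle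
    obtain ⟨j, -, hjc⟩ := (Nat.dvd_prime_pow hp).mp hcard
    refine ⟨j, ?_, hjc⟩
    have h1 : Nat.card I * I.index = Nat.card (ZMod (p ^ n))ˣ := Subgroup.card_mul_index I
    have h2 : I.index ∣ d := Subgroup.index_map_dvd _ (chiPow_surjective p n)
    have h3 : I.index ≤ d := Nat.le_of_dvd (Nat.pos_of_ne_zero hd0) h2
    have h4 : Nat.card (ZMod (p ^ n))ˣ = p ^ (n - 1) * (p - 1) := by
      rw [Nat.card_eq_fintype_card, ZMod.card_units_eq_totient,
        Nat.totient_prime_pow hp (Nat.pos_of_ne_zero hn0)]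
    have hn1 : n - 1 = m + d := by omega
    rw [h4, hjc, hn1] at h1
    have h5 : p ^ (m + d) ≤ p ^ (m + d) * (p - 1) := by
      have : 1 ≤ p - 1 := by
        have := hp.two_le
        omega
      exact Nat.le_mul_of_pos_right _ this
    have h6 : p ^ j * I.index ≤ p ^ j * d := Nat.mul_le_mul_left _ h3
    have h7 : p ^ j * d < p ^ j * p ^ d :=
      Nat.mul_lt_mul_of_pos_left (Nat.lt_pow_self hp.one_lt) (pow_pos hp.pos j)
    have h8 : p ^ (m + d) < p ^ (j + d) := by
      rw [pow_add p j d]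
      calc p ^ (m + d) ≤ p ^ (m + d) * (p - 1) := h5
        _ = p ^ j * I.index := h1.symm
        _ ≤ p ^ j * d := h6
        _ < p ^ j * p ^ d := h7
    have h9 : m + d < j + d := (Nat.pow_lt_pow_iff_right hp.one_lt).mp h8
    omega
  · -- the number of places is bounded
    unfold numPlaces
    refine Finset.sum_le_sum fun q _ => ?_
    rw [hfix]
    refine (card_doubleCoset_le_of_ker (chiPow p n) (chiPow_surjective p n) K.fixingSubgroup
      (decomp (primeLocalPlace q)) hd0).trans (Nat.mul_le_mul_left d ?_)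
    have hA : (primeLocalPlace q).LiesOverPrime (q : ℕ) := liesOverPrime_primeLocalPlace q
    by_cases hqp : (q : ℕ) = p
    · have htop : (decomp (primeLocalPlace q)).map (chiPow p n) = ⊤ := by
        rw [eq_top_iff]
        intro u _
        rw [hqp] at hA
        obtain ⟨σ, hσ, hu⟩ := exists_mem_decomp_chiPow_eq p n _ hA u
        exact ⟨σ, hσ, hu⟩
      rw [htop, Subgroup.index_top]
      omega
    · obtain ⟨σ, hσ, hu⟩ := exists_mem_decomp_chiPow_eq_natCast p n q.2 hqp _ hA
      have h1 : Subgroup.zpowers (chiPow p n σ) ≤ (decomp (primeLocalPlace q)).map (chiPow p n) := by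
        rw [Subgroup.zpowers_le]
        exact ⟨σ, hσ, rfl⟩
      have h2 := Subgroup.index_dvd_of_le h1
      have h3 : (Subgroup.zpowers (chiPow p n σ)).index ≠ 0 := Subgroup.index_ne_zero_of_finite
      exact (Nat.le_of_dvd (Nat.pos_of_ne_zero h3) h2).trans
        ((hbq q hqp n _ hu).trans (Nat.le_succ _))

end Main

end Fermat.Agent.PT.Base
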