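/-
PT layer BASE: the local base items of the engine for `Bridge.datum S`.

(`cdL_of_b23` : **(cdL)** is in `Base/CdL.lean`.)

* `finrank_H2_perm_levD` : `h²(D_A; coind_N^{D_A} 𝔽_p) = 1` for `N = D_A ⊓ Gal(ℚ̄/F)`, `F ⊇ μ_p`
  finite Galois (local Shapiro + (B3));
* `basev_of_b3` : **(basev)** for a cofinal family of local levels `N` of `D_q`,
  `h²(D_q; coind_N^{D_q} 𝔽_p) = 1`;
* `ev_of_b23T` : **the field `ev`** of the engine's `CountHyp` for `Bridge.datum S`:
  `h²_v(X) = h⁰_v(X')`, from (B2), (B3), (B3T).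
-/
import Fermat.Agent.PT.Base.CdL
import Fermat.Agent.PT.Coh.EngineE3
import Fermat.Agent.PT.Coh.EngineNat

set_option autoImplicit false

open ExtCitation Module

namespace Fermat.Agent.PT.Base

local notation "Qb" => AlgebraicClosure ℚ
local notation "GQ" => (AlgebraicClosure ℚ ≃ₐ[ℚ] AlgebraicClosure ℚ)

local instance isAlgebraicQbar_bv : Algebra.IsAlgebraic ℚ Qb := AlgebraicClosure.isAlgebraic ℚ
local instance isAlgClosureQbar_bv : IsAlgClosure ℚ Qb := ⟨inferInstance, inferInstance⟩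
local instance normalQbar_bv : Normal ℚ Qb := IsAlgClosure.normal ℚ Qb
local instance isSeparableQbar_bv : Algebra.IsSeparable ℚ Qb :=
  Algebra.IsAlgebraic.isSeparable_of_perfectField
local instance isGaloisQbar_bv : IsGalois ℚ Qb := ⟨⟩

noncomputable section

open Bridge CdCount Shapiro

variable (p : ℕ) [Fact p.Prime] (S : Finset Nat.Primes)

/-- A finite normal extension containing two given finite extensions. -/
theorem exists_normal_ge_sup (F₁ F₂ : IntermediateField ℚ Qb) [FiniteDimensional ℚ F₁]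
    [FiniteDimensional ℚ F₂] : ∃ F : IntermediateField ℚ Qb, FiniteDimensional ℚ F ∧
      Normal ℚ F ∧ F₁ ⊔ F₂ ≤ F := by
  have hfd : FiniteDimensional ℚ ↥(F₁ ⊔ F₂) := IntermediateField.finiteDimensional_sup F₁ F₂
  exact ⟨IntermediateField.normalClosure ℚ ↥(F₁ ⊔ F₂) Qb,
    normalClosure.is_finiteDimensional ℚ ↥(F₁ ⊔ F₂) Qb, normalClosure.normal ℚ ↥(F₁ ⊔ F₂) Qb,
    (F₁ ⊔ F₂).le_normalClosure⟩

/-- `h²(D_A; coind_N^{D_A} 𝔽_p) = 1` for `N = D_A ⊓ Gal(ℚ̄/F)`, `F` finite containing `μ_p`: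
local Shapiro and (B3). -/
theorem finrank_H2_perm_levD (hb3 : B3 p S) (q : Nat.Primes) (hq : q ∈ S)
    (A : ValuationSubring Qb) (hA : A.LiesOverPrime (q : ℕ))
    (F : IntermediateField ℚ Qb) (hFfin : FiniteDimensional ℚ F)
    (hFcyc : ∀ s ∈ F.fixingSubgroup, cycloChar p s = 1)
    (hN : ∃ N' ∈ (levD (decomp A)).lev, N' ≤ F.fixingSubgroup.subgroupOf (decomp A)) :
    finrank (ZMod p) (((levD (decomp A)).cx
      (permRep (F.fixingSubgroup.subgroupOf (decomp A)) (ZMod p))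
      (permRep_smooth (levD (decomp A)) (F.fixingSubgroup.subgroupOf (decomp A)) (ZMod p)
        hN)).H 2) = 1 := by
  set N : Subgroup (decomp A) := F.fixingSubgroup.subgroupOf (decomp A) with hNdef
  have e1 := LinearEquiv.ofBijective _ (shTriv_bijective (levD (decomp A)) N p hN 2)
  have e2 := LinearEquiv.ofBijective _ (levDNest_bijective p (decomp A) N 2)
  have hmap : N.map (decomp A).subtype = F.fixingSubgroup ⊓ decomp A := by
    rw [hNdef, Subgroup.subgroupOf_map_subtype]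
  have h3 := hb3 F hFfin hFcyc q hq A hA
  rw [← hmap] at h3
  rw [e1.finrank_eq, ← e2.finrank_eq]
  exact h3

/-- **(basev)**: for a cofinal family of local levels `N` of `D_q`,
`h²(D_q; coind_N^{D_q} 𝔽_p) = 1`. -/
theorem basev_of_b3 (hb3 : B3 p S) (q : (datum S).ι) :
    ∀ N₀ ∈ ((datum S).Lv q).lev, ∃ N, ∃ hN : N ∈ ((datum S).Lv q).lev, N ≤ N₀ ∧
      finrank (ZMod p) ((((datum S).Lv q).cx (permRep N (ZMod p))
        (permRep_smooth ((datum S).Lv q) N (ZMod p) ⟨N, hN, le_rfl⟩)).H 2) = 1 := by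
  have hp : p.Prime := Fact.out
  intro N₀ hN₀
  obtain ⟨F₀, hF₀fin, hF₀n, hF₀⟩ := hN₀
  have hζ' := Levels.exists_primitiveRoot_Qbar p
  obtain ⟨ζ, hζ⟩ := hζ'
  have hfd : FiniteDimensional ℚ (IntermediateField.adjoin ℚ {ζ}) :=
    IntermediateField.adjoin.finiteDimensional (hζ.isIntegral hp.pos).tower_top
  have hF' := exists_normal_ge_sup F₀ (IntermediateField.adjoin ℚ {ζ})
  obtain ⟨F, hFfin, hFn, hle⟩ := hF'
  have hle1 : F₀ ≤ F := le_trans le_sup_left hle
  have hle2 : IntermediateField.adjoin ℚ {ζ} ≤ F := le_trans le_sup_right hle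
  have hFcyc : ∀ s ∈ F.fixingSubgroup, cycloChar p s = 1 := fun s hs =>
    Levels.cycloChar_eq_one_of_mem_fixingSubgroup p hζ
      (IntermediateField.fixingSubgroup_antitone hle2 hs)
  have hN : F.fixingSubgroup.subgroupOf (decomp (primeLocalPlace q.1)) ∈
      (levD (decomp (primeLocalPlace q.1))).lev := ⟨F, hFfin, hFn, rfl⟩
  refine ⟨F.fixingSubgroup.subgroupOf (decomp (primeLocalPlace q.1)), hN, ?_, ?_⟩
  · rw [← hF₀]
    exact Subgroup.subgroupOf_mono _ (IntermediateField.fixingSubgroup_antitone hle1)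
  · exact finrank_H2_perm_levD p S hb3 q.1 q.2 (primeLocalPlace q.1)
      (liesOverPrime_primeLocalPlace q.1) F hFfin hFcyc ⟨_, hN, le_rfl⟩

/-- **The field `ev` of the engine's `CountHyp` for `Bridge.datum S`**: `h²_v(X) = h⁰_v(X')`
for every finite smooth `X`, from (B2), (B3) and (B3T). -/
theorem ev_of_b23T (hpS : pPrime p ∈ S) (hb2 : B2 p S) (hb3 : B3 p S) (hb3T : B3T p S hpS)
    {M : Type} [AddCommGroup M] [Module (ZMod p) M] [Module.Finite (ZMod p) M]
    (ρ : Representation (ZMod p) GQ M) (hρ : (datum S).IsSmooth ρ)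
    (hρ' : (datum S).IsSmooth (LocDatum.dualTw (cycloChar p) ρ)) (v : (datum S).ι) :
    finrank (ZMod p) ((datum S).Hv ρ hρ v 2) =
      finrank (ZMod p) ((datum S).Hv (LocDatum.dualTw (cycloChar p) ρ) hρ' v 0) := by
  have hnt : Nontrivial ((datum S).Hv (chiRep (cycloChar p)) (isSmooth_T p S hpS) v 2) :=
    Module.nontrivial_of_finrank_pos (R := ZMod p) (by rw [hb3T v]; exact one_pos)
  exact Rex.ev_of_dim (datum S) v (cycloChar p) (isSmooth_T p S hpS) (fun _ _ => rfl)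
    (fun M _ _ _ ρ hρ => cdL_of_b23 p S hb2 hb3 v M ρ hρ) (basev_of_b3 p S hb3 v) ρ hρ hρ'

end

end Fermat.Agent.PT.Base
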