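import Fermat.Agent.PT.Base.Interfaces
import Fermat.Agent.PT.Coh.CdCount
import Fermat.Agent.PT.Final
import Fermat.Agent.PT.LocDec

/-!
# PT layer BASE: the concrete items of the abstract assembly, for `Bridge.datum S`

* `cvSubHom`, `cvSubHom_bijective` : for `D ≤ G_ℚ` and `V ≤ D`, the leveled groups
  `(V, (levD D).sub V)` and `(V.map D.subtype, levD _)` have the same cohomology;
* `hT2` : `H²(D_q; T) ≠ 0` from (B3T);
* `basev` : `h²(D_q; coind_N^{D_q} 𝔽_p) = 1` for a cofinal family of local levels `N`, from (B3).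
-/

set_option autoImplicit false

open ExtCitation Module

namespace Fermat.Agent.PT.Base.Concrete

local notation "Qb" => AlgebraicClosure ℚ
local notation "GQ" => (AlgebraicClosure ℚ ≃ₐ[ℚ] AlgebraicClosure ℚ)

local instance isAlgebraicQbar_cc : Algebra.IsAlgebraic ℚ Qb := AlgebraicClosure.isAlgebraic ℚ
local instance isAlgClosureQbar_cc : IsAlgClosure ℚ Qb := ⟨inferInstance, inferInstance⟩
local instance normalQbar_cc : Normal ℚ Qb := IsAlgClosure.normal ℚ Qb

open Fermat.Agent.PT Fermat.Agent.PT.Bridge Fermat.Agent.PT.Base Fermat.Agent.PT.Levels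

variable (p : ℕ) [Fact p.Prime]

/-! ### Transport: `(levD D).sub V` versus `levD (V.map D.subtype)` -/

section Transport

variable (D : Subgroup GQ) (V : Subgroup D)

theorem cvSub_isCts :
    (levD (V.map D.subtype)).IsCts ((levD D).sub V) (CdCount.nestEquiv D V).toMonoidHom := by
  rintro _ ⟨F, hF, hFn, rfl⟩
  refine ⟨(F.fixingSubgroup.subgroupOf D).subgroupOf V,
    LevelSys.mem_sub_lev ⟨F, hF, hFn, rfl⟩, ?_⟩
  intro w hw
  rw [Subgroup.mem_subgroupOf, Subgroup.mem_subgroupOf] at hw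
  rw [Subgroup.mem_comap, Subgroup.mem_subgroupOf]
  exact hw

theorem cvSub_isCts_symm :
    ((levD D).sub V).IsCts (levD (V.map D.subtype))
      (CdCount.nestEquiv D V).symm.toMonoidHom := by
  rintro _ ⟨_, ⟨F, hF, hFn, rfl⟩, rfl⟩
  refine ⟨F.fixingSubgroup.subgroupOf (V.map D.subtype), ⟨F, hF, hFn, rfl⟩, ?_⟩
  intro y hy
  rw [Subgroup.mem_subgroupOf] at hy
  rw [Subgroup.mem_comap, Subgroup.mem_subgroupOf, Subgroup.mem_subgroupOf]
  show ((((CdCount.nestEquiv D V).symm y : V) : D) : GQ) ∈ F.fixingSubgroup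
  rw [CdCount.nestEquiv_symm_coe]
  exact hy

/-- The comparison map `C^•(V.map D.subtype; 𝔽_p) ⟶ C^•(V; 𝔽_p)` (all levels on the left, the
levels induced from `D` on the right). -/
noncomputable def cvSubHom :
    Cx.Hom (CV p (V.map D.subtype)) (((levD D).sub V).trivCx p) :=
  CdCount.pullTriv _ _ p (cvSub_isCts D V)

theorem cvSubHom_bijective (n : ℕ) : Function.Bijective ((cvSubHom p D V).mapH n) :=
  CdCount.pullTriv_bijective _ _ (CdCount.nestEquiv D V) (cvSub_isCts D V)
    (cvSub_isCts_symm D V) n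

/-- `h^n` of `(F.fixingSubgroup.subgroupOf D, (levD D).sub _)` is `h^n` of
`CV p (F.fixingSubgroup ⊓ D)`. -/
theorem finrank_sub_subgroupOf (F : IntermediateField ℚ Qb) (n : ℕ) :
    finrank (ZMod p) ((((levD D).sub (F.fixingSubgroup.subgroupOf D)).trivCx p).H n) =
      finrank (ZMod p) ((CV p (F.fixingSubgroup ⊓ D)).H n) := by
  have h := LinearEquiv.finrank_eq (LinearEquiv.ofBijective _
    (cvSubHom_bijective p D (F.fixingSubgroup.subgroupOf D) n))
  rw [← h, Subgroup.subgroupOf_map_subtype]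

end Transport

/-! ### `(hT2)` and `(basev)` -/

section Items

variable (S : Finset Nat.Primes)

/-- `(hT2)`: `H²(D_q; T) ≠ 0` for every `q ∈ S`, from (B3T). -/
theorem hT2 (hpS : pPrime p ∈ S) (hb : B3T p S hpS) (q : (datum S).ι) :
    Nontrivial ((datum S).Hv (chiRep (cycloChar p)) (isSmooth_T p S hpS) q 2) :=
  Module.nontrivial_of_finrank_pos (R := ZMod p) (by rw [hb q]; exact Nat.one_pos)

/-- `primeLocalPlace q` lies over `q`. -/
theorem liesOver_primeLocalPlace (q : Nat.Primes) :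
    (primeLocalPlace q).LiesOverPrime (q : ℕ) := by
  have : Fact (q : ℕ).Prime := ⟨q.2⟩
  have hq1 : (1 : ℝ) < (q : ℕ) := by exact_mod_cast q.2.one_lt
  show (padicPlace (q : ℕ)).LiesOverPrime (q : ℕ)
  unfold ValuationSubring.LiesOverPrime
  rw [Fermat.Agent.PT.Levels.mem_nonunits_iff_inv]
  right
  rw [Fermat.Agent.PT.LocDec.mem_padicPlace_iff_nq, ← zpow_neg_one,
    Fermat.Agent.PT.LocDec.nq_zpow, Fermat.Agent.PT.LocDec.nq_natCast_self, zpow_neg_one, inv_inv]
  exact not_le.mpr hq1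

/-- Above every finite extension `F₀` of `ℚ` there is a finite Galois extension containing
`μ_p`. -/
theorem exists_normal_ge_cyclo (F₀ : IntermediateField ℚ Qb) [FiniteDimensional ℚ F₀] :
    ∃ F : IntermediateField ℚ Qb, FiniteDimensional ℚ F ∧ Normal ℚ F ∧ F₀ ≤ F ∧
      ∀ s ∈ F.fixingSubgroup, cycloChar p s = 1 := by
  obtain ⟨ζ, hζ⟩ := exists_primitiveRoot_Qbar p
  have hp : p.Prime := Fact.out
  have hζint : IsIntegral ℚ ζ := (hζ.isIntegral hp.pos).tower_top
  have hEfin : FiniteDimensional ℚ (IntermediateField.adjoin ℚ {ζ}) :=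
    IntermediateField.adjoin.finiteDimensional hζint
  have hEfd : FiniteDimensional ℚ (F₀ ⊔ IntermediateField.adjoin ℚ {ζ} :
      IntermediateField ℚ Qb) := IntermediateField.finiteDimensional_sup F₀ _
  refine ⟨IntermediateField.normalClosure ℚ
      (F₀ ⊔ IntermediateField.adjoin ℚ {ζ} : IntermediateField ℚ Qb) Qb,
    normalClosure.is_finiteDimensional ℚ _ Qb, normalClosure.normal ℚ _ Qb,
    le_sup_left.trans (IntermediateField.le_normalClosure _), fun s hs => ?_⟩
  exact cycloChar_eq_one_of_mem_fixingSubgroup p hζ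
    (IntermediateField.fixingSubgroup_antitone
      (le_sup_right.trans (IntermediateField.le_normalClosure _)) hs)

/-- `(basev)`, for the decomposition group of any valuation subring over a prime of `S`: for
every level `N₀` of `D_A` there is a level `N ≤ N₀` with `h²(D_A; coind_N^{D_A} 𝔽_p) = 1`, from
(B3). -/
theorem basev_decomp (hb3 : B3 p S) (q : Nat.Primes) (hq : q ∈ S) (A : ValuationSubring Qb)
    (hA : A.LiesOverPrime (q : ℕ)) :
    ∀ N₀ ∈ (levD (decomp A)).lev, ∃ N, ∃ hN : N ∈ (levD (decomp A)).lev, N ≤ N₀ ∧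
      finrank (ZMod p) (((levD (decomp A)).cx (Shapiro.permRep N (ZMod p))
        (Shapiro.permRep_smooth (levD (decomp A)) N (ZMod p) ⟨N, hN, le_rfl⟩)).H 2) = 1 := by
  rintro _ ⟨F₀, hF₀, hF₀n, rfl⟩
  obtain ⟨F, hFfd, hFn, hF₀F, hχF⟩ := exists_normal_ge_cyclo p F₀
  have hN : F.fixingSubgroup.subgroupOf (decomp A) ∈ (levD (decomp A)).lev :=
    ⟨F, hFfd, hFn, rfl⟩
  refine ⟨F.fixingSubgroup.subgroupOf (decomp A), hN, ?_, ?_⟩
  · exact Subgroup.subgroupOf_mono (decomp A) (IntermediateField.fixingSubgroup_antitone hF₀F)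
  · have h1 := LinearEquiv.finrank_eq (LinearEquiv.ofBijective _
      (Shapiro.shTriv_bijective (levD (decomp A)) (F.fixingSubgroup.subgroupOf (decomp A)) p
        ⟨_, hN, le_rfl⟩ 2))
    have h2 := finrank_sub_subgroupOf p (decomp A) F 2
    have h3 := hb3 F hFfd hχF q hq A hA
    exact h1.trans (h2.trans h3)

/-- `(basev)` for the datum: for every `q ∈ S` and every local level `N₀` there is a local level
`N ≤ N₀` with `h²(D_q; coind_N^{D_q} 𝔽_p) = 1`, from (B3). -/
theorem basev (hb3 : B3 p S) (q : (datum S).ι) :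
    ∀ N₀ ∈ ((datum S).Lv q).lev, ∃ N, ∃ hN : N ∈ ((datum S).Lv q).lev, N ≤ N₀ ∧
      finrank (ZMod p) ((((datum S).Lv q).cx (Shapiro.permRep N (ZMod p))
        (Shapiro.permRep_smooth ((datum S).Lv q) N (ZMod p) ⟨N, hN, le_rfl⟩)).H 2) = 1 :=
  basev_decomp p S hb3 q.1 q.2 (primeLocalPlace q.1) (liesOver_primeLocalPlace q.1)

end Items

end Fermat.Agent.PT.Base.Concrete
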