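/-
PT layer BASE: the elementary (explicit cocycle) description of `H²` of a level complex.

For a leveled group `(Γ, L)` and a smooth representation `(M, ρ)`:
* `IsCoc₂ L ρ z` : `z : Γ × Γ → M` is a level-constant inhomogeneous 2-cocycle;
* `cls₂ L ρ hρ z hz : (L.cx ρ hρ).H 2` its class; every class is of this form (`exists_cls₂`);
* `cls₂_eq_zero_iff` : the class vanishes iff `z = d y` for a level-constant `y : Γ → M`;
* `cls₂_eq_cls₂_iff`, `cls₂_add`, `cls₂_zsmul`-free linearity statements;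
* `res_cls₂` : restriction along a continuous homomorphism is composition;
* `isLevelConst_to₁_iff`, `isLevelConst_to₂_iff` : level-constancy in "right translation" form.
-/
import Fermat.Agent.PT.Bridge

set_option autoImplicit false

namespace Fermat.Agent.PT.Base.Elem

open Bridge

variable {Γ : Type} [Group Γ] (L : LevelSys Γ)

section LevelConst

variable {X : Type}

/-- Level-constancy of a function of one variable: right-invariance under a level. -/
theorem isLevelConst_to₁_iff (y : Γ → X) :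
    L.IsLevelConst (to₁ y) ↔ ∃ N ∈ L.lev, ∀ g : Γ, ∀ s ∈ N, y (g * s) = y g := by
  constructor
  · rintro ⟨N, hN, h⟩
    refine ⟨N, hN, fun g s hs => ?_⟩
    have := h (fun _ => g * s) (fun _ => g) fun _ => by
      have e : (g * s)⁻¹ * g = s⁻¹ := by group
      rw [e]
      exact N.inv_mem hs
    exact this
  · rintro ⟨N, hN, h⟩
    refine ⟨N, hN, fun g g' hgg' => ?_⟩
    show y (g 0) = y (g' 0)
    have := h (g 0) _ (hgg' 0)
    rw [mul_inv_cancel_left] at this
    exact this.symm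

/-- Level-constancy of a function of two variables: right-invariance under a level in both
variables. -/
theorem isLevelConst_to₂_iff (z : Γ × Γ → X) :
    L.IsLevelConst (to₂ z) ↔
      ∃ N ∈ L.lev, ∀ g h : Γ, ∀ s ∈ N, ∀ t ∈ N, z (g * s, h * t) = z (g, h) := by
  constructor
  · rintro ⟨N, hN, h⟩
    refine ⟨N, hN, fun g j s hs t ht => ?_⟩
    have := h ![g * s, j * t] ![g, j] fun i => by
      fin_cases i
      · show (g * s)⁻¹ * g ∈ N
        have e : (g * s)⁻¹ * g = s⁻¹ := by group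
        rw [e]
        exact N.inv_mem hs
      · show (j * t)⁻¹ * j ∈ N
        have e : (j * t)⁻¹ * j = t⁻¹ := by group
        rw [e]
        exact N.inv_mem ht
    exact this
  · rintro ⟨N, hN, h⟩
    refine ⟨N, hN, fun g g' hgg' => ?_⟩
    show z (g 0, g 1) = z (g' 0, g' 1)
    have := h (g 0) (g 1) _ (hgg' 0) _ (hgg' 1)
    rw [mul_inv_cancel_left, mul_inv_cancel_left] at this
    exact this.symm

end LevelConst

variable {k : Type} [CommRing k] {M : Type} [AddCommGroup M] [Module k M]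
  (ρ : Representation k Γ M) (hρ : L.IsSmooth ρ)

/-- `z : Γ × Γ → M` is a level-constant inhomogeneous 2-cocycle. -/
structure IsCoc₂ (z : Γ × Γ → M) : Prop where
  lev : L.IsLevelConst (to₂ z)
  coc : ∀ g h j : Γ, ρ g (z (h, j)) - z (g * h, j) + z (g, h * j) - z (g, h) = 0

/-- The 2-cochain of the level complex attached to a level-constant function. -/
def coch₂ (z : Γ × Γ → M) (hz : L.IsLevelConst (to₂ z)) : (L.cx ρ hρ).X 2 := ⟨to₂ z, hz⟩

/-- The 1-cochain of the level complex attached to a level-constant function. -/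
def coch₁ (y : Γ → M) (hy : L.IsLevelConst (to₁ y)) : (L.cx ρ hρ).X 1 := ⟨to₁ y, hy⟩

theorem d_coch₂ (z : Γ × Γ → M) (hz : IsCoc₂ L ρ z) :
    (L.cx ρ hρ).d 2 (coch₂ L ρ hρ z hz.lev) = 0 := by
  apply Subtype.ext
  show dLin ρ 2 (to₂ z) = 0
  rw [dLin_to₂]
  funext g
  exact hz.coc (g 0) (g 1) (g 2)

/-- The class of a level 2-cocycle. -/
def cls₂ (z : Γ × Γ → M) (hz : IsCoc₂ L ρ z) : (L.cx ρ hρ).H 2 :=
  (L.cx ρ hρ).cls 2 (coch₂ L ρ hρ z hz.lev) (d_coch₂ L ρ hρ z hz)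

/-- Every class of `H²` of the level complex is the class of a level 2-cocycle. -/
theorem exists_cls₂ (x : (L.cx ρ hρ).H 2) : ∃ z hz, cls₂ L ρ hρ z hz = x := by
  obtain ⟨c, hc, rfl⟩ := (L.cx ρ hρ).exists_cls x
  have hlev : L.IsLevelConst (to₂ (from₂ c.1)) := by
    rw [to₂_from₂]
    exact c.2
  have hcoc : IsCoc₂ L ρ (from₂ c.1) := by
    refine ⟨hlev, fun g h j => ?_⟩
    have h1 : dLin ρ 2 (to₂ (from₂ c.1)) = 0 := by
      rw [to₂_from₂]
      exact congrArg Subtype.val hc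
    rw [dLin_to₂] at h1
    exact congrFun h1 ![g, h, j]
  refine ⟨from₂ c.1, hcoc, ?_⟩
  have e : coch₂ L ρ hρ (from₂ c.1) hlev = c := Subtype.ext (to₂_from₂ c.1)
  unfold cls₂
  congr 1

/-- The class of a level 2-cocycle vanishes iff it is the coboundary of a level 1-cochain. -/
theorem cls₂_eq_zero_iff (z : Γ × Γ → M) (hz : IsCoc₂ L ρ z) :
    cls₂ L ρ hρ z hz = 0 ↔ ∃ y : Γ → M, L.IsLevelConst (to₁ y) ∧
      ∀ g h : Γ, z (g, h) = ρ g (y h) - y (g * h) + y g := by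
  unfold cls₂
  rw [Cx.cls_eq_zero_iff, Cx.mem_B_succ]
  constructor
  · rintro ⟨b, hb⟩
    refine ⟨from₁ b.1, by rw [to₁_from₁]; exact b.2, fun g h => ?_⟩
    have h1 : dLin ρ 1 (to₁ (from₁ b.1)) = to₂ z := by
      rw [to₁_from₁]
      exact congrArg Subtype.val hb
    rw [dLin_to₁] at h1
    exact (congrFun (to₂_injective h1) (g, h)).symm
  · rintro ⟨y, hy, h⟩
    refine ⟨coch₁ L ρ hρ y hy, Subtype.ext ?_⟩
    show dLin ρ 1 (to₁ y) = to₂ z
    rw [dLin_to₁]
    congr 1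
    funext g
    exact (h g.1 g.2).symm

theorem IsCoc₂.add {z z' : Γ × Γ → M} (hz : IsCoc₂ L ρ z) (hz' : IsCoc₂ L ρ z') :
    IsCoc₂ L ρ (z + z') := by
  refine ⟨hz.lev.map₂ hz'.lev (· + ·), fun g h j => ?_⟩
  have h1 := hz.coc g h j
  have h2 := hz'.coc g h j
  simp only [Pi.add_apply, map_add]
  have e : ρ g (z (h, j)) + ρ g (z' (h, j)) - (z (g * h, j) + z' (g * h, j))
      + (z (g, h * j) + z' (g, h * j)) - (z (g, h) + z' (g, h))
      = (ρ g (z (h, j)) - z (g * h, j) + z (g, h * j) - z (g, h))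
        + (ρ g (z' (h, j)) - z' (g * h, j) + z' (g, h * j) - z' (g, h)) := by abel
  rw [e, h1, h2, add_zero]

theorem IsCoc₂.sub {z z' : Γ × Γ → M} (hz : IsCoc₂ L ρ z) (hz' : IsCoc₂ L ρ z') :
    IsCoc₂ L ρ (z - z') := by
  refine ⟨hz.lev.map₂ hz'.lev (· - ·), fun g h j => ?_⟩
  have h1 := hz.coc g h j
  have h2 := hz'.coc g h j
  simp only [Pi.sub_apply, map_sub]
  have e : ρ g (z (h, j)) - ρ g (z' (h, j)) - (z (g * h, j) - z' (g * h, j))
      + (z (g, h * j) - z' (g, h * j)) - (z (g, h) - z' (g, h))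
      = (ρ g (z (h, j)) - z (g * h, j) + z (g, h * j) - z (g, h))
        - (ρ g (z' (h, j)) - z' (g * h, j) + z' (g, h * j) - z' (g, h)) := by abel
  rw [e, h1, h2, sub_zero]

theorem cls₂_add {z z' : Γ × Γ → M} (hz : IsCoc₂ L ρ z) (hz' : IsCoc₂ L ρ z') :
    cls₂ L ρ hρ (z + z') (hz.add L ρ hz') = cls₂ L ρ hρ z hz + cls₂ L ρ hρ z' hz' := rfl

theorem cls₂_sub {z z' : Γ × Γ → M} (hz : IsCoc₂ L ρ z) (hz' : IsCoc₂ L ρ z') :
    cls₂ L ρ hρ (z - z') (hz.sub L ρ hz') = cls₂ L ρ hρ z hz - cls₂ L ρ hρ z' hz' := rfl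

/-- Two level 2-cocycles have the same class iff they differ by the coboundary of a level
1-cochain. -/
theorem cls₂_eq_cls₂_iff {z z' : Γ × Γ → M} (hz : IsCoc₂ L ρ z) (hz' : IsCoc₂ L ρ z') :
    cls₂ L ρ hρ z hz = cls₂ L ρ hρ z' hz' ↔ ∃ y : Γ → M, L.IsLevelConst (to₁ y) ∧
      ∀ g h : Γ, z (g, h) - z' (g, h) = ρ g (y h) - y (g * h) + y g := by
  rw [← sub_eq_zero, ← cls₂_sub, cls₂_eq_zero_iff]
  rfl

section Res

variable {Γ' : Type} [Group Γ'] (L' : LevelSys Γ') {r : Γ' →* Γ} (hr : L.IsCts L' r)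
  (hρ' : L'.IsSmooth (ρ.comp r))

include hr in
theorem IsCoc₂.comp {z : Γ × Γ → M} (hz : IsCoc₂ L ρ z) :
    IsCoc₂ L' (ρ.comp r) (fun g : Γ' × Γ' => z (r g.1, r g.2)) := by
  refine ⟨?_, fun g h j => ?_⟩
  · have := hr.isLevelConst hz.lev
    exact this
  · have := hz.coc (r g) (r h) (r j)
    simp only [map_mul]
    exact this

/-- Restriction of the class of a level 2-cocycle is the class of the composed cocycle. -/
theorem res_cls₂ {z : Γ × Γ → M} (hz : IsCoc₂ L ρ z) :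
    (L.res L' hr ρ hρ hρ').mapH 2 (cls₂ L ρ hρ z hz) =
      cls₂ L' (ρ.comp r) hρ' (fun g : Γ' × Γ' => z (r g.1, r g.2)) (hz.comp L ρ L' hr) := rfl

/-- The restriction of the class of `z` vanishes iff `z ∘ r` is the coboundary of a level
1-cochain on `Γ'`. -/
theorem res_cls₂_eq_zero_iff {z : Γ × Γ → M} (hz : IsCoc₂ L ρ z) :
    (L.res L' hr ρ hρ hρ').mapH 2 (cls₂ L ρ hρ z hz) = 0 ↔
      ∃ y : Γ' → M, L'.IsLevelConst (to₁ y) ∧
        ∀ g h : Γ', z (r g, r h) = ρ (r g) (y h) - y (g * h) + y g := by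
  rw [res_cls₂, cls₂_eq_zero_iff]
  rfl

end Res

end Fermat.Agent.PT.Base.Elem
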