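/-
PT layer BASE: the explicit cocycle description of `H²(U; 𝔽_p)` (`S`-levels), of its restrictions
to subgroups `V ≤ U` (all levels) and of `Ш²(U; 𝔽_p)`, in the RELATIVE vocabulary used by the
arithmetic layers: cochains are functions on `G_ℚ` (or `G_ℚ × G_ℚ`) constrained only on `U`.

* `IsCocU p S U z` : `z : G_ℚ × G_ℚ → 𝔽_p` is, on `U`, an `S`-level 2-cocycle;
* `clsU p S U z hz : (CU p S U).H 2` its class; `exists_clsU` (every class is one);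
* `clsU_eq_zero_iff`, `clsU_eq_clsU_iff` : coboundaries of `S`-level 1-cochains;
* `resUV_clsU_eq_zero_iff` : the restriction to `V ≤ U` dies iff `z` is, on `V`, the coboundary of
  an (all-)level 1-cochain;
* `clsU_mem_Sha2_iff` : membership in `Ш²(U; 𝔽_p)`.
-/
import Fermat.Agent.PT.Base.Defs
import Fermat.Agent.PT.Base.Elem

set_option autoImplicit false

open ExtCitation

namespace Fermat.Agent.PT.Base

open Bridge Elem

local notation "Qb" => AlgebraicClosure ℚ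
local notation "GQ" => (AlgebraicClosure ℚ ≃ₐ[ℚ] AlgebraicClosure ℚ)

noncomputable section

variable (p : ℕ) [Fact p.Prime] (S : Finset Nat.Primes)

section Levels

variable {X : Type}

/-- The levels of `(levS S).sub U`. -/
theorem exists_mem_sub_levS_le (U : Subgroup GQ) {F : IntermediateField ℚ Qb}
    (hF : F.IsUnramifiedOutside S) :
    ∃ N ∈ ((levS S).sub U).lev, N ≤ F.fixingSubgroup.subgroupOf U := by
  obtain ⟨N, hN, hle⟩ := exists_mem_levS_le hF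
  exact ⟨N.subgroupOf U, ⟨N, hN, rfl⟩, fun x hx => hle hx⟩

/-- `S`-level-constancy on `U`, one variable. -/
theorem isLevelConst_sub_to₁_iff (U : Subgroup GQ) (y : U → X) :
    ((levS S).sub U).IsLevelConst (to₁ y) ↔ ∃ F : IntermediateField ℚ Qb,
      F.IsUnramifiedOutside S ∧ ∀ g s : U, (s : GQ) ∈ F.fixingSubgroup → y (g * s) = y g := by
  rw [isLevelConst_to₁_iff]
  constructor
  · rintro ⟨_, ⟨_, ⟨L, hL, _, rfl⟩, rfl⟩, h⟩
    exact ⟨L, hL, fun g s hs => h g s hs⟩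
  · rintro ⟨F, hF, h⟩
    obtain ⟨N, hN, hle⟩ := exists_mem_sub_levS_le S U hF
    exact ⟨N, hN, fun g s hs => h g s (hle hs)⟩

/-- `S`-level-constancy on `U`, two variables. -/
theorem isLevelConst_sub_to₂_iff (U : Subgroup GQ) (z : U × U → X) :
    ((levS S).sub U).IsLevelConst (to₂ z) ↔ ∃ F : IntermediateField ℚ Qb,
      F.IsUnramifiedOutside S ∧ ∀ g h s t : U, (s : GQ) ∈ F.fixingSubgroup →
        (t : GQ) ∈ F.fixingSubgroup → z (g * s, h * t) = z (g, h) := by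
  rw [isLevelConst_to₂_iff]
  constructor
  · rintro ⟨_, ⟨_, ⟨L, hL, _, rfl⟩, rfl⟩, h⟩
    exact ⟨L, hL, fun g j s t hs ht => h g j s hs t ht⟩
  · rintro ⟨F, hF, h⟩
    obtain ⟨N, hN, hle⟩ := exists_mem_sub_levS_le S U hF
    exact ⟨N, hN, fun g j s hs t ht => h g j s t (hle hs) (hle ht)⟩

/-- All-level-constancy on `V`, one variable (`Bridge.isLevelConst_levD_iff`). -/
theorem isLevelConst_levD_to₁_iff (V : Subgroup GQ) (y : V → X) :
    (levD V).IsLevelConst (to₁ y) ↔ ∃ F : IntermediateField ℚ Qb, FiniteDimensional ℚ F ∧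
      ∀ g s : V, (s : GQ) ∈ F.fixingSubgroup → y (g * s) = y g :=
  isLevelConst_levD_iff V y

end Levels

/-- Restriction of a function on `G_ℚ × G_ℚ` to a subgroup. -/
def restr₂ {X : Type} (U : Subgroup GQ) (z : GQ × GQ → X) : U × U → X := fun g => z (g.1, g.2)

/-- Extension by zero of a function on a subgroup. -/
def ext₁ (U : Subgroup GQ) (y : U → ZMod p) : GQ → ZMod p := by
  classical
  exact fun g => if h : g ∈ U then y ⟨g, h⟩ else 0

/-- Extension by zero of a function on `U × U`. -/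
def ext₂ (U : Subgroup GQ) (z : U × U → ZMod p) : GQ × GQ → ZMod p := by
  classical
  exact fun g => if h : g.1 ∈ U ∧ g.2 ∈ U then z (⟨g.1, h.1⟩, ⟨g.2, h.2⟩) else 0

theorem ext₁_apply (U : Subgroup GQ) (y : U → ZMod p) (g : U) : ext₁ p U y g = y g := by
  unfold ext₁
  simp

theorem ext₂_apply (U : Subgroup GQ) (z : U × U → ZMod p) (g h : U) :
    ext₂ p U z (g, h) = z (g, h) := by
  unfold ext₂
  simp

/-- `z : G_ℚ × G_ℚ → 𝔽_p` is, on `U`, an `S`-level 2-cocycle (trivial coefficients). -/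
structure IsCocU (U : Subgroup GQ) (z : GQ × GQ → ZMod p) : Prop where
  lev : ∃ F : IntermediateField ℚ Qb, F.IsUnramifiedOutside S ∧
    ∀ g ∈ U, ∀ h ∈ U, ∀ s ∈ U, ∀ t ∈ U, s ∈ F.fixingSubgroup → t ∈ F.fixingSubgroup →
      z (g * s, h * t) = z (g, h)
  coc : ∀ g ∈ U, ∀ h ∈ U, ∀ j ∈ U, z (h, j) - z (g * h, j) + z (g, h * j) - z (g, h) = 0

variable {p S}

theorem IsCocU.isCoc₂ {U : Subgroup GQ} {z : GQ × GQ → ZMod p} (hz : IsCocU p S U z) :
    IsCoc₂ ((levS S).sub U) (Representation.trivial (ZMod p) U (ZMod p)) (restr₂ U z) := by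
  refine ⟨?_, fun g h j => hz.coc g g.2 h h.2 j j.2⟩
  rw [isLevelConst_sub_to₂_iff]
  obtain ⟨F, hF, h⟩ := hz.lev
  exact ⟨F, hF, fun g j s t hs ht => h g g.2 j j.2 s s.2 t t.2 hs ht⟩

variable (p S)

/-- The class in `H²(U; 𝔽_p)` of a relative `S`-level 2-cocycle. -/
def clsU (U : Subgroup GQ) (z : GQ × GQ → ZMod p) (hz : IsCocU p S U z) : (CU p S U).H 2 :=
  cls₂ ((levS S).sub U) (Representation.trivial (ZMod p) U (ZMod p))
    ((levS S).sub U).isSmooth_trivial (restr₂ U z) hz.isCoc₂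

/-- Every class of `H²(U; 𝔽_p)` is the class of a relative `S`-level 2-cocycle. -/
theorem exists_clsU (U : Subgroup GQ) (x : (CU p S U).H 2) :
    ∃ z hz, clsU p S U z hz = x := by
  obtain ⟨z', hz', rfl⟩ := exists_cls₂ ((levS S).sub U)
    (Representation.trivial (ZMod p) U (ZMod p)) ((levS S).sub U).isSmooth_trivial x
  have hr : restr₂ U (ext₂ p U z') = z' := by
    funext g
    exact ext₂_apply p U z' g.1 g.2
  have hz : IsCocU p S U (ext₂ p U z') := by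
    obtain ⟨F, hF, h⟩ := (isLevelConst_sub_to₂_iff S U z').mp hz'.lev
    refine ⟨⟨F, hF, fun g hg j hj s hs t ht hsF htF => ?_⟩, fun g hg h hh j hj => ?_⟩
    · have e1 := ext₂_apply p U z' (⟨g, hg⟩ * ⟨s, hs⟩) (⟨j, hj⟩ * ⟨t, ht⟩)
      have e2 := ext₂_apply p U z' ⟨g, hg⟩ ⟨j, hj⟩
      have e3 := h ⟨g, hg⟩ ⟨j, hj⟩ ⟨s, hs⟩ ⟨t, ht⟩ hsF htF
      exact e1.trans (e3.trans e2.symm)
    · have e := hz'.coc ⟨g, hg⟩ ⟨h, hh⟩ ⟨j, hj⟩
      have e1 := ext₂_apply p U z' ⟨h, hh⟩ ⟨j, hj⟩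
      have e2 := ext₂_apply p U z' (⟨g, hg⟩ * ⟨h, hh⟩) ⟨j, hj⟩
      have e3 := ext₂_apply p U z' ⟨g, hg⟩ (⟨h, hh⟩ * ⟨j, hj⟩)
      have e4 := ext₂_apply p U z' ⟨g, hg⟩ ⟨h, hh⟩
      have e' : z' (⟨h, hh⟩, ⟨j, hj⟩) - z' (⟨g, hg⟩ * ⟨h, hh⟩, ⟨j, hj⟩)
          + z' (⟨g, hg⟩, ⟨h, hh⟩ * ⟨j, hj⟩) - z' (⟨g, hg⟩, ⟨h, hh⟩) = 0 := e
      rw [← e1, ← e2, ← e3, ← e4] at e'
      exact e'
  refine ⟨ext₂ p U z', hz, ?_⟩
  unfold clsU
  congr 1

variable {p S}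

/-- The class of a relative 2-cocycle vanishes iff it is, on `U`, the coboundary of an `S`-level
1-cochain. -/
theorem clsU_eq_zero_iff {U : Subgroup GQ} {z : GQ × GQ → ZMod p} (hz : IsCocU p S U z) :
    clsU p S U z hz = 0 ↔ ∃ y : GQ → ZMod p,
      (∃ F : IntermediateField ℚ Qb, F.IsUnramifiedOutside S ∧
        ∀ g ∈ U, ∀ s ∈ U, s ∈ F.fixingSubgroup → y (g * s) = y g) ∧
      ∀ g ∈ U, ∀ h ∈ U, z (g, h) = y h - y (g * h) + y g := by
  unfold clsU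
  rw [cls₂_eq_zero_iff]
  constructor
  · rintro ⟨y, hy, h⟩
    obtain ⟨F, hF, hyF⟩ := (isLevelConst_sub_to₁_iff S U y).mp hy
    refine ⟨ext₁ p U y, ⟨F, hF, fun g hg s hs hsF => ?_⟩, fun g hg j hj => ?_⟩
    · have e1 := ext₁_apply p U y (⟨g, hg⟩ * ⟨s, hs⟩)
      have e2 := ext₁_apply p U y ⟨g, hg⟩
      exact e1.trans ((hyF ⟨g, hg⟩ ⟨s, hs⟩ hsF).trans e2.symm)
    · have e := h ⟨g, hg⟩ ⟨j, hj⟩
      have e1 := ext₁_apply p U y ⟨j, hj⟩
      have e2 := ext₁_apply p U y (⟨g, hg⟩ * ⟨j, hj⟩)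
      have e3 := ext₁_apply p U y ⟨g, hg⟩
      have e' : z (g, j) = y ⟨j, hj⟩ - y (⟨g, hg⟩ * ⟨j, hj⟩) + y ⟨g, hg⟩ := e
      rw [← e1, ← e2, ← e3] at e'
      exact e'
  · rintro ⟨y, ⟨F, hF, hyF⟩, h⟩
    refine ⟨fun g : U => y g, ?_, fun g j => h g g.2 j j.2⟩
    rw [isLevelConst_sub_to₁_iff]
    exact ⟨F, hF, fun g s hsF => hyF g g.2 s s.2 hsF⟩

/-- The restriction to `V ≤ U` of the class of a relative 2-cocycle vanishes iff the cocycle is,
on `V`, the coboundary of a level 1-cochain (all finite levels). -/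
theorem resUV_clsU_eq_zero_iff {U V : Subgroup GQ} (hVU : V ≤ U) {z : GQ × GQ → ZMod p}
    (hz : IsCocU p S U z) :
    (resUV p S hVU).mapH 2 (clsU p S U z hz) = 0 ↔ ∃ y : GQ → ZMod p,
      (∃ F : IntermediateField ℚ Qb, FiniteDimensional ℚ F ∧
        ∀ g ∈ V, ∀ s ∈ V, s ∈ F.fixingSubgroup → y (g * s) = y g) ∧
      ∀ g ∈ V, ∀ h ∈ V, z (g, h) = y h - y (g * h) + y g := by
  have key := res_cls₂_eq_zero_iff ((levS S).sub U) (Representation.trivial (ZMod p) U (ZMod p))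
    ((levS S).sub U).isSmooth_trivial (levD V) (isCts_inclusion S hVU)
    (levD V).isSmooth_trivial hz.isCoc₂
  refine Iff.trans key ?_
  constructor
  · rintro ⟨y, hy, h⟩
    obtain ⟨F, hF, hyF⟩ := (isLevelConst_levD_to₁_iff V y).mp hy
    refine ⟨ext₁ p V y, ⟨F, hF, fun g hg s hs hsF => ?_⟩, fun g hg j hj => ?_⟩
    · have e1 := ext₁_apply p V y (⟨g, hg⟩ * ⟨s, hs⟩)
      have e2 := ext₁_apply p V y ⟨g, hg⟩
      exact e1.trans ((hyF ⟨g, hg⟩ ⟨s, hs⟩ hsF).trans e2.symm)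
    · have e := h ⟨g, hg⟩ ⟨j, hj⟩
      have e1 := ext₁_apply p V y ⟨j, hj⟩
      have e2 := ext₁_apply p V y (⟨g, hg⟩ * ⟨j, hj⟩)
      have e3 := ext₁_apply p V y ⟨g, hg⟩
      have e' : z (g, j) = y ⟨j, hj⟩ - y (⟨g, hg⟩ * ⟨j, hj⟩) + y ⟨g, hg⟩ := e
      rw [← e1, ← e2, ← e3] at e'
      exact e'
  · rintro ⟨y, ⟨F, hF, hyF⟩, h⟩
    refine ⟨fun g : V => y g, ?_, fun g j => h g g.2 j j.2⟩
    rw [isLevelConst_levD_to₁_iff]
    exact ⟨F, hF, fun g s hsF => hyF g g.2 s s.2 hsF⟩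

/-- **Membership in `Ш²(U; 𝔽_p)` in elementary terms**: the class of a relative `S`-level
2-cocycle `z` lies in `Ш²` iff for every valuation subring `A` of `ℚ̄` over a prime of `S`, `z`
is on `U ⊓ D_A` the coboundary of a level 1-cochain. -/
theorem clsU_mem_Sha2_iff {U : Subgroup GQ} {z : GQ × GQ → ZMod p} (hz : IsCocU p S U z) :
    clsU p S U z hz ∈ Sha2 p S U ↔ ∀ A : ValuationSubring Qb,
      (∃ q ∈ S, A.LiesOverPrime (q : ℕ)) → ∃ y : GQ → ZMod p,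
        (∃ F : IntermediateField ℚ Qb, FiniteDimensional ℚ F ∧
          ∀ g ∈ U ⊓ decomp A, ∀ s ∈ U ⊓ decomp A, s ∈ F.fixingSubgroup → y (g * s) = y g) ∧
        ∀ g ∈ U ⊓ decomp A, ∀ h ∈ U ⊓ decomp A, z (g, h) = y h - y (g * h) + y g := by
  rw [mem_Sha2]
  exact forall_congr' fun A => imp_congr_right fun _ => resUV_clsU_eq_zero_iff _ hz

end

end Fermat.Agent.PT.Base
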