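import Fermat.Agent.PT.Base.Defs
import Fermat.Agent.PT.Coh.Mackey
import Fermat.Agent.PT.Coh.ShapiroTriv
import Fermat.Agent.Lib.ValConj

/-!
# PT layer BASE: Shapiro and Mackey for the concrete datum `Bridge.datum S`

`U ≤ G_ℚ` an open subgroup for the `S`-levels (`hU : ∃ N ∈ (levS S).lev, N ≤ U`; e.g.
`U = K.fixingSubgroup`, `K` unramified outside `S`), `X_U := Shapiro.permRep U (ZMod p)`
(`= 𝔽_p[U \ G_ℚ] = coind_U^{G_ℚ} 𝔽_p`), `q : ↥S`, `D_q = decomp (primeLocalPlace q)`.

* `hvEquiv` : `H^n(D_q; X_U) ≃ ∏_{c ∈ U \ G_ℚ / D_q} H^n(U ⊓ D_{c • A_q}; 𝔽_p)` (all levels on the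
  right: `CV p _`), and the localisation square `hvEquiv_resv`:
  the `c`-component of `res_{D_q} x` is `resUV (shTriv x)`;
* `finrank_Hv_eq_sum` (MK-dim), `finite_Hv`, `subsingleton_Hv`;
* `hvEquiv'`, `finrank_Hv_eq_sum'` : the same with the local groups `(c⁻¹ U c) ⊓ D_q`;
* `locH_eq_zero_iff` (MK-ker): `loc x = 0 ↔ shTriv x` dies on `U ⊓ D_A` for all `A` over `S`;
  `locH_two_eq_zero_iff : loc² x = 0 ↔ shTriv x ∈ Sha2 p S U`.
-/

set_option autoImplicit false

open ExtCitation Module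

namespace Fermat.Agent.PT.Base.Mackey

open scoped Pointwise
open Fermat.Agent.PT Fermat.Agent.PT.Bridge Fermat.Agent.PT.Shapiro Fermat.Agent.PT.Base

local notation "Qb" => AlgebraicClosure ℚ
local notation "GQ" => (AlgebraicClosure ℚ ≃ₐ[ℚ] AlgebraicClosure ℚ)

noncomputable section

/-! ### Levels of conjugate local groups -/

/-- `primeLocalPlace q` lies over `q`. -/
theorem liesOverPrime_primeLocalPlace (q : Nat.Primes) :
    (primeLocalPlace q).LiesOverPrime (q : ℕ) := by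
  have : Fact (q : ℕ).Prime := ⟨q.2⟩
  have hq1 : (1 : ℝ) < (q : ℕ) := by exact_mod_cast q.2.one_lt
  show (padicPlace (q : ℕ)).LiesOverPrime (q : ℕ)
  unfold ValuationSubring.LiesOverPrime
  rw [Fermat.Agent.PT.Levels.mem_nonunits_iff_inv]
  right
  rw [Fermat.Agent.PT.LocDec.mem_padicPlace_iff_nq, ← zpow_neg_one,
    Fermat.Agent.PT.LocDec.nq_zpow, Fermat.Agent.PT.LocDec.nq_natCast_self, zpow_neg_one,
    inv_inv]
  exact not_le.mpr hq1

/-- `U ⊓ D_{g • A}` is the local group `U ∩ g D_A g⁻¹`, with all levels. -/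
theorem isConjLocal_levD (U D : Subgroup GQ) (g : GQ) (W : Subgroup GQ)
    (hW : ∀ x, x ∈ W ↔ x ∈ U ∧ g⁻¹ * x * g ∈ D) :
    IsConjLocal U D (levD D) g W (levD W) where
  mem_iff := hW
  lev_le := by
    rintro _ ⟨F, hF, hFn, rfl⟩
    refine ⟨F.fixingSubgroup.subgroupOf W, ⟨F, hF, hFn, rfl⟩, fun w hw d hd => ?_⟩
    have hn := Fermat.Agent.PT.Levels.fixingSubgroup_normal F
    show (d : GQ) ∈ F.fixingSubgroup
    rw [hd]
    have h1 := hn.conj_mem _ (Subgroup.mem_subgroupOf.mp hw) g⁻¹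
    rwa [inv_inv] at h1
  le_lev := by
    rintro _ ⟨F, hF, hFn, rfl⟩
    refine ⟨F.fixingSubgroup.subgroupOf D, ⟨F, hF, hFn, rfl⟩, fun d hd w hw => ?_⟩
    have hn := Fermat.Agent.PT.Levels.fixingSubgroup_normal F
    show (w : GQ) ∈ F.fixingSubgroup
    rw [hw]
    exact hn.conj_mem _ (Subgroup.mem_subgroupOf.mp hd) g

/-- The local group `U ⊓ decomp (g • A)`. -/
theorem isConjLocal_decomp (U : Subgroup GQ) (A : ValuationSubring Qb) (g : GQ) :
    IsConjLocal U (decomp A) (levD (decomp A)) g (U ⊓ decomp (g • A))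
      (levD (U ⊓ decomp (g • A))) :=
  isConjLocal_levD U (decomp A) g _ fun x => by
    rw [Subgroup.mem_inf]
    exact and_congr Iff.rfl (Fermat.Agent.Lib.ValConj.mem_decompositionSubgroup_smul_iff g x A)

/-- A bijective linear map preserves the dimension of a submodule. -/
theorem finrank_eq_of_eq_map {k M M' : Type} [Field k] [AddCommGroup M] [Module k M]
    [AddCommGroup M'] [Module k M'] (f : M →ₗ[k] M') (hf : Function.Bijective f)
    (P : Submodule k M) (Q : Submodule k M') (h : Q = P.map f) :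
    finrank k P = finrank k Q := by
  subst h
  exact (LinearEquiv.finrank_map_eq (LinearEquiv.ofBijective f hf) P).symm

/-! ### The `U`-side Mackey decomposition for the datum -/

variable (p : ℕ) [Fact p.Prime] (S : Finset Nat.Primes) (U : Subgroup GQ)
  (hU : ∃ N ∈ (levS S).lev, N ≤ U) (q : ↥S)

include hU in
/-- `U \ G_ℚ / D` is finite for an open subgroup `U`. -/
theorem finite_doubleCoset (D : Subgroup GQ) :
    Finite (DoubleCoset.Quotient (U : Set GQ) (D : Set GQ)) := by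
  obtain ⟨N₀, hN₀, hN₀U⟩ := hU
  have := (levS S).finiteIndex N₀ hN₀
  have hUfin : U.FiniteIndex := Subgroup.finiteIndex_of_le hN₀U
  exact finite_doubleCosetQuotient U D

/-- **Shapiro + Mackey for the datum**:
`H^n(D_q; 𝔽_p[U\G_ℚ]) ≃ ∏_{c ∈ U\G_ℚ/D_q} H^n(U ⊓ D_{c • A_q}; 𝔽_p)`. -/
def hvEquiv (n : ℕ) :
    (datum S).Hv (permRep U (ZMod p)) (permRep_smooth (levS S) U (ZMod p) hU) q n ≃ₗ[ZMod p]
      ∀ c : DoubleCoset.Quotient (U : Set GQ) (decomp (primeLocalPlace q.1) : Set GQ),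
        (CV p (U ⊓ decomp (c.out • primeLocalPlace q.1))).H n :=
  haveI := finite_doubleCoset S U hU (decomp (primeLocalPlace q.1))
  mackeyEquivConj (levS S) U (decomp (primeLocalPlace q.1)) (levD _)
    (fun c : DoubleCoset.Quotient (U : Set GQ) (decomp (primeLocalPlace q.1) : Set GQ) => c.out)
    hU (isCts_subtype S _) (Representation.trivial (ZMod p) U (ZMod p))
    ((levS S).sub U).isSmooth_trivial (isDoubleCosetReps_out U _)
    (fun c => U ⊓ decomp (c.out • primeLocalPlace q.1)) (fun _ => levD _)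
    (fun c => isConjLocal_decomp U (primeLocalPlace q.1) c.out) n

/-- **The localisation square for the datum**: under Shapiro and Mackey, restriction from
`G_ℚ` to `D_q` on `𝔽_p[U\G_ℚ]` is the family of restrictions from `U` to the local groups
`U ⊓ D_{c • A_q}`. -/
theorem hvEquiv_resv (n : ℕ)
    (x : (datum S).H (permRep U (ZMod p)) (permRep_smooth (levS S) U (ZMod p) hU) n)
    (c : DoubleCoset.Quotient (U : Set GQ) (decomp (primeLocalPlace q.1) : Set GQ)) :
    hvEquiv p S U hU q n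
        (((datum S).resv (permRep U (ZMod p)) (permRep_smooth (levS S) U (ZMod p) hU) q).mapH
          n x) c =
      (resUV p S (inf_le_left : U ⊓ decomp (c.out • primeLocalPlace q.1) ≤ U)).mapH n
        ((shTriv (levS S) U p hU).mapH n x) :=
  haveI := finite_doubleCoset S U hU (decomp (primeLocalPlace q.1))
  mackeyEquivConj_res (levS S) U (decomp (primeLocalPlace q.1)) (levD _)
    (fun c : DoubleCoset.Quotient (U : Set GQ) (decomp (primeLocalPlace q.1) : Set GQ) => c.out)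
    hU (isCts_subtype S _) (Representation.trivial (ZMod p) U (ZMod p))
    ((levS S).sub U).isSmooth_trivial (isDoubleCosetReps_out U _)
    (fun c => U ⊓ decomp (c.out • primeLocalPlace q.1)) (fun _ => levD _)
    (fun c => isConjLocal_decomp U (primeLocalPlace q.1) c.out) n x c

/-- **(MK-dim)**, `U`-side:
`dim H^n(D_q; 𝔽_p[U\G_ℚ]) = ∑_{c ∈ U\G_ℚ/D_q} dim H^n(U ⊓ D_{c • A_q}; 𝔽_p)`. -/
theorem finrank_Hv_eq_sum
    [Fintype (DoubleCoset.Quotient (U : Set GQ) (decomp (primeLocalPlace q.1) : Set GQ))]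
    (n : ℕ)
    (hfin : ∀ c : DoubleCoset.Quotient (U : Set GQ) (decomp (primeLocalPlace q.1) : Set GQ),
      Module.Finite (ZMod p) ((CV p (U ⊓ decomp (c.out • primeLocalPlace q.1))).H n)) :
    finrank (ZMod p)
        ((datum S).Hv (permRep U (ZMod p)) (permRep_smooth (levS S) U (ZMod p) hU) q n) =
      ∑ c : DoubleCoset.Quotient (U : Set GQ) (decomp (primeLocalPlace q.1) : Set GQ),
        finrank (ZMod p) ((CV p (U ⊓ decomp (c.out • primeLocalPlace q.1))).H n) := by
  rw [(hvEquiv p S U hU q n).finrank_eq, Module.finrank_pi_fintype]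

/-- Finiteness of `H^n(D_q; 𝔽_p[U\G_ℚ])` from finiteness of the local cohomology groups. -/
theorem finite_Hv (n : ℕ)
    (hfin : ∀ c : DoubleCoset.Quotient (U : Set GQ) (decomp (primeLocalPlace q.1) : Set GQ),
      Module.Finite (ZMod p) ((CV p (U ⊓ decomp (c.out • primeLocalPlace q.1))).H n)) :
    Module.Finite (ZMod p)
      ((datum S).Hv (permRep U (ZMod p)) (permRep_smooth (levS S) U (ZMod p) hU) q n) :=
  haveI := finite_doubleCoset S U hU (decomp (primeLocalPlace q.1))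
  Module.Finite.equiv (hvEquiv p S U hU q n).symm

/-- Vanishing of `H^n(D_q; 𝔽_p[U\G_ℚ])` from vanishing of the local cohomology groups. -/
theorem subsingleton_Hv (n : ℕ)
    (h : ∀ c : DoubleCoset.Quotient (U : Set GQ) (decomp (primeLocalPlace q.1) : Set GQ),
      Subsingleton ((CV p (U ⊓ decomp (c.out • primeLocalPlace q.1))).H n)) :
    Subsingleton
      ((datum S).Hv (permRep U (ZMod p)) (permRep_smooth (levS S) U (ZMod p) hU) q n) :=
  (hvEquiv p S U hU q n).toEquiv.subsingleton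

/-! ### (MK-ker) -/

/-- **(MK-ker)**: a class of `H^n(G_ℚ; 𝔽_p[U\G_ℚ])` is locally trivial at all places of `S` iff
its Shapiro image in `H^n(U; 𝔽_p)` dies on `U ⊓ D_A` for every `A` over a prime of `S`. -/
theorem locH_eq_zero_iff (n : ℕ)
    (x : (datum S).H (permRep U (ZMod p)) (permRep_smooth (levS S) U (ZMod p) hU) n) :
    (datum S).locH (permRep U (ZMod p)) (permRep_smooth (levS S) U (ZMod p) hU) n x = 0 ↔
      ∀ A : ValuationSubring Qb, (∃ q ∈ S, A.LiesOverPrime (q : ℕ)) →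
        (resUV p S (inf_le_left : U ⊓ decomp A ≤ U)).mapH n
          ((shTriv (levS S) U p hU).mapH n x) = 0 := by
  have key : ∀ q : Nat.Primes,
      ((levS S).res (levD (decomp (primeLocalPlace q))) (isCts_subtype S _)
        (permRep U (ZMod p)) (permRep_smooth (levS S) U (ZMod p) hU)
        ((isCts_subtype S _).isSmooth (permRep_smooth (levS S) U (ZMod p) hU))).mapH n x = 0 ↔
      ∀ g : GQ, (resUV p S (inf_le_left : U ⊓ decomp (g • primeLocalPlace q) ≤ U)).mapH n
          ((shTriv (levS S) U p hU).mapH n x) = 0 := fun q =>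
    res_mapH_eq_zero_iff_conjLocal (levS S) U (decomp (primeLocalPlace q)) (levD _) hU
      (isCts_subtype S _) (Representation.trivial (ZMod p) U (ZMod p))
      ((levS S).sub U).isSmooth_trivial (fun g => U ⊓ decomp (g • primeLocalPlace q))
      (fun g => levD _) (fun g => isConjLocal_decomp U (primeLocalPlace q) g) n x
  constructor
  · rintro h A ⟨q, hq, hA⟩
    obtain ⟨τ, rfl⟩ := Fermat.Agent.Lib.ValConj.exists_smul_eq_of_liesOverPrime q.2
      (primeLocalPlace q) A (liesOverPrime_primeLocalPlace q) hA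
    exact (key q).1 (congrFun h ⟨q, hq⟩) τ
  · intro h
    funext q
    exact (key q.1).2 fun g => h (g • primeLocalPlace q.1)
      ⟨q.1, q.2, Fermat.Agent.PT.Levels.liesOverPrime_smul (liesOverPrime_primeLocalPlace q.1) g⟩

/-- **(MK-ker)** in degree `2`: `loc² x = 0 ↔ shTriv x ∈ Ш²(U; 𝔽_p)`. -/
theorem locH_two_eq_zero_iff
    (x : (datum S).H (permRep U (ZMod p)) (permRep_smooth (levS S) U (ZMod p) hU) 2) :
    (datum S).locH (permRep U (ZMod p)) (permRep_smooth (levS S) U (ZMod p) hU) 2 x = 0 ↔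
      (shTriv (levS S) U p hU).mapH 2 x ∈ Sha2 p S U := by
  rw [locH_eq_zero_iff, mem_Sha2]

/-- `Ш²(U; 𝔽_p)` is the image under Shapiro of the kernel of `loc²` on `𝔽_p[U\G_ℚ]`. -/
theorem sha2_eq_map :
    Sha2 p S U =
      (LinearMap.ker ((datum S).locH (permRep U (ZMod p))
        (permRep_smooth (levS S) U (ZMod p) hU) 2)).map ((shTriv (levS S) U p hU).mapH 2) := by
  ext y
  rw [Submodule.mem_map]
  constructor
  · intro hy
    obtain ⟨x, rfl⟩ := (shTriv_bijective (levS S) U p hU 2).2 y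
    exact ⟨x, LinearMap.mem_ker.mpr ((locH_two_eq_zero_iff p S U hU x).2 hy), rfl⟩
  · rintro ⟨x, hx, rfl⟩
    exact (locH_two_eq_zero_iff p S U hU x).1 (LinearMap.mem_ker.mp hx)

/-- `dim ker(loc² on 𝔽_p[U\G_ℚ]) = dim Ш²(U; 𝔽_p)`. -/
theorem finrank_ker_locH_two :
    finrank (ZMod p) (LinearMap.ker ((datum S).locH (permRep U (ZMod p))
        (permRep_smooth (levS S) U (ZMod p) hU) 2)) =
      finrank (ZMod p) (Sha2 p S U) :=
  finrank_eq_of_eq_map _ (shTriv_bijective (levS S) U p hU 2) _ _ (sha2_eq_map p S U hU)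

/-! ### The `D`-side form: local groups `(c⁻¹ U c) ⊓ D_q` -/

/-- The subgroup `V = (g⁻¹ U g) ⊓ D` of `G_ℚ` is `conjSub U D g`. -/
def conjSubEquiv (U D : Subgroup GQ) (g : GQ) (V : Subgroup GQ)
    (hV : ∀ x, x ∈ V ↔ g * x * g⁻¹ ∈ U ∧ x ∈ D) : V ≃* conjSub U D g where
  toFun x := ⟨⟨x, ((hV x).1 x.2).2⟩, ((hV x).1 x.2).1⟩
  invFun d := ⟨(d : D), (hV _).2 ⟨d.2, (d : D).2⟩⟩
  left_inv _ := rfl
  right_inv _ := rfl
  map_mul' _ _ := rfl

theorem isCts_conjSubEquiv (U D : Subgroup GQ) (g : GQ) (V : Subgroup GQ)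
    (hV : ∀ x, x ∈ V ↔ g * x * g⁻¹ ∈ U ∧ x ∈ D) :
    (subLev (levD D) (conjSub U D g)).IsCts (levD V) (conjSubEquiv U D g V hV).toMonoidHom := by
  rintro _ ⟨_, ⟨F, hF, hFn, rfl⟩, rfl⟩
  exact ⟨F.fixingSubgroup.subgroupOf V, ⟨F, hF, hFn, rfl⟩, fun x hx => hx⟩

theorem isCts_conjSubEquiv_symm (U D : Subgroup GQ) (g : GQ) (V : Subgroup GQ)
    (hV : ∀ x, x ∈ V ↔ g * x * g⁻¹ ∈ U ∧ x ∈ D) :
    (levD V).IsCts (subLev (levD D) (conjSub U D g))
      (conjSubEquiv U D g V hV).symm.toMonoidHom := by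
  rintro _ ⟨F, hF, hFn, rfl⟩
  exact ⟨(F.fixingSubgroup.subgroupOf D).subgroupOf (conjSub U D g),
    ⟨_, ⟨F, hF, hFn, rfl⟩, rfl⟩, fun x hx => hx⟩

theorem mem_conj_smul_inf (U D : Subgroup GQ) (g x : GQ) :
    x ∈ (MulAut.conj g⁻¹ • U) ⊓ D ↔ g * x * g⁻¹ ∈ U ∧ x ∈ D := by
  rw [Subgroup.mem_inf, Subgroup.mem_pointwise_smul_iff_inv_smul_mem, ← map_inv, inv_inv,
    MulAut.smul_def, MulAut.conj_apply]

/-- Transport: `H^n(conjSub U D g; 𝔽_p) → H^n((g⁻¹Ug) ⊓ D; 𝔽_p)` (all levels) is bijective. -/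
theorem conjSub_res_bijective (g : GQ) (D : Subgroup GQ) (n : ℕ) :
    Function.Bijective
      (((subLev (levD D) (conjSub U D g)).res (levD ((MulAut.conj g⁻¹ • U) ⊓ D))
        (isCts_conjSubEquiv U D g _ (mem_conj_smul_inf U D g))
        ((Representation.trivial (ZMod p) U (ZMod p)).comp (conjHom U D g))
        (subLev (levD D) (conjSub U D g)).isSmooth_trivial
        (levD ((MulAut.conj g⁻¹ • U) ⊓ D)).isSmooth_trivial).mapH n) :=
  res_mapH_bijective_of_mulEquiv (subLev (levD D) (conjSub U D g))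
    (levD ((MulAut.conj g⁻¹ • U) ⊓ D)) (conjSubEquiv U D g _ (mem_conj_smul_inf U D g))
    (isCts_conjSubEquiv U D g _ (mem_conj_smul_inf U D g))
    (isCts_conjSubEquiv_symm U D g _ (mem_conj_smul_inf U D g)) _ _ _ n

/-- **Shapiro + Mackey for the datum, `D`-side**:
`H^n(D_q; 𝔽_p[U\G_ℚ]) ≃ ∏_{c ∈ U\G_ℚ/D_q} H^n((c⁻¹Uc) ⊓ D_q; 𝔽_p)`. -/
def hvEquiv' (n : ℕ) :
    (datum S).Hv (permRep U (ZMod p)) (permRep_smooth (levS S) U (ZMod p) hU) q n ≃ₗ[ZMod p]
      ∀ c : DoubleCoset.Quotient (U : Set GQ) (decomp (primeLocalPlace q.1) : Set GQ),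
        (CV p ((MulAut.conj c.out⁻¹ • U) ⊓ decomp (primeLocalPlace q.1))).H n :=
  haveI := finite_doubleCoset S U hU (decomp (primeLocalPlace q.1))
  (mackeyEquiv (levS S) U (decomp (primeLocalPlace q.1)) (levD _)
    (fun c : DoubleCoset.Quotient (U : Set GQ) (decomp (primeLocalPlace q.1) : Set GQ) => c.out)
    hU (isCts_subtype S _) (Representation.trivial (ZMod p) U (ZMod p))
    ((levS S).sub U).isSmooth_trivial (isDoubleCosetReps_out U _) n).trans
  (LinearEquiv.piCongrRight fun c =>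
    LinearEquiv.ofBijective _ (conjSub_res_bijective p U c.out (decomp (primeLocalPlace q.1)) n))

/-- **(MK-dim)**, `D`-side (helper58's literal form). -/
theorem finrank_Hv_eq_sum'
    [Fintype (DoubleCoset.Quotient (U : Set GQ) (decomp (primeLocalPlace q.1) : Set GQ))]
    (n : ℕ)
    (hfin : ∀ c : DoubleCoset.Quotient (U : Set GQ) (decomp (primeLocalPlace q.1) : Set GQ),
      Module.Finite (ZMod p)
        ((CV p ((MulAut.conj c.out⁻¹ • U) ⊓ decomp (primeLocalPlace q.1))).H n)) :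
    finrank (ZMod p)
        ((datum S).Hv (permRep U (ZMod p)) (permRep_smooth (levS S) U (ZMod p) hU) q n) =
      ∑ c : DoubleCoset.Quotient (U : Set GQ) (decomp (primeLocalPlace q.1) : Set GQ),
        finrank (ZMod p)
          ((CV p ((MulAut.conj c.out⁻¹ • U) ⊓ decomp (primeLocalPlace q.1))).H n) := by
  rw [(hvEquiv' p S U hU q n).finrank_eq, Module.finrank_pi_fintype]

theorem finite_Hv' (n : ℕ)
    (hfin : ∀ c : DoubleCoset.Quotient (U : Set GQ) (decomp (primeLocalPlace q.1) : Set GQ),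
      Module.Finite (ZMod p)
        ((CV p ((MulAut.conj c.out⁻¹ • U) ⊓ decomp (primeLocalPlace q.1))).H n)) :
    Module.Finite (ZMod p)
      ((datum S).Hv (permRep U (ZMod p)) (permRep_smooth (levS S) U (ZMod p) hU) q n) :=
  haveI := finite_doubleCoset S U hU (decomp (primeLocalPlace q.1))
  Module.Finite.equiv (hvEquiv' p S U hU q n).symm

theorem subsingleton_Hv' (n : ℕ)
    (h : ∀ c : DoubleCoset.Quotient (U : Set GQ) (decomp (primeLocalPlace q.1) : Set GQ),
      Subsingleton ((CV p ((MulAut.conj c.out⁻¹ • U) ⊓ decomp (primeLocalPlace q.1))).H n)) :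
    Subsingleton
      ((datum S).Hv (permRep U (ZMod p)) (permRep_smooth (levS S) U (ZMod p) hU) q n) :=
  (hvEquiv' p S U hU q n).toEquiv.subsingleton

/-! ### The same for an arbitrary system of double coset representatives -/

/-- `D_{g • A} = g D_A g⁻¹`. -/
theorem decomp_smul (g : GQ) (A : ValuationSubring Qb) :
    decomp (g • A) = MulAut.conj g • decomp A := by
  ext x
  rw [Subgroup.mem_pointwise_smul_iff_inv_smul_mem, ← map_inv, MulAut.smul_def,
    MulAut.conj_apply, inv_inv]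
  exact Fermat.Agent.Lib.ValConj.mem_decompositionSubgroup_smul_iff g x A

/-- The conjugate places `g • A_q` lie over `q`. -/
theorem liesOverPrime_smul_primeLocalPlace (g : GQ) (q : Nat.Primes) :
    (g • primeLocalPlace q).LiesOverPrime (q : ℕ) :=
  Fermat.Agent.PT.Levels.liesOverPrime_smul (liesOverPrime_primeLocalPlace q) g

variable {ι : Type} [Finite ι] (r : ι → GQ)

/-- **(MK-equiv)**: for any finite system `r` of representatives of `U \ G_ℚ / D_q`,
`H^n(D_q; 𝔽_p[U\G_ℚ]) ≃ ∏_i H^n(U ⊓ D_{r i • A_q}; 𝔽_p)`. -/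
def hvEquivReps (hr : IsDoubleCosetReps U (decomp (primeLocalPlace q.1)) r) (n : ℕ) :
    (datum S).Hv (permRep U (ZMod p)) (permRep_smooth (levS S) U (ZMod p) hU) q n ≃ₗ[ZMod p]
      ∀ i : ι, (CV p (U ⊓ decomp (r i • primeLocalPlace q.1))).H n :=
  mackeyEquivConj (levS S) U (decomp (primeLocalPlace q.1)) (levD _) r
    hU (isCts_subtype S _) (Representation.trivial (ZMod p) U (ZMod p))
    ((levS S).sub U).isSmooth_trivial hr
    (fun i => U ⊓ decomp (r i • primeLocalPlace q.1)) (fun _ => levD _)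
    (fun i => isConjLocal_decomp U (primeLocalPlace q.1) (r i)) n

/-- The localisation square for `hvEquivReps`. -/
theorem hvEquivReps_resv (hr : IsDoubleCosetReps U (decomp (primeLocalPlace q.1)) r) (n : ℕ)
    (x : (datum S).H (permRep U (ZMod p)) (permRep_smooth (levS S) U (ZMod p) hU) n) (i : ι) :
    hvEquivReps p S U hU q r hr n
        (((datum S).resv (permRep U (ZMod p)) (permRep_smooth (levS S) U (ZMod p) hU) q).mapH
          n x) i =
      (resUV p S (inf_le_left : U ⊓ decomp (r i • primeLocalPlace q.1) ≤ U)).mapH n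
        ((shTriv (levS S) U p hU).mapH n x) :=
  mackeyEquivConj_res (levS S) U (decomp (primeLocalPlace q.1)) (levD _) r
    hU (isCts_subtype S _) (Representation.trivial (ZMod p) U (ZMod p))
    ((levS S).sub U).isSmooth_trivial hr
    (fun i => U ⊓ decomp (r i • primeLocalPlace q.1)) (fun _ => levD _)
    (fun i => isConjLocal_decomp U (primeLocalPlace q.1) (r i)) n x i

omit [Finite ι] in
/-- **(MK-dim)** for an arbitrary finite system of representatives. -/
theorem finrank_Hv_eq_sum_reps [Fintype ι]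
    (hr : IsDoubleCosetReps U (decomp (primeLocalPlace q.1)) r) (n : ℕ)
    (hfin : ∀ i : ι,
      Module.Finite (ZMod p) ((CV p (U ⊓ decomp (r i • primeLocalPlace q.1))).H n)) :
    finrank (ZMod p)
        ((datum S).Hv (permRep U (ZMod p)) (permRep_smooth (levS S) U (ZMod p) hU) q n) =
      ∑ i : ι, finrank (ZMod p) ((CV p (U ⊓ decomp (r i • primeLocalPlace q.1))).H n) := by
  rw [(hvEquivReps p S U hU q r hr n).finrank_eq, Module.finrank_pi_fintype]

end

end Fermat.Agent.PT.Base.Mackey
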