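/-
PT layer BASE: the orbit count for double cosets.

For `U ≤ Γ` of finite index, any subgroup `D` and a system `r` of representatives of `U \ Γ / D`:
`∑_i [r_i D r_i⁻¹ : U ∩ r_i D r_i⁻¹] = [Γ : U]`.
-/
import Fermat.Agent.PT.Coh.Mackey

set_option autoImplicit false

namespace Fermat.Agent.PT.Base

open Fermat.Agent.PT.Shapiro

variable {Γ : Type} [Group Γ] (U D : Subgroup Γ)

/-- `[D : D ∩ g⁻¹Ug] = [gDg⁻¹ : U ∩ gDg⁻¹]`. -/
theorem index_conjSub (g : Γ) :
    (conjSub U D g).index = U.relIndex (D.map (MulAut.conj g).toMonoidHom) := by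
  unfold conjSub
  rw [Subgroup.index_comap, ← MonoidHom.map_range, Subgroup.range_subtype]

/-- The map `D ⧸ (D ∩ g⁻¹Ug) → Γ ⧸ U`, `d ↦ d g⁻¹ U`. -/
def orbitMap (g : Γ) : D ⧸ conjSub U D g → Γ ⧸ U :=
  Quotient.map' (fun d : D => (d : Γ) * g⁻¹) (by
    intro a b hab
    rw [QuotientGroup.leftRel_apply] at hab ⊢
    have h : g * ((a⁻¹ * b : D) : Γ) * g⁻¹ ∈ U := hab
    have e : ((a : Γ) * g⁻¹)⁻¹ * ((b : Γ) * g⁻¹) = g * ((a⁻¹ * b : D) : Γ) * g⁻¹ := by
      simp only [Subgroup.coe_mul, Subgroup.coe_inv]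
      group
    rw [e]
    exact h)

theorem orbitMap_mk (g : Γ) (d : D) :
    orbitMap U D g (QuotientGroup.mk d) = QuotientGroup.mk ((d : Γ) * g⁻¹) := rfl

theorem orbitMap_injective (g : Γ) : Function.Injective (orbitMap U D g) := by
  intro x y
  induction x using QuotientGroup.induction_on with
  | _ a =>
    induction y using QuotientGroup.induction_on with
    | _ b =>
      intro h
      rw [orbitMap_mk, orbitMap_mk, QuotientGroup.eq] at h
      rw [QuotientGroup.eq]
      show g * ((a⁻¹ * b : D) : Γ) * g⁻¹ ∈ U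
      have e : ((a : Γ) * g⁻¹)⁻¹ * ((b : Γ) * g⁻¹) = g * ((a⁻¹ * b : D) : Γ) * g⁻¹ := by
        simp only [Subgroup.coe_mul, Subgroup.coe_inv]
        group
      rw [← e]
      exact h

variable {U D}

/-- **Orbit count**: `∑_i [r_i D r_i⁻¹ : U ∩ r_i D r_i⁻¹] = [Γ : U]` for a system `r` of
representatives of `U \ Γ / D`. -/
theorem sum_relIndex_conj_eq_index [U.FiniteIndex] {ι : Type} [Fintype ι] (r : ι → Γ)
    (hr : IsDoubleCosetReps U D r) :
    ∑ i, U.relIndex (D.map (MulAut.conj (r i)).toMonoidHom) = U.index := by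
  classical
  have hfinQ : Finite (Γ ⧸ U) := Subgroup.finite_quotient_of_finiteIndex
  let F : (Σ i, D ⧸ conjSub U D (r i)) → Γ ⧸ U := fun x => orbitMap U D (r x.1) x.2
  have hFinj : Function.Injective F := by
    rintro ⟨i, x⟩ ⟨j, y⟩ h
    induction x using QuotientGroup.induction_on with
    | _ a =>
      induction y using QuotientGroup.induction_on with
      | _ b =>
        have h' : (QuotientGroup.mk ((a : Γ) * (r i)⁻¹) : Γ ⧸ U) =
            QuotientGroup.mk ((b : Γ) * (r j)⁻¹) := h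
        rw [QuotientGroup.eq] at h'
        have hij : i = j := by
          refine hr.unique i j 1 ⟨_, h'⟩ (a⁻¹ * b) 1 ?_
          simp only [Subgroup.coe_inv, Subgroup.coe_one, Subgroup.coe_mul]
          group
        subst hij
        have hinj := orbitMap_injective U D (r i)
        have : (QuotientGroup.mk a : D ⧸ conjSub U D (r i)) = QuotientGroup.mk b := hinj h
        rw [this]
  have hFsurj : Function.Surjective F := by
    intro q
    induction q using QuotientGroup.induction_on with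
    | _ x =>
      obtain ⟨i, u, d, hx⟩ := hr.exists_rep x⁻¹
      refine ⟨⟨i, QuotientGroup.mk d⁻¹⟩, ?_⟩
      show (QuotientGroup.mk (((d⁻¹ : D) : Γ) * (r i)⁻¹) : Γ ⧸ U) = QuotientGroup.mk x
      rw [QuotientGroup.eq]
      have e : (((d⁻¹ : D) : Γ) * (r i)⁻¹)⁻¹ * x = (u : Γ)⁻¹ := by
        have hx' : x = ((u : Γ) * r i * (d : Γ))⁻¹ := by rw [← hx, inv_inv]
        rw [hx']
        simp only [Subgroup.coe_inv]
        group
      rw [e]
      exact U.inv_mem u.2
  have hfinS : Finite (Σ i, D ⧸ conjSub U D (r i)) := Finite.of_injective F hFinj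
  have hfin : ∀ i, Finite (D ⧸ conjSub U D (r i)) := fun i =>
    Finite.of_injective (fun x => (⟨i, x⟩ : Σ i, D ⧸ conjSub U D (r i)))
      (fun x y h => by simpa using h)
  have h1 : Nat.card (Σ i, D ⧸ conjSub U D (r i)) = Nat.card (Γ ⧸ U) :=
    Nat.card_congr (Equiv.ofBijective F ⟨hFinj, hFsurj⟩)
  rw [Nat.card_sigma] at h1
  rw [Subgroup.index, ← h1]
  refine Finset.sum_congr rfl fun i _ => ?_
  rw [← index_conjSub]
  rfl

end Fermat.Agent.PT.Base
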