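/-
PT layer BASE: the arithmetic core of (S-A).

Abstract form of "sub-additivity of `χ₂` in a tower with a bounded number of places forces the
image of `loc²` to be a hyperplane and `χ₂ = -[G:U]/2`".
-/
import Mathlib

set_option autoImplicit false

namespace Fermat.Agent.PT.Base

/-- **(S-A), abstract form.**  `I` indexes the base groups `U`; `idx` = index `[G:U]`,
`a = h¹`, `κ = dim Ш²`, `d = rank loc²`, `ℓ = #places`.  Hypotheses: (B1) `2a = 2κ + idx + 2ℓ`;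
`loc²` is not onto (`d + 1 ≤ ℓ`); every `i` has, for every `m`, an `i'` above it of relative index
`p ^ j`, `j ≥ m`, with `χ₂(i') ≤ p ^ j · χ₂(i)` (sub-additivity; `χ₂ = 1 - a + κ + d`) and with
`ℓ i' ≤ B` (bounded number of places).  Then `d + 1 = ℓ` for all `i`. -/
theorem rank_loc_eq_of_tower {I : Type*} (p : ℕ) (hp : 2 ≤ p) (idx a κ d ℓ : I → ℕ)
    (hB1 : ∀ i, 2 * a i = 2 * κ i + idx i + 2 * ℓ i)
    (hns : ∀ i, d i + 1 ≤ ℓ i)
    (htower : ∀ i, ∃ B : ℕ, ∀ m : ℕ, ∃ (i' : I) (j : ℕ), m ≤ j ∧ idx i' = p ^ j * idx i ∧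
      (1 - (a i' : ℤ) + κ i' + d i') ≤ (p : ℤ) ^ j * (1 - (a i : ℤ) + κ i + d i) ∧ ℓ i' ≤ B)
    (i : I) : d i + 1 = ℓ i := by
  by_contra hne
  have hlt : d i + 2 ≤ ℓ i := by
    have := hns i
    omega
  obtain ⟨B, hB⟩ := htower i
  obtain ⟨i', j, hj, hidx, hchi, hℓ⟩ := hB B
  have h1 := hB1 i
  have h1' := hB1 i'
  have hns' := hns i'
  -- `2 χ₂ = -idx - 2 e`, `e = ℓ - 1 - d`
  have e1 : (2 : ℤ) * (1 - (a i : ℤ) + κ i + d i) = -(idx i : ℤ) - 2 * ((ℓ i : ℤ) - 1 - d i) := by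
    have : (2 : ℤ) * a i = 2 * κ i + idx i + 2 * ℓ i := by exact_mod_cast h1
    linarith
  have e1' : (2 : ℤ) * (1 - (a i' : ℤ) + κ i' + d i')
      = -(idx i' : ℤ) - 2 * ((ℓ i' : ℤ) - 1 - d i') := by
    have : (2 : ℤ) * a i' = 2 * κ i' + idx i' + 2 * ℓ i' := by exact_mod_cast h1'
    linarith
  have hidx' : (idx i' : ℤ) = (p : ℤ) ^ j * idx i := by exact_mod_cast hidx
  have hpj : (0 : ℤ) < (p : ℤ) ^ j := by positivity
  -- `e' ≥ p^j e`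
  have key : (p : ℤ) ^ j * ((ℓ i : ℤ) - 1 - d i) ≤ (ℓ i' : ℤ) - 1 - d i' := by
    have h2 : (2 : ℤ) * (1 - (a i' : ℤ) + κ i' + d i')
        ≤ (p : ℤ) ^ j * (2 * (1 - (a i : ℤ) + κ i + d i)) := by
      have := mul_le_mul_of_nonneg_left hchi (by norm_num : (0 : ℤ) ≤ 2)
      linarith [mul_comm ((p : ℤ) ^ j) (1 - (a i : ℤ) + κ i + d i)]
    rw [e1, e1', hidx'] at h2
    have h3 : (p : ℤ) ^ j * (-(idx i : ℤ) - 2 * ((ℓ i : ℤ) - 1 - d i))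
        = -((p : ℤ) ^ j * idx i) - 2 * ((p : ℤ) ^ j * ((ℓ i : ℤ) - 1 - d i)) := by ring
    rw [h3] at h2
    linarith
  have hge1 : (1 : ℤ) ≤ (ℓ i : ℤ) - 1 - d i := by
    have : ((d i + 2 : ℕ) : ℤ) ≤ (ℓ i : ℤ) := by exact_mod_cast hlt
    push_cast at this
    linarith
  have hpow : (B : ℤ) < (p : ℤ) ^ j := by
    have h4 : B < p ^ j := lt_of_lt_of_le (Nat.lt_pow_self hp) (Nat.pow_le_pow_right (by omega) hj)
    exact_mod_cast h4
  have h5 : (p : ℤ) ^ j ≤ (p : ℤ) ^ j * ((ℓ i : ℤ) - 1 - d i) := by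
    have := mul_le_mul_of_nonneg_left hge1 hpj.le
    linarith
  have h6 : (ℓ i' : ℤ) ≤ B := by exact_mod_cast hℓ
  have h7 : (0 : ℤ) ≤ (d i' : ℤ) := by positivity
  linarith

/-- Under the hypotheses of `rank_loc_eq_of_tower`: `2·χ₂ = -[G:U]`. -/
theorem two_chi_eq_of_rank_loc_eq {I : Type*} (idx a κ d ℓ : I → ℕ)
    (hB1 : ∀ i, 2 * a i = 2 * κ i + idx i + 2 * ℓ i) (i : I) (hd : d i + 1 = ℓ i) :
    (2 : ℤ) * (1 - (a i : ℤ) + κ i + d i) = -(idx i : ℤ) := by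
  have h1 : (2 : ℤ) * a i = 2 * κ i + idx i + 2 * ℓ i := by exact_mod_cast hB1 i
  have h2 : (d i : ℤ) + 1 = ℓ i := by exact_mod_cast hd
  linarith

end Fermat.Agent.PT.Base
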