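/-
PT layer BASE-FORMAL: what the engine needs on the permutation modules `X_K` of the base fields,
derived from the arithmetic base inputs `BaseInputs` (B1)–(B6), Shapiro, Mackey (as the two
dictionary statements `MKKer`, `MKEquiv`), the no-coordinate-line consequence
"`loc²(X_K)` is not onto", sub-additivity of `χ₂` (`CdCount`) and the tower arithmetic
(`Base/Tower.lean`).

* `chi_CU`     : for every base field `K`: `H^n(G_K; 𝔽_p)` (`n ≤ 2`) is finite and
  `2·χ₂(G_K; 𝔽_p) = -[G_ℚ : G_K]`;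
* `base_datum` : for a cofinal family of levels `N ≤ ker χ_cyc`:
  `h³_c(X_N) = 1` and `2·χ₂(G_ℚ; X_N) = Σ_v χ₂(D_v; X_N)`.
-/
import Fermat.Agent.PT.Base.Interfaces
import Fermat.Agent.PT.Base.Tower
import Fermat.Agent.PT.Base.OrbitCount
import Fermat.Agent.PT.Base.B5
import Fermat.Agent.PT.Coh.CdCount
import Fermat.Agent.PT.Coh.Mackey
import Fermat.Agent.PT.Coh.EngineNat
import Fermat.Agent.PT.G.KumH1Base
import Fermat.Agent.PT.DevInst
import Fermat.Agent.PT.Base.MackeyGQ
import Fermat.Agent.PT.Base.Cd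
import Fermat.Agent.PT.Base.Concrete
import Fermat.Agent.PT.Coh.NoLine

set_option autoImplicit false

open ExtCitation Module

namespace Fermat.Agent.PT.Base

open Bridge Fermat.Agent.PT.Shapiro
open scoped Pointwise

local notation "Qb" => AlgebraicClosure ℚ
local notation "GQ" => (AlgebraicClosure ℚ ≃ₐ[ℚ] AlgebraicClosure ℚ)

noncomputable section

/-! ### Linear algebra -/

section LinAlg

variable {k : Type} [Field k] {V W : Type} [AddCommGroup V] [Module k V] [AddCommGroup W]
  [Module k W]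

/-- A non-surjective linear map into a finite-dimensional space has rank `< dim`. -/
theorem finrank_range_add_one_le (f : V →ₗ[k] W) [Module.Finite k W]
    (hf : ¬ Function.Surjective f) : finrank k (LinearMap.range f) + 1 ≤ finrank k W := by
  have h : LinearMap.range f ≠ ⊤ := fun h => hf (LinearMap.range_eq_top.mp h)
  exact Submodule.finrank_lt h

/-- A module with finite kernel and finite-dimensional target is finite. -/
theorem finite_of_ker_of_target (f : V →ₗ[k] W) [Module.Finite k W]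
    [Module.Finite k (LinearMap.ker f)] : Module.Finite k V := by
  have h1 : Module.Finite k (V ⧸ LinearMap.ker f) :=
    Module.Finite.equiv (f.quotKerEquivRange).symm
  exact Module.Finite.of_submodule_quotient (LinearMap.ker f)

end LinAlg

/-! ### The top compactly supported cohomology -/

section Hc3

variable {G : Type} [Group G] (𝔇 : LocDatum G) {k : Type} [Field k]
  {M : Type} [AddCommGroup M] [Module k M]

/-- `h³_c + rank loc² = Σ_v h²_v` when `H³ = 0`. -/
theorem finrank_Hc_three_add_rank (ρ : Representation k G M) (hρ : 𝔇.IsSmooth ρ)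
    [Subsingleton (𝔇.H ρ hρ 3)] [∀ v, Module.Finite k (𝔇.Hv ρ hρ v 2)] :
    finrank k (𝔇.Hc ρ hρ 3) + finrank k (LinearMap.range (𝔇.locH ρ hρ 2)) =
      ∑ v, finrank k (𝔇.Hv ρ hρ v 2) := by
  have hsurj : Function.Surjective (𝔇.ιc ρ hρ 2) := fun x =>
    (𝔇.exact_ιc_πc ρ hρ 2 x).mp (Subsingleton.elim _ _)
  have hker : LinearMap.ker (𝔇.ιc ρ hρ 2) = LinearMap.range (𝔇.locH ρ hρ 2) :=
    LinearMap.exact_iff.mp (𝔇.exact_locH_ιc ρ hρ 2)
  have h := LinearMap.finrank_range_add_finrank_ker (𝔇.ιc ρ hρ 2)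
  rw [LinearMap.range_eq_top.mpr hsurj, finrank_top, hker, Module.finrank_pi_fintype] at h
  exact h

end Hc3

variable (p : ℕ) [Fact p.Prime] (S : Finset Nat.Primes)

/-! ### The Mackey dictionary (statements; proved in `Base/MackeyGQ.lean`) -/

/-- **(MK-ker)**: under Shapiro, the kernel of `loc²` on `X_U` is `Ш²(U; 𝔽_p)`. -/
def MKKer : Prop :=
  ∀ (U : Subgroup GQ) (hU : ∃ N ∈ (levS S).lev, N ≤ U)
    (x : (datum S).H (permRep U (ZMod p)) (permRep_smooth (levS S) U (ZMod p) hU) 2),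
    (datum S).locH (permRep U (ZMod p)) (permRep_smooth (levS S) U (ZMod p) hU) 2 x = 0 ↔
      (shTriv (levS S) U p hU).mapH 2 x ∈ Sha2 p S U

/-- **(MK-equiv)**: the Mackey decomposition of the local cohomology of `X_U` at `q ∈ S`:
`Hⁿ(D_q; X_U) ≅ ∏_i Hⁿ(U ∩ D_{r_i A_q}; 𝔽_p)` over representatives `r_i` of `U \ G_ℚ / D_q`. -/
def MKEquiv : Prop :=
  ∀ (U : Subgroup GQ) (hU : ∃ N ∈ (levS S).lev, N ≤ U) (q : ↥S) (ι : Type) [Fintype ι]
    (r : ι → GQ), IsDoubleCosetReps U (decomp (primeLocalPlace q.1)) r → ∀ n : ℕ,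
    Nonempty ((datum S).Hv (permRep U (ZMod p)) (permRep_smooth (levS S) U (ZMod p) hU) q n
      ≃ₗ[ZMod p] ∀ i, (CV p (U ⊓ decomp (r i • primeLocalPlace q.1))).H n)


variable {p S}

/-! ### The local terms of `X_K` -/

/-- A base group has finite index. -/
theorem finiteIndex_of_isBaseField {K : IntermediateField ℚ Qb} (hK : IsBaseField p S K) :
    K.fixingSubgroup.FiniteIndex := by
  have := hK.unram.1
  exact DevissageGQ.finiteIndex_fixingSubgroup K

/-- `h²(D_q; X_K) = #(G_K \ G_ℚ / D_q)` (Mackey + (B3)). -/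
theorem finrank_Hv_two (hmk : MKEquiv p S) (hb3 : B3 p S) {K : IntermediateField ℚ Qb}
    (hK : IsBaseField p S K) (hU : ∃ N ∈ (levS S).lev, N ≤ K.fixingSubgroup) (q : ↥S) :
    Module.Finite (ZMod p) ((datum S).Hv (permRep K.fixingSubgroup (ZMod p))
        (permRep_smooth (levS S) K.fixingSubgroup (ZMod p) hU) q 2) ∧
      finrank (ZMod p) ((datum S).Hv (permRep K.fixingSubgroup (ZMod p))
        (permRep_smooth (levS S) K.fixingSubgroup (ZMod p) hU) q 2) =
      Nat.card (DoubleCoset.Quotient (K.fixingSubgroup : Set GQ)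
        (decomp (primeLocalPlace q.1) : Set GQ)) := by
  have hfi := finiteIndex_of_isBaseField hK
  have hfinQ := finite_doubleCosetQuotient K.fixingSubgroup (decomp (primeLocalPlace q.1))
  let _ := Fintype.ofFinite (DoubleCoset.Quotient (K.fixingSubgroup : Set GQ)
    (decomp (primeLocalPlace q.1) : Set GQ))
  obtain ⟨e⟩ := hmk K.fixingSubgroup hU q
    (DoubleCoset.Quotient (K.fixingSubgroup : Set GQ) (decomp (primeLocalPlace q.1) : Set GQ))
    (fun c => c.out) (isDoubleCosetReps_out _ _) 2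
  have h1 : ∀ i : DoubleCoset.Quotient (K.fixingSubgroup : Set GQ)
      (decomp (primeLocalPlace q.1) : Set GQ),
      finrank (ZMod p) ((CV p (K.fixingSubgroup ⊓ decomp (i.out • primeLocalPlace q.1))).H 2) = 1 :=
    fun i => hb3 K hK.unram.1 hK.cyc q.1 q.2 _
      (Levels.liesOverPrime_smul (liesOverPrime_primeLocalPlace q.1) _)
  have h2 : ∀ i : DoubleCoset.Quotient (K.fixingSubgroup : Set GQ)
      (decomp (primeLocalPlace q.1) : Set GQ),
      Module.Finite (ZMod p)
        ((CV p (K.fixingSubgroup ⊓ decomp (i.out • primeLocalPlace q.1))).H 2) :=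
    fun i => Module.finite_of_finrank_pos (by rw [h1 i]; exact one_pos)
  refine ⟨Module.Finite.equiv e.symm, ?_⟩
  rw [e.finrank_eq, Module.finrank_pi_fintype, Finset.sum_congr rfl fun i _ => h1 i]
  simp [Nat.card_eq_fintype_card]

/-- **`e_K ≥ 0`**: `H²(G_K; 𝔽_p)` is finite and `h²(G_K) + 1 ≤ dim Ш²(G_K) + s_K`, as soon as
`loc²(X_K)` is not onto. -/
theorem finrank_H2_CU_le (hmkk : MKKer p S) (hmk : MKEquiv p S) (hb3 : B3 p S) (hb6 : B6 p S)
    {K : IntermediateField ℚ Qb} (hK : IsBaseField p S K)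
    (hns : ∀ hX, ¬ Function.Surjective
      ((datum S).locH (permRep K.fixingSubgroup (ZMod p)) hX 2)) :
    Module.Finite (ZMod p) ((CU p S K.fixingSubgroup).H 2) ∧
      finrank (ZMod p) ((CU p S K.fixingSubgroup).H 2) + 1 ≤
        finrank (ZMod p) (Sha2 p S K.fixingSubgroup) + numPlaces S K.fixingSubgroup := by
  have hU : ∃ N ∈ (levS S).lev, N ≤ K.fixingSubgroup := exists_mem_levS_le hK.unram
  have hX := permRep_smooth (levS S) K.fixingSubgroup (ZMod p) hU
  let e : (datum S).H (permRep K.fixingSubgroup (ZMod p))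
      (permRep_smooth (levS S) K.fixingSubgroup (ZMod p) hU) 2 ≃ₗ[ZMod p]
      (CU p S K.fixingSubgroup).H 2 :=
    LinearEquiv.ofBijective ((shTriv (levS S) K.fixingSubgroup p hU).mapH 2)
      (shTriv_bijective (levS S) K.fixingSubgroup p hU 2)
  let f := (datum S).locH (permRep K.fixingSubgroup (ZMod p))
    (permRep_smooth (levS S) K.fixingSubgroup (ZMod p) hU) 2
  have hloc := fun v => finrank_Hv_two hmk hb3 hK hU v
  have : ∀ v, Module.Finite (ZMod p) ((datum S).Hv (permRep K.fixingSubgroup (ZMod p))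
      (permRep_smooth (levS S) K.fixingSubgroup (ZMod p) hU) v 2) := fun v => (hloc v).1
  have htarget : finrank (ZMod p) (∀ v, (datum S).Hv (permRep K.fixingSubgroup (ZMod p))
      (permRep_smooth (levS S) K.fixingSubgroup (ZMod p) hU) v 2) =
      numPlaces S K.fixingSubgroup := by
    rw [Module.finrank_pi_fintype]
    unfold numPlaces
    rw [← Finset.sum_coe_sort S]
    exact Finset.sum_congr rfl fun v _ => (hloc v).2
  have hmap : (LinearMap.ker f).map e.toLinearMap = Sha2 p S K.fixingSubgroup := by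
    ext y
    constructor
    · rintro ⟨x, hx, rfl⟩
      exact (hmkk K.fixingSubgroup hU x).mp hx
    · intro hy
      refine ⟨e.symm y, ?_, e.apply_symm_apply y⟩
      refine (hmkk K.fixingSubgroup hU (e.symm y)).mpr ?_
      have h1 : (shTriv (levS S) K.fixingSubgroup p hU).mapH 2 (e.symm y) = y :=
        e.apply_symm_apply y
      rw [h1]
      exact hy
  let eK : LinearMap.ker f ≃ₗ[ZMod p] Sha2 p S K.fixingSubgroup :=
    (e.submoduleMap (LinearMap.ker f)).trans (LinearEquiv.ofEq _ _ hmap)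
  have : Module.Finite (ZMod p) (Sha2 p S K.fixingSubgroup) := hb6 K hK
  have : Module.Finite (ZMod p) (LinearMap.ker f) := Module.Finite.equiv eK.symm
  have hfinH : Module.Finite (ZMod p) ((datum S).H (permRep K.fixingSubgroup (ZMod p))
      (permRep_smooth (levS S) K.fixingSubgroup (ZMod p) hU) 2) := finite_of_ker_of_target f
  have hrank := finrank_range_add_one_le f (hns _)
  have hrn := LinearMap.finrank_range_add_finrank_ker f
  have h1 : finrank (ZMod p) ((CU p S K.fixingSubgroup).H 2) =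
      finrank (ZMod p) (LinearMap.range f) + finrank (ZMod p) (LinearMap.ker f) :=
    e.finrank_eq.symm.trans hrn.symm
  have h2 : finrank (ZMod p) (LinearMap.ker f) = finrank (ZMod p) (Sha2 p S K.fixingSubgroup) :=
    eK.finrank_eq
  have h3 : finrank (ZMod p) (LinearMap.range f) + 1 ≤ numPlaces S K.fixingSubgroup :=
    hrank.trans_eq htarget
  have key : ∀ a b c d n : ℕ, a = b + c → c = d → b + 1 ≤ n → a + 1 ≤ d + n := by omega
  exact ⟨Module.Finite.equiv e, key _ _ _ _ _ h1 h2 h3⟩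


/-! ### Finiteness and the Euler characteristic of the base groups -/

/-- Finiteness of `H^n(G_K; 𝔽_p)`, `n ≤ 2`, for a base field `K`. -/
theorem finite_H_CU (hb1 : B1 p S) (hb3 : B3 p S) (hb6 : B6 p S) (hmkk : MKKer p S)
    (hmk : MKEquiv p S) {K : IntermediateField ℚ Qb} (hK : IsBaseField p S K)
    (hns : ∀ hX, ¬ Function.Surjective
      ((datum S).locH (permRep K.fixingSubgroup (ZMod p)) hX 2)) :
    ∀ n ≤ 2, Module.Finite (ZMod p) ((CU p S K.fixingSubgroup).H n) := by
  intro n hn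
  have hfi := finiteIndex_of_isBaseField hK
  have hidx : K.fixingSubgroup.index ≠ 0 := Subgroup.FiniteIndex.index_ne_zero
  obtain rfl | rfl | rfl : n = 0 ∨ n = 1 ∨ n = 2 := by omega
  · exact KumH1.finite_H0_trivCx p _
  · apply Module.finite_of_finrank_pos
    have h := hb1 K hK
    omega
  · exact (finrank_H2_CU_le hmkk hmk hb3 hb6 hK hns).1

/-- `χ₂(G_K; 𝔽_p) = 1 - h¹ + h²`. -/
theorem chi_CU_eq (U : Subgroup GQ) :
    Cx.chi (CU p S U) 2 = 1 - (finrank (ZMod p) ((CU p S U).H 1) : ℤ) +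
      (finrank (ZMod p) ((CU p S U).H 2) : ℤ) := by
  rw [Cx.chi_two, KumH1.finrank_H0_CU]
  rfl

/-- **(S-A)**: for every base field `K`, `H^n(G_K; 𝔽_p)` (`n ≤ 2`) is finite and
`2·χ₂(G_K; 𝔽_p) = -[G_ℚ : G_K]`.  Inputs: (B1), (B3), (B5), (B6), the Mackey dictionary, and
the non-surjectivity of `loc²` on the permutation modules `X_K`. -/
theorem chi_CU (hb1 : B1 p S) (hb3 : B3 p S) (hb5 : B5 p S) (hb6 : B6 p S) (hmkk : MKKer p S)
    (hmk : MKEquiv p S)
    (hns : ∀ K : IntermediateField ℚ Qb, IsBaseField p S K → ∀ hX, ¬ Function.Surjective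
      ((datum S).locH (permRep K.fixingSubgroup (ZMod p)) hX 2))
    (K : IntermediateField ℚ Qb) (hK : IsBaseField p S K) :
    (∀ n ≤ 2, Module.Finite (ZMod p) ((CU p S K.fixingSubgroup).H n)) ∧
      2 * Cx.chi (CU p S K.fixingSubgroup) 2 = -(K.fixingSubgroup.index : ℤ) := by
  have hp : p.Prime := Fact.out
  have hfin : ∀ (K : IntermediateField ℚ Qb), IsBaseField p S K →
      ∀ n ≤ 2, Module.Finite (ZMod p) ((CU p S K.fixingSubgroup).H n) :=
    fun K hK => finite_H_CU hb1 hb3 hb6 hmkk hmk hK (hns K hK)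
  refine ⟨hfin K hK, ?_⟩
  -- the numerical data
  let I := {K : IntermediateField ℚ Qb // IsBaseField p S K}
  let idx : I → ℕ := fun i => i.1.fixingSubgroup.index
  let a : I → ℕ := fun i => finrank (ZMod p) ((CU p S i.1.fixingSubgroup).H 1)
  let κ : I → ℕ := fun i => finrank (ZMod p) (Sha2 p S i.1.fixingSubgroup)
  let h2 : I → ℕ := fun i => finrank (ZMod p) ((CU p S i.1.fixingSubgroup).H 2)
  let d : I → ℕ := fun i => h2 i - κ i
  let ℓ : I → ℕ := fun i => numPlaces S i.1.fixingSubgroup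
  have hκ : ∀ i : I, κ i ≤ h2 i := fun i => by
    have := hfin i.1 i.2 2 le_rfl
    exact Submodule.finrank_le _
  have hle : ∀ i : I, h2 i + 1 ≤ κ i + ℓ i := fun i =>
    (finrank_H2_CU_le hmkk hmk hb3 hb6 i.2 (hns i.1 i.2)).2
  have hchi : ∀ i : I, Cx.chi (CU p S i.1.fixingSubgroup) 2 =
      1 - (a i : ℤ) + κ i + d i := fun i => by
    rw [chi_CU_eq]
    have h1 := hκ i
    have h3 : (h2 i : ℤ) = κ i + d i := by
      show (h2 i : ℤ) = κ i + ((h2 i - κ i : ℕ) : ℤ)
      push_cast [Nat.cast_sub h1]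
      ring
    show 1 - (a i : ℤ) + (h2 i : ℤ) = _
    rw [h3]
    ring
  have hB1 : ∀ i : I, 2 * a i = 2 * κ i + idx i + 2 * ℓ i := fun i => hb1 i.1 i.2
  have hns' : ∀ i : I, d i + 1 ≤ ℓ i := fun i => by
    have h1 := hκ i
    have h3 := hle i
    show h2 i - κ i + 1 ≤ ℓ i
    omega
  have htower : ∀ i : I, ∃ B : ℕ, ∀ m : ℕ, ∃ (i' : I) (j : ℕ), m ≤ j ∧
      idx i' = p ^ j * idx i ∧
      (1 - (a i' : ℤ) + κ i' + d i') ≤ (p : ℤ) ^ j * (1 - (a i : ℤ) + κ i + d i) ∧
      ℓ i' ≤ B := by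
    rintro ⟨K₀, hK₀⟩
    obtain ⟨B, hB⟩ := hb5 K₀ hK₀
    refine ⟨B, fun m => ?_⟩
    obtain ⟨K', hK', hle', hnorm, ⟨j, hj, hrel⟩, hB'⟩ := hB m
    have hUle : K'.fixingSubgroup ≤ K₀.fixingSubgroup :=
      IntermediateField.fixingSubgroup_antitone hle'
    refine ⟨⟨K', hK'⟩, j, hj, ?_, ?_, hB'⟩
    · show K'.fixingSubgroup.index = p ^ j * K₀.fixingSubgroup.index
      rw [← hrel, Subgroup.relIndex_mul_index hUle]
    · rw [← hchi ⟨K', hK'⟩, ← hchi ⟨K₀, hK₀⟩]
      have hpow : ∀ g ∈ K₀.fixingSubgroup, ∃ n : ℕ, g ^ p ^ n ∈ K'.fixingSubgroup := by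
        intro g hg
        refine ⟨j, ?_⟩
        have h1 := Subgroup.pow_index_mem (K'.fixingSubgroup.subgroupOf K₀.fixingSubgroup)
          (⟨g, hg⟩ : K₀.fixingSubgroup)
        have h2 : (K'.fixingSubgroup.subgroupOf K₀.fixingSubgroup).index = p ^ j := hrel
        rw [h2, Subgroup.mem_subgroupOf] at h1
        exact h1
      have h := CdCount.chi_le_of_pgroup_rel (p := p) (levS S) K₀.fixingSubgroup
        K'.fixingSubgroup hUle (exists_mem_levS_le hK'.unram) K'.fixingSubgroup le_rfl hpow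
        (hfin K₀ hK₀)
      rw [hrel] at h
      exact_mod_cast h
  have hd := rank_loc_eq_of_tower p hp.two_le idx a κ d ℓ hB1 hns' htower ⟨K, hK⟩
  have h := two_chi_eq_of_rank_loc_eq idx a κ d ℓ hB1 ⟨K, hK⟩ hd
  rw [hchi ⟨K, hK⟩]
  exact h


/-! ### The numerical data of `loc²` on `X_K` -/

/-- For a base field `K`: the `H²_v(X_K)` are finite, `Σ_v h²_v(X_K) = s_K`, and
`h²(G_K; 𝔽_p) = rank loc²(X_K) + dim Ш²(G_K; 𝔽_p)`. -/
theorem locH_two_data (hmkk : MKKer p S) (hmk : MKEquiv p S) (hb3 : B3 p S) (hb6 : B6 p S)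
    {K : IntermediateField ℚ Qb} (hK : IsBaseField p S K)
    (hU : ∃ N ∈ (levS S).lev, N ≤ K.fixingSubgroup) :
    (∀ v, Module.Finite (ZMod p) ((datum S).Hv (permRep K.fixingSubgroup (ZMod p))
        (permRep_smooth (levS S) K.fixingSubgroup (ZMod p) hU) v 2)) ∧
      (∑ v, finrank (ZMod p) ((datum S).Hv (permRep K.fixingSubgroup (ZMod p))
        (permRep_smooth (levS S) K.fixingSubgroup (ZMod p) hU) v 2) =
          numPlaces S K.fixingSubgroup) ∧
      finrank (ZMod p) ((CU p S K.fixingSubgroup).H 2) =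
        finrank (ZMod p) (LinearMap.range ((datum S).locH (permRep K.fixingSubgroup (ZMod p))
          (permRep_smooth (levS S) K.fixingSubgroup (ZMod p) hU) 2)) +
        finrank (ZMod p) (Sha2 p S K.fixingSubgroup) := by
  let e : (datum S).H (permRep K.fixingSubgroup (ZMod p))
      (permRep_smooth (levS S) K.fixingSubgroup (ZMod p) hU) 2 ≃ₗ[ZMod p]
      (CU p S K.fixingSubgroup).H 2 :=
    LinearEquiv.ofBijective ((shTriv (levS S) K.fixingSubgroup p hU).mapH 2)
      (shTriv_bijective (levS S) K.fixingSubgroup p hU 2)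
  let f := (datum S).locH (permRep K.fixingSubgroup (ZMod p))
    (permRep_smooth (levS S) K.fixingSubgroup (ZMod p) hU) 2
  have hloc := fun v => finrank_Hv_two hmk hb3 hK hU v
  have : ∀ v, Module.Finite (ZMod p) ((datum S).Hv (permRep K.fixingSubgroup (ZMod p))
      (permRep_smooth (levS S) K.fixingSubgroup (ZMod p) hU) v 2) := fun v => (hloc v).1
  have htarget : ∑ v, finrank (ZMod p) ((datum S).Hv (permRep K.fixingSubgroup (ZMod p))
      (permRep_smooth (levS S) K.fixingSubgroup (ZMod p) hU) v 2) =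
      numPlaces S K.fixingSubgroup := by
    unfold numPlaces
    rw [← Finset.sum_coe_sort S]
    exact Finset.sum_congr rfl fun v _ => (hloc v).2
  have hmap : (LinearMap.ker f).map e.toLinearMap = Sha2 p S K.fixingSubgroup := by
    ext y
    constructor
    · rintro ⟨x, hx, rfl⟩
      exact (hmkk K.fixingSubgroup hU x).mp hx
    · intro hy
      refine ⟨e.symm y, ?_, e.apply_symm_apply y⟩
      refine (hmkk K.fixingSubgroup hU (e.symm y)).mpr ?_
      have h1 : (shTriv (levS S) K.fixingSubgroup p hU).mapH 2 (e.symm y) = y :=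
        e.apply_symm_apply y
      rw [h1]
      exact hy
  let eK : LinearMap.ker f ≃ₗ[ZMod p] Sha2 p S K.fixingSubgroup :=
    (e.submoduleMap (LinearMap.ker f)).trans (LinearEquiv.ofEq _ _ hmap)
  have : Module.Finite (ZMod p) (Sha2 p S K.fixingSubgroup) := hb6 K hK
  have : Module.Finite (ZMod p) (LinearMap.ker f) := Module.Finite.equiv eK.symm
  have hfinH : Module.Finite (ZMod p) ((datum S).H (permRep K.fixingSubgroup (ZMod p))
      (permRep_smooth (levS S) K.fixingSubgroup (ZMod p) hU) 2) := finite_of_ker_of_target f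
  have hrn := LinearMap.finrank_range_add_finrank_ker f
  have h1 : finrank (ZMod p) ((CU p S K.fixingSubgroup).H 2) =
      finrank (ZMod p) (LinearMap.range f) + finrank (ZMod p) (LinearMap.ker f) :=
    e.finrank_eq.symm.trans hrn.symm
  have h2 : finrank (ZMod p) (LinearMap.ker f) = finrank (ZMod p) (Sha2 p S K.fixingSubgroup) :=
    eK.finrank_eq
  exact ⟨fun v => (hloc v).1, htarget, h1.trans (congrArg _ h2)⟩

/-- **`h³_c(X_K) = 1`** for a base field `K` with `2·χ₂(G_K) = -[G_ℚ : G_K]` and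
`H³(G_ℚ; X_K) = 0`. -/
theorem finrank_Hc_three_perm (hmkk : MKKer p S) (hmk : MKEquiv p S) (hb1 : B1 p S)
    (hb3 : B3 p S) (hb6 : B6 p S) {K : IntermediateField ℚ Qb} (hK : IsBaseField p S K)
    (hchi : 2 * Cx.chi (CU p S K.fixingSubgroup) 2 = -(K.fixingSubgroup.index : ℤ))
    (hX : (datum S).IsSmooth (permRep K.fixingSubgroup (ZMod p)))
    [Subsingleton ((datum S).H (permRep K.fixingSubgroup (ZMod p)) hX 3)] :
    finrank (ZMod p) ((datum S).Hc (permRep K.fixingSubgroup (ZMod p)) hX 3) = 1 := by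
  have hU : ∃ N ∈ (levS S).lev, N ≤ K.fixingSubgroup := exists_mem_levS_le hK.unram
  obtain ⟨hfin, hsum, h2⟩ := locH_two_data hmkk hmk hb3 hb6 hK hU
  have : ∀ v, Module.Finite (ZMod p) ((datum S).Hv (permRep K.fixingSubgroup (ZMod p)) hX v 2) :=
    hfin
  have h3 := finrank_Hc_three_add_rank (datum S) (permRep K.fixingSubgroup (ZMod p)) hX
  have h4 : ∑ v, finrank (ZMod p) ((datum S).Hv (permRep K.fixingSubgroup (ZMod p)) hX v 2) =
      numPlaces S K.fixingSubgroup := hsum
  have h5 : finrank (ZMod p) ((CU p S K.fixingSubgroup).H 2) =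
      finrank (ZMod p) (LinearMap.range ((datum S).locH (permRep K.fixingSubgroup (ZMod p))
        hX 2)) + finrank (ZMod p) (Sha2 p S K.fixingSubgroup) := h2
  have h6 := hb1 K hK
  rw [chi_CU_eq] at hchi
  have key : ∀ (hc rk ℓ h2' κ a idx : ℕ), hc + rk = ℓ → h2' = rk + κ →
      2 * a = 2 * κ + idx + 2 * ℓ → 2 * (1 - (a : ℤ) + (h2' : ℤ)) = -(idx : ℤ) → hc = 1 := by
    intro hc rk ℓ h2' κ a idx e1 e2 e3 e4
    omega
  exact key _ _ _ _ _ _ _ (h3.trans h4) h5 h6 hchi


/-! ### The local Euler characteristics of `X_K` -/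

/-- `D_{g • A} = g D_A g⁻¹` as the image under conjugation. -/
theorem decomp_smul_eq_map (g : GQ) (A : ValuationSubring Qb) :
    decomp (g • A) = (decomp A).map (MulAut.conj g).toMonoidHom :=
  MulAction.stabilizer_smul_eq_stabilizer_map_conj g A

/-- **Local Euler characteristic of `X_K`**: the `H^n(D_q; X_K)`, `n ≤ 2`, are finite and
`χ₂(D_q; X_K) = -[q = p]·[G_ℚ : G_K]` (Mackey + (B2) + (B3) + the orbit count). -/
theorem chi_Cv_perm (hmk : MKEquiv p S) (hb2 : B2 p S) (hb3 : B3 p S)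
    {K : IntermediateField ℚ Qb} (hK : IsBaseField p S K)
    (hU : ∃ N ∈ (levS S).lev, N ≤ K.fixingSubgroup) (q : ↥S) :
    (∀ n ≤ 2, Module.Finite (ZMod p) ((datum S).Hv (permRep K.fixingSubgroup (ZMod p))
        (permRep_smooth (levS S) K.fixingSubgroup (ZMod p) hU) q n)) ∧
      Cx.chi ((datum S).Cv (permRep K.fixingSubgroup (ZMod p))
        (permRep_smooth (levS S) K.fixingSubgroup (ZMod p) hU) q) 2 =
        if (q.1 : ℕ) = p then -(K.fixingSubgroup.index : ℤ) else 0 := by
  have hfi := finiteIndex_of_isBaseField hK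
  have hfinQ := finite_doubleCosetQuotient K.fixingSubgroup (decomp (primeLocalPlace q.1))
  let _ := Fintype.ofFinite (DoubleCoset.Quotient (K.fixingSubgroup : Set GQ)
    (decomp (primeLocalPlace q.1) : Set GQ))
  have hr := isDoubleCosetReps_out K.fixingSubgroup (decomp (primeLocalPlace q.1))
  have hA : ∀ c : DoubleCoset.Quotient (K.fixingSubgroup : Set GQ)
      (decomp (primeLocalPlace q.1) : Set GQ),
      (c.out • primeLocalPlace q.1).LiesOverPrime (q.1 : ℕ) := fun c =>
    Levels.liesOverPrime_smul (liesOverPrime_primeLocalPlace q.1) _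
  -- the local dimensions
  have f0 : ∀ c : DoubleCoset.Quotient (K.fixingSubgroup : Set GQ)
      (decomp (primeLocalPlace q.1) : Set GQ),
      finrank (ZMod p) ((CV p (K.fixingSubgroup ⊓ decomp (c.out • primeLocalPlace q.1))).H 0) = 1 :=
    fun c => KumH1.finrank_H0_trivCx p _
  have f1 : ∀ c : DoubleCoset.Quotient (K.fixingSubgroup : Set GQ)
      (decomp (primeLocalPlace q.1) : Set GQ),
      finrank (ZMod p) ((CV p (K.fixingSubgroup ⊓ decomp (c.out • primeLocalPlace q.1))).H 1) =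
        2 + if (q.1 : ℕ) = p then
          K.fixingSubgroup.relIndex (decomp (c.out • primeLocalPlace q.1)) else 0 :=
    fun c => hb2 K hK.unram.1 hK.cyc q.1 q.2 _ (hA c)
  have f2 : ∀ c : DoubleCoset.Quotient (K.fixingSubgroup : Set GQ)
      (decomp (primeLocalPlace q.1) : Set GQ),
      finrank (ZMod p) ((CV p (K.fixingSubgroup ⊓ decomp (c.out • primeLocalPlace q.1))).H 2) = 1 :=
    fun c => hb3 K hK.unram.1 hK.cyc q.1 q.2 _ (hA c)
  have g0 : ∀ c : DoubleCoset.Quotient (K.fixingSubgroup : Set GQ)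
      (decomp (primeLocalPlace q.1) : Set GQ), Module.Finite (ZMod p)
      ((CV p (K.fixingSubgroup ⊓ decomp (c.out • primeLocalPlace q.1))).H 0) :=
    fun c => Module.finite_of_finrank_pos (by rw [f0 c]; exact one_pos)
  have g1 : ∀ c : DoubleCoset.Quotient (K.fixingSubgroup : Set GQ)
      (decomp (primeLocalPlace q.1) : Set GQ), Module.Finite (ZMod p)
      ((CV p (K.fixingSubgroup ⊓ decomp (c.out • primeLocalPlace q.1))).H 1) :=
    fun c => Module.finite_of_finrank_pos (by rw [f1 c]; omega)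
  have g2 : ∀ c : DoubleCoset.Quotient (K.fixingSubgroup : Set GQ)
      (decomp (primeLocalPlace q.1) : Set GQ), Module.Finite (ZMod p)
      ((CV p (K.fixingSubgroup ⊓ decomp (c.out • primeLocalPlace q.1))).H 2) :=
    fun c => Module.finite_of_finrank_pos (by rw [f2 c]; exact one_pos)
  obtain ⟨e0⟩ := hmk K.fixingSubgroup hU q
    (DoubleCoset.Quotient (K.fixingSubgroup : Set GQ) (decomp (primeLocalPlace q.1) : Set GQ))
    (fun c => c.out) hr 0
  obtain ⟨e1⟩ := hmk K.fixingSubgroup hU q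
    (DoubleCoset.Quotient (K.fixingSubgroup : Set GQ) (decomp (primeLocalPlace q.1) : Set GQ))
    (fun c => c.out) hr 1
  obtain ⟨e2⟩ := hmk K.fixingSubgroup hU q
    (DoubleCoset.Quotient (K.fixingSubgroup : Set GQ) (decomp (primeLocalPlace q.1) : Set GQ))
    (fun c => c.out) hr 2
  have d0 : finrank (ZMod p) ((datum S).Hv (permRep K.fixingSubgroup (ZMod p))
      (permRep_smooth (levS S) K.fixingSubgroup (ZMod p) hU) q 0) =
      Fintype.card (DoubleCoset.Quotient (K.fixingSubgroup : Set GQ)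
        (decomp (primeLocalPlace q.1) : Set GQ)) := by
    rw [e0.finrank_eq, Module.finrank_pi_fintype, Finset.sum_congr rfl fun c _ => f0 c]
    simp
  have d2 : finrank (ZMod p) ((datum S).Hv (permRep K.fixingSubgroup (ZMod p))
      (permRep_smooth (levS S) K.fixingSubgroup (ZMod p) hU) q 2) =
      Fintype.card (DoubleCoset.Quotient (K.fixingSubgroup : Set GQ)
        (decomp (primeLocalPlace q.1) : Set GQ)) := by
    rw [e2.finrank_eq, Module.finrank_pi_fintype, Finset.sum_congr rfl fun c _ => f2 c]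
    simp
  have d1 : finrank (ZMod p) ((datum S).Hv (permRep K.fixingSubgroup (ZMod p))
      (permRep_smooth (levS S) K.fixingSubgroup (ZMod p) hU) q 1) =
      2 * Fintype.card (DoubleCoset.Quotient (K.fixingSubgroup : Set GQ)
        (decomp (primeLocalPlace q.1) : Set GQ)) +
      if (q.1 : ℕ) = p then K.fixingSubgroup.index else 0 := by
    rw [e1.finrank_eq, Module.finrank_pi_fintype, Finset.sum_congr rfl fun c _ => f1 c,
      Finset.sum_add_distrib]
    congr 1
    · simp [mul_comm]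
    · by_cases hqp : (q.1 : ℕ) = p
      · simp only [hqp, if_true]
        rw [← sum_relIndex_conj_eq_index (fun c : DoubleCoset.Quotient
          (K.fixingSubgroup : Set GQ) (decomp (primeLocalPlace q.1) : Set GQ) => c.out) hr]
        exact Finset.sum_congr rfl fun c _ => by rw [decomp_smul_eq_map]
      · simp [hqp]
  have hQpos : 0 < Fintype.card (DoubleCoset.Quotient (K.fixingSubgroup : Set GQ)
      (decomp (primeLocalPlace q.1) : Set GQ)) :=
    Fintype.card_pos_iff.mpr ⟨DoubleCoset.mk _ _ 1⟩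
  clear g0 g1 g2
  have hfree : ∀ n : ℕ, Module.Free (ZMod p) ((datum S).Hv (permRep K.fixingSubgroup (ZMod p))
      (permRep_smooth (levS S) K.fixingSubgroup (ZMod p) hU) q n) :=
    fun n => Module.Free.of_divisionRing _ _
  have hpos : ∀ n : ℕ, n ≤ 2 → 0 < finrank (ZMod p) ((datum S).Hv
      (permRep K.fixingSubgroup (ZMod p))
      (permRep_smooth (levS S) K.fixingSubgroup (ZMod p) hU) q n) := by
    intro n hn
    obtain rfl | rfl | rfl : n = 0 ∨ n = 1 ∨ n = 2 := by omega
    · exact hQpos.trans_eq d0.symm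
    · exact lt_of_lt_of_eq (by omega) d1.symm
    · exact hQpos.trans_eq d2.symm
  refine ⟨fun n hn => ?_, ?_⟩
  · have := hfree n
    exact Module.finite_of_finrank_pos (hpos n hn)
  · have key : ∀ (a b c n m : ℕ), a = n → c = n → b = 2 * n + m →
        (a : ℤ) - (b : ℤ) + (c : ℤ) = -(m : ℤ) := by
      intro a b c n m h1 h2 h3
      subst h1 h2 h3
      push_cast
      ring
    by_cases hqp : (q.1 : ℕ) = p
    · have e : (if (q.1 : ℕ) = p then K.fixingSubgroup.index else 0) = K.fixingSubgroup.index :=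
        if_pos hqp
      have h := key _ _ _ _ _ d0 d2 (d1.trans (congrArg _ e))
      exact (Cx.chi_two _).trans (h.trans (if_pos hqp).symm)
    · have e : (if (q.1 : ℕ) = p then K.fixingSubgroup.index else 0) = 0 := if_neg hqp
      have h := key _ _ _ _ _ d0 d2 (d1.trans (congrArg _ e))
      have h0 : -((0 : ℕ) : ℤ) = 0 := by simp
      exact (Cx.chi_two _).trans (h.trans (h0.trans (if_neg hqp).symm))


/-! ### The closed forms: everything from `BaseInputs` -/

/-- (MK-ker) holds (`Base/MackeyGQ.lean`). -/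
theorem mkKer : MKKer p S := fun U hU x => Mackey.locH_two_eq_zero_iff p S U hU x

/-- (MK-equiv) holds (`Base/MackeyGQ.lean`). -/
theorem mkEquiv : MKEquiv p S := fun U hU q _ _ r hr n =>
  ⟨Mackey.hvEquivReps p S U hU q r hr n⟩

/-- **`loc²(X_K)` is not onto** for a base field `K`: (B4) + (B3T) + local `cd ≤ 2`
((B2), (B3)) + the augmentation `X_K → T`. -/
theorem locH_perm_not_surjective_of_inputs (hpS : pPrime p ∈ S) (H : BaseInputs p S hpS)
    {K : IntermediateField ℚ Qb} (hK : IsBaseField p S K)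
    (hX : (datum S).IsSmooth (permRep K.fixingSubgroup (ZMod p))) :
    ¬ Function.Surjective ((datum S).locH (permRep K.fixingSubgroup (ZMod p)) hX 2) := by
  have hfi := finiteIndex_of_isBaseField hK
  have hU : ∃ N ∈ (datum S).L.lev, N ≤ K.fixingSubgroup := exists_mem_levS_le hK.unram
  have hτU : ∀ u ∈ K.fixingSubgroup, chiRep (cycloChar p) u = 1 := by
    intro u hu
    ext
    simp [chiRep_apply, hK.cyc u hu]
  exact (datum S).locH_perm_not_surjective (isSmooth_T p S hpS) K.fixingSubgroup hU hτU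
    (fun M _ _ _ ρ hρ v => cdv_of_b23 p S H.b2 H.b3 ρ hρ v)
    ⟨⟨pPrime p, hpS⟩, Concrete.hT2 p S hpS H.b3T _⟩ H.b4

/-- **(S-A) from the base inputs**: for every base field `K`, `H^n(G_K; 𝔽_p)` (`n ≤ 2`) is
finite and `2·χ₂(G_K; 𝔽_p) = -[G_ℚ : G_K]`.  This is the hypothesis of `Base.chiLin_levS`,
`Base.fin_of_chi`, `Base.cd_of_chi`. -/
theorem chi_CU_of_inputs (hpS : pPrime p ∈ S) (H : BaseInputs p S hpS)
    (K : IntermediateField ℚ Qb) (hK : IsBaseField p S K) :
    (∀ n ≤ 2, Module.Finite (ZMod p) ((CU p S K.fixingSubgroup).H n)) ∧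
      2 * Cx.chi (CU p S K.fixingSubgroup) 2 = -(K.fixingSubgroup.index : ℤ) :=
  chi_CU H.b1 H.b3 H.b5 H.b6 mkKer mkEquiv
    (fun _ hK hX => locH_perm_not_surjective_of_inputs hpS H hK hX) K hK

/-- The sum of the local Euler characteristics: only `q = p` contributes. -/
theorem sum_ite_eq_neg_index (hpS : pPrime p ∈ S) (n : ℤ) :
    ∑ v : ↥S, (if (v.1 : ℕ) = p then n else 0) = n := by
  rw [Finset.sum_eq_single (⟨pPrime p, hpS⟩ : ↥S)]
  · simp
  · intro v _ hv
    rw [if_neg]
    intro h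
    apply hv
    apply Subtype.ext
    apply Subtype.ext
    exact h
  · intro h
    exact absurd (Finset.mem_univ _) h

/-- **The base statement on a base field**: `h³_c(X_K) = 1` and
`2·χ₂(G_ℚ; X_K) = Σ_v χ₂(D_v; X_K)`. -/
theorem base_of_isBaseField (hpS : pPrime p ∈ S) (H : BaseInputs p S hpS)
    {K : IntermediateField ℚ Qb} (hK : IsBaseField p S K)
    (hX : (datum S).IsSmooth (permRep K.fixingSubgroup (ZMod p))) :
    finrank (ZMod p) ((datum S).Hc (permRep K.fixingSubgroup (ZMod p)) hX 3) = 1 ∧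
      2 * Cx.chi ((datum S).C (permRep K.fixingSubgroup (ZMod p)) hX) 2 =
        ∑ v, Cx.chi ((datum S).Cv (permRep K.fixingSubgroup (ZMod p)) hX v) 2 := by
  have hU : ∃ N ∈ (levS S).lev, N ≤ K.fixingSubgroup := exists_mem_levS_le hK.unram
  have hchi := chi_CU_of_inputs hpS H
  have hcd : Subsingleton ((datum S).H (permRep K.fixingSubgroup (ZMod p)) hX 3) := by
    have hfi := finiteIndex_of_isBaseField hK
    have := finite_perm K.fixingSubgroup (ZMod p)
    exact cd_of_chi p S hpS hchi (permRep K.fixingSubgroup (ZMod p)) hX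
  refine ⟨finrank_Hc_three_perm mkKer mkEquiv H.b1 H.b3 H.b6 hK (hchi K hK).2 hX, ?_⟩
  have h1 : Cx.chi ((datum S).C (permRep K.fixingSubgroup (ZMod p)) hX) 2 =
      Cx.chi (CU p S K.fixingSubgroup) 2 :=
    CdCount.chi_eq_of_bijective (shTriv (levS S) K.fixingSubgroup p hU) 2
      (fun n _ => shTriv_bijective (levS S) K.fixingSubgroup p hU n)
  have h2 : ∀ v : ↥S, Cx.chi ((datum S).Cv (permRep K.fixingSubgroup (ZMod p)) hX v) 2 =
      if (v.1 : ℕ) = p then -(K.fixingSubgroup.index : ℤ) else 0 := fun v =>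
    (chi_Cv_perm mkEquiv H.b2 H.b3 hK hU v).2
  rw [h1, (hchi K hK).2, Finset.sum_congr rfl fun v _ => h2 v]
  exact (sum_ite_eq_neg_index hpS _).symm

/-- **(base)** of the abstract engine (`LocDatum.finrank_sha_eq_of_base`) for `Bridge.datum S`,
literally: for a cofinal family of levels `N`, `h³_c(X_N) = 1` and
`2·χ₂(G_ℚ; X_N) = Σ_v χ₂(D_v; X_N)`. -/
theorem base_of_inputs (hpS : pPrime p ∈ S) (H : BaseInputs p S hpS) :
    ∀ N₀ ∈ (datum S).L.lev, ∃ N, ∃ hN : N ∈ (datum S).L.lev, N ≤ N₀ ∧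
      finrank (ZMod p) ((datum S).Hc (permRep N (ZMod p))
        (permRep_smooth (datum S).L N (ZMod p) ⟨N, hN, le_rfl⟩) 3) = 1 ∧
      2 * Cx.chi ((datum S).C (permRep N (ZMod p))
        (permRep_smooth (datum S).L N (ZMod p) ⟨N, hN, le_rfl⟩)) 2 =
        ∑ v, Cx.chi ((datum S).Cv (permRep N (ZMod p))
          (permRep_smooth (datum S).L N (ZMod p) ⟨N, hN, le_rfl⟩) v) 2 := by
  rintro _ ⟨L₀, hL₀, -, rfl⟩
  obtain ⟨ζ, hζ⟩ := Levels.exists_primitiveRoot_Qbar p
  have hζS := Levels.isUnramifiedOutside_adjoin_primitiveRoot p S hpS hζ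
  obtain ⟨L, hle, hL, hLn⟩ := Levels.exists_normal_level_ge (hL₀.sup hζS)
  have hK : IsBaseField p S L := ⟨hL, fun s hs =>
    Levels.cycloChar_eq_one_of_mem_fixingSubgroup p hζ
      (IntermediateField.fixingSubgroup_antitone (le_sup_right.trans hle) hs)⟩
  have hN : L.fixingSubgroup ∈ (datum S).L.lev := ⟨L, hL, hLn, rfl⟩
  exact ⟨L.fixingSubgroup, hN,
    IntermediateField.fixingSubgroup_antitone (le_sup_left.trans hle),
    base_of_isBaseField hpS H hK _⟩

end

end Fermat.Agent.PT.Base
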