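import Fermat.Agent.PT.Base.MackeyGQ
import Fermat.Agent.PT.Base.OrbitCount
import Fermat.Agent.PT.Base.Cd
import Fermat.Agent.PT.Coh.NoLine

/-!
# PT layer BASE: dimension bookkeeping for `X_U = 𝔽_p[U \ G_ℚ]` via Shapiro and Mackey

`U ≤ G_ℚ` open for the `S`-levels, `X := Shapiro.permRep U (ZMod p)`, `𝔇 := Bridge.datum S`.

Global (Shapiro): `finrank_H_perm`, `finite_H_perm`, `chi_C_perm`,
`finrank_range_locH_two_add : rank loc²(X) + dim Ш²(U) = h²(U)`.

Local (Mackey + the (B2)/(B3)-shaped local dimensions of the groups `U ⊓ D_A`):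
`finrank_Hv_zero`, `finrank_Hv_two`, `finrank_Hv_one`, `finite_Hv_perm`, `chi_Cv_perm`,
`sum_finrank_Hv_two : ∑_q h²(D_q; X) = numPlaces S U`,
`sum_chi_Cv_perm : ∑_q χ₂(D_q; X) = -[G_ℚ : U]`.
-/

set_option autoImplicit false

open ExtCitation Module

namespace Fermat.Agent.PT.Base.Mackey

open scoped Pointwise
open Fermat.Agent.PT Fermat.Agent.PT.Bridge Fermat.Agent.PT.Shapiro Fermat.Agent.PT.Base

local notation "Qb" => AlgebraicClosure ℚ
local notation "GQ" => (AlgebraicClosure ℚ ≃ₐ[ℚ] AlgebraicClosure ℚ)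

noncomputable section

variable (p : ℕ) [Fact p.Prime] (S : Finset Nat.Primes) (U : Subgroup GQ)
  (hU : ∃ N ∈ (levS S).lev, N ≤ U)

/-! ### Global: Shapiro -/

/-- Shapiro as a linear equivalence `H^n(G_ℚ; 𝔽_p[U\G_ℚ]) ≃ H^n(U; 𝔽_p)`. -/
def shEquiv (n : ℕ) :
    (datum S).H (permRep U (ZMod p)) (permRep_smooth (levS S) U (ZMod p) hU) n ≃ₗ[ZMod p]
      (CU p S U).H n :=
  LinearEquiv.ofBijective ((shTriv (levS S) U p hU).mapH n) (shTriv_bijective (levS S) U p hU n)

theorem shEquiv_apply (n : ℕ)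
    (x : (datum S).H (permRep U (ZMod p)) (permRep_smooth (levS S) U (ZMod p) hU) n) :
    shEquiv p S U hU n x = (shTriv (levS S) U p hU).mapH n x := rfl

theorem finrank_H_perm (n : ℕ) :
    finrank (ZMod p)
        ((datum S).H (permRep U (ZMod p)) (permRep_smooth (levS S) U (ZMod p) hU) n) =
      finrank (ZMod p) ((CU p S U).H n) :=
  (shEquiv p S U hU n).finrank_eq

theorem finite_H_perm (n : ℕ) (h : Module.Finite (ZMod p) ((CU p S U).H n)) :
    Module.Finite (ZMod p)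
      ((datum S).H (permRep U (ZMod p)) (permRep_smooth (levS S) U (ZMod p) hU) n) :=
  Module.Finite.equiv (shEquiv p S U hU n).symm

theorem subsingleton_H_perm (n : ℕ) (h : Subsingleton ((CU p S U).H n)) :
    Subsingleton
      ((datum S).H (permRep U (ZMod p)) (permRep_smooth (levS S) U (ZMod p) hU) n) :=
  (shEquiv p S U hU n).toEquiv.subsingleton

theorem chi_C_perm (N : ℕ) :
    Cx.chi ((datum S).C (permRep U (ZMod p)) (permRep_smooth (levS S) U (ZMod p) hU)) N =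
      Cx.chi (CU p S U) N := by
  unfold Cx.chi
  refine Finset.sum_congr rfl fun n _ => ?_
  rw [finrank_H_perm p S U hU n]

/-- `rank loc²(X_U) + dim Ш²(U; 𝔽_p) = h²(U; 𝔽_p)`. -/
theorem finrank_range_locH_two_add [Module.Finite (ZMod p) ((CU p S U).H 2)] :
    finrank (ZMod p) (LinearMap.range ((datum S).locH (permRep U (ZMod p))
        (permRep_smooth (levS S) U (ZMod p) hU) 2)) +
      finrank (ZMod p) (Sha2 p S U) = finrank (ZMod p) ((CU p S U).H 2) := by
  have := finite_H_perm p S U hU 2 inferInstance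
  have h1 := finrank_ker_locH_two p S U hU
  have h2 := finrank_H_perm p S U hU 2
  have h3 := LinearMap.finrank_range_add_finrank_ker ((datum S).locH (permRep U (ZMod p))
    (permRep_smooth (levS S) U (ZMod p) hU) 2)
  omega

/-! ### Local: Mackey and the local dimensions -/

variable (q : ↥S)

/-- `h⁰(D_q; 𝔽_p[U\G_ℚ]) = #(U \ G_ℚ / D_q)`. -/
theorem finrank_Hv_zero :
    finrank (ZMod p)
        ((datum S).Hv (permRep U (ZMod p)) (permRep_smooth (levS S) U (ZMod p) hU) q 0) =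
      Nat.card (DoubleCoset.Quotient (U : Set GQ) (decomp (primeLocalPlace q.1) : Set GQ)) := by
  have := finite_doubleCoset S U hU (decomp (primeLocalPlace q.1))
  have := Fintype.ofFinite
    (DoubleCoset.Quotient (U : Set GQ) (decomp (primeLocalPlace q.1) : Set GQ))
  have h := finrank_Hv_eq_sum p S U hU q 0 fun c =>
    (finrank_H0_triv (levD (U ⊓ decomp (c.out • primeLocalPlace q.1))) p).1
  rw [h, Finset.sum_congr rfl fun c _ =>
    (finrank_H0_triv (levD (U ⊓ decomp (c.out • primeLocalPlace q.1))) p).2]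
  simp [Nat.card_eq_fintype_card]

/-- `h²(D_q; 𝔽_p[U\G_ℚ]) = #(U \ G_ℚ / D_q)` if `h²(U ⊓ D_A; 𝔽_p) = 1` for all `A` over `q`. -/
theorem finrank_Hv_two
    (h2 : ∀ A : ValuationSubring Qb, A.LiesOverPrime (q.1 : ℕ) →
      finrank (ZMod p) ((CV p (U ⊓ decomp A)).H 2) = 1) :
    finrank (ZMod p)
        ((datum S).Hv (permRep U (ZMod p)) (permRep_smooth (levS S) U (ZMod p) hU) q 2) =
      Nat.card (DoubleCoset.Quotient (U : Set GQ) (decomp (primeLocalPlace q.1) : Set GQ)) := by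
  have := finite_doubleCoset S U hU (decomp (primeLocalPlace q.1))
  have := Fintype.ofFinite
    (DoubleCoset.Quotient (U : Set GQ) (decomp (primeLocalPlace q.1) : Set GQ))
  have h2' : ∀ c : DoubleCoset.Quotient (U : Set GQ) (decomp (primeLocalPlace q.1) : Set GQ),
      finrank (ZMod p) ((CV p (U ⊓ decomp (c.out • primeLocalPlace q.1))).H 2) = 1 :=
    fun c => h2 _ (liesOverPrime_smul_primeLocalPlace c.out q.1)
  have h := finrank_Hv_eq_sum p S U hU q 2 fun c =>
    Module.finite_of_finrank_pos (by rw [h2' c]; exact Nat.one_pos)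
  rw [h, Finset.sum_congr rfl fun c _ => h2' c]
  simp [Nat.card_eq_fintype_card]

/-- `h¹(D_q; 𝔽_p[U\G_ℚ]) = 2·#(U \ G_ℚ / D_q) + [q = p]·[G_ℚ : U]` from the (B2)-shaped local
dimensions. -/
theorem finrank_Hv_one
    (h1 : ∀ A : ValuationSubring Qb, A.LiesOverPrime (q.1 : ℕ) →
      finrank (ZMod p) ((CV p (U ⊓ decomp A)).H 1) =
        2 + if (q.1 : ℕ) = p then U.relIndex (decomp A) else 0) :
    finrank (ZMod p)
        ((datum S).Hv (permRep U (ZMod p)) (permRep_smooth (levS S) U (ZMod p) hU) q 1) =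
      2 * Nat.card (DoubleCoset.Quotient (U : Set GQ) (decomp (primeLocalPlace q.1) : Set GQ)) +
        if (q.1 : ℕ) = p then U.index else 0 := by
  have := finite_doubleCoset S U hU (decomp (primeLocalPlace q.1))
  have := Fintype.ofFinite
    (DoubleCoset.Quotient (U : Set GQ) (decomp (primeLocalPlace q.1) : Set GQ))
  have hUfin : U.FiniteIndex := by
    obtain ⟨N₀, hN₀, hN₀U⟩ := hU
    have := (levS S).finiteIndex N₀ hN₀
    exact Subgroup.finiteIndex_of_le hN₀U
  have h1' : ∀ c : DoubleCoset.Quotient (U : Set GQ) (decomp (primeLocalPlace q.1) : Set GQ),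
      finrank (ZMod p) ((CV p (U ⊓ decomp (c.out • primeLocalPlace q.1))).H 1) =
        2 + if (q.1 : ℕ) = p then
          U.relIndex ((decomp (primeLocalPlace q.1)).map (MulAut.conj c.out).toMonoidHom)
          else 0 := by
    intro c
    rw [h1 _ (liesOverPrime_smul_primeLocalPlace c.out q.1)]
    have e : decomp (c.out • primeLocalPlace q.1) =
        (decomp (primeLocalPlace q.1)).map (MulAut.conj c.out).toMonoidHom :=
      Fermat.Agent.Lib.ValConj.decompositionSubgroup_smul c.out (primeLocalPlace q.1)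
    rw [e]
  have h := finrank_Hv_eq_sum p S U hU q 1 fun c =>
    Module.finite_of_finrank_pos (by rw [h1' c]; omega)
  have horb := sum_relIndex_conj_eq_index (U := U) (D := decomp (primeLocalPlace q.1))
    (fun c : DoubleCoset.Quotient (U : Set GQ) (decomp (primeLocalPlace q.1) : Set GQ) => c.out)
    (isDoubleCosetReps_out U _)
  rw [h, Finset.sum_congr rfl fun c _ => h1' c, Finset.sum_add_distrib]
  by_cases hqp : (q.1 : ℕ) = p
  · simp only [hqp, if_true]
    rw [horb]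
    simp [Nat.card_eq_fintype_card, mul_comm]
  · simp [hqp, Nat.card_eq_fintype_card, mul_comm]

/-- Finiteness of `H^n(D_q; 𝔽_p[U\G_ℚ])`, `n ≤ 2`, from the local dimensions. -/
theorem finite_Hv_perm
    (h1 : ∀ A : ValuationSubring Qb, A.LiesOverPrime (q.1 : ℕ) →
      finrank (ZMod p) ((CV p (U ⊓ decomp A)).H 1) =
        2 + if (q.1 : ℕ) = p then U.relIndex (decomp A) else 0)
    (h2 : ∀ A : ValuationSubring Qb, A.LiesOverPrime (q.1 : ℕ) →
      finrank (ZMod p) ((CV p (U ⊓ decomp A)).H 2) = 1)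
    (n : ℕ) (hn : n ≤ 2) :
    Module.Finite (ZMod p)
      ((datum S).Hv (permRep U (ZMod p)) (permRep_smooth (levS S) U (ZMod p) hU) q n) := by
  refine finite_Hv p S U hU q n fun c => ?_
  have hc := liesOverPrime_smul_primeLocalPlace c.out q.1
  interval_cases n
  · exact (finrank_H0_triv (levD (U ⊓ decomp (c.out • primeLocalPlace q.1))) p).1
  · exact Module.finite_of_finrank_pos (by rw [h1 _ hc]; omega)
  · exact Module.finite_of_finrank_pos (by rw [h2 _ hc]; exact Nat.one_pos)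

/-- `χ₂(D_q; 𝔽_p[U\G_ℚ]) = −[q = p]·[G_ℚ : U]`. -/
theorem chi_Cv_perm
    (h1 : ∀ A : ValuationSubring Qb, A.LiesOverPrime (q.1 : ℕ) →
      finrank (ZMod p) ((CV p (U ⊓ decomp A)).H 1) =
        2 + if (q.1 : ℕ) = p then U.relIndex (decomp A) else 0)
    (h2 : ∀ A : ValuationSubring Qb, A.LiesOverPrime (q.1 : ℕ) →
      finrank (ZMod p) ((CV p (U ⊓ decomp A)).H 2) = 1) :
    Cx.chi ((datum S).Cv (permRep U (ZMod p)) (permRep_smooth (levS S) U (ZMod p) hU) q) 2 =
      if (q.1 : ℕ) = p then -(U.index : ℤ) else 0 := by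
  have e0 : finrank (ZMod p)
      (((datum S).Cv (permRep U (ZMod p)) (permRep_smooth (levS S) U (ZMod p) hU) q).H 0) = _ :=
    finrank_Hv_zero p S U hU q
  have e1 : finrank (ZMod p)
      (((datum S).Cv (permRep U (ZMod p)) (permRep_smooth (levS S) U (ZMod p) hU) q).H 1) = _ :=
    finrank_Hv_one p S U hU q h1
  have e2 : finrank (ZMod p)
      (((datum S).Cv (permRep U (ZMod p)) (permRep_smooth (levS S) U (ZMod p) hU) q).H 2) = _ :=
    finrank_Hv_two p S U hU q h2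
  rw [Cx.chi_two, e0, e1, e2]
  split_ifs <;> push_cast <;> ring

/-! ### Sums over the places -/

/-- `∑_q h²(D_q; 𝔽_p[U\G_ℚ]) = #{places of the fixed field of U over S}`. -/
theorem sum_finrank_Hv_two
    (h2 : ∀ q ∈ S, ∀ A : ValuationSubring Qb, A.LiesOverPrime (q : ℕ) →
      finrank (ZMod p) ((CV p (U ⊓ decomp A)).H 2) = 1) :
    ∑ v : (datum S).ι, finrank (ZMod p)
        ((datum S).Hv (permRep U (ZMod p)) (permRep_smooth (levS S) U (ZMod p) hU) v 2) =
      numPlaces S U := by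
  rw [Finset.sum_congr rfl fun v _ => finrank_Hv_two p S U hU v (h2 v.1 v.2)]
  exact Finset.sum_coe_sort S fun q : Nat.Primes =>
    Nat.card (DoubleCoset.Quotient (U : Set GQ) (decomp (primeLocalPlace q) : Set GQ))

/-- `∑_q χ₂(D_q; 𝔽_p[U\G_ℚ]) = −[G_ℚ : U]` when `p ∈ S`. -/
theorem sum_chi_Cv_perm (hpS : pPrime p ∈ S)
    (h1 : ∀ q ∈ S, ∀ A : ValuationSubring Qb, A.LiesOverPrime (q : ℕ) →
      finrank (ZMod p) ((CV p (U ⊓ decomp A)).H 1) =
        2 + if (q : ℕ) = p then U.relIndex (decomp A) else 0)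
    (h2 : ∀ q ∈ S, ∀ A : ValuationSubring Qb, A.LiesOverPrime (q : ℕ) →
      finrank (ZMod p) ((CV p (U ⊓ decomp A)).H 2) = 1) :
    ∑ v : (datum S).ι,
        Cx.chi ((datum S).Cv (permRep U (ZMod p)) (permRep_smooth (levS S) U (ZMod p) hU) v) 2 =
      -(U.index : ℤ) := by
  rw [Finset.sum_congr rfl fun v _ => chi_Cv_perm p S U hU v (h1 v.1 v.2) (h2 v.1 v.2)]
  rw [Finset.sum_eq_single (⟨pPrime p, hpS⟩ : ↥S)]
  · exact if_pos rfl
  · intro v _ hv
    rw [if_neg]
    intro hvp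
    exact hv (Subtype.ext (Subtype.ext hvp))
  · intro h
    exact absurd (Finset.mem_univ _) h

/-- `2·χ₂(G_ℚ; 𝔽_p[U\G_ℚ]) = ∑_q χ₂(D_q; 𝔽_p[U\G_ℚ])` from `2·χ₂(U; 𝔽_p) = −[G_ℚ : U]`. -/
theorem two_chi_C_perm (hpS : pPrime p ∈ S)
    (h1 : ∀ q ∈ S, ∀ A : ValuationSubring Qb, A.LiesOverPrime (q : ℕ) →
      finrank (ZMod p) ((CV p (U ⊓ decomp A)).H 1) =
        2 + if (q : ℕ) = p then U.relIndex (decomp A) else 0)
    (h2 : ∀ q ∈ S, ∀ A : ValuationSubring Qb, A.LiesOverPrime (q : ℕ) →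
      finrank (ZMod p) ((CV p (U ⊓ decomp A)).H 2) = 1)
    (hχ : 2 * Cx.chi (CU p S U) 2 = -(U.index : ℤ)) :
    2 * Cx.chi ((datum S).C (permRep U (ZMod p)) (permRep_smooth (levS S) U (ZMod p) hU)) 2 =
      ∑ v : (datum S).ι,
        Cx.chi ((datum S).Cv (permRep U (ZMod p)) (permRep_smooth (levS S) U (ZMod p) hU) v) 2 := by
  rw [sum_chi_Cv_perm p S U hU hpS h1 h2, chi_C_perm p S U hU 2, hχ]

omit q in
private theorem hc_arith (hc rk np sha h0 h1 h2 idx : ℕ) (χ : ℤ)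
    (hA : hc + rk = np) (hC : rk + sha = h2) (hD : χ = (h0 : ℤ) - h1 + h2) (h0' : h0 = 1)
    (hχ : 2 * χ = -(idx : ℤ)) (hb1 : 2 * h1 = 2 * sha + idx + 2 * np) : hc = 1 := by
  subst h0'
  subst hD
  push_cast at hχ
  omega

/-- `h³_c(𝔽_p[U\G_ℚ]) = 1` from the global Euler characteristic, the local dimensions, the
vanishing of `H³(G_ℚ; 𝔽_p[U\G_ℚ])` and the (B1)-shaped formula for `h¹(U; 𝔽_p)`. -/
theorem finrank_Hc_three_perm
    (h2 : ∀ q ∈ S, ∀ A : ValuationSubring Qb, A.LiesOverPrime (q : ℕ) →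
      finrank (ZMod p) ((CV p (U ⊓ decomp A)).H 2) = 1)
    (hf2 : Module.Finite (ZMod p) ((CU p S U).H 2))
    (hχ : 2 * Cx.chi (CU p S U) 2 = -(U.index : ℤ))
    (hb1 : 2 * finrank (ZMod p) ((CU p S U).H 1) =
      2 * finrank (ZMod p) (Sha2 p S U) + U.index + 2 * numPlaces S U)
    (hcd : Subsingleton
      ((datum S).H (permRep U (ZMod p)) (permRep_smooth (levS S) U (ZMod p) hU) 3)) :
    finrank (ZMod p)
      ((datum S).Hc (permRep U (ZMod p)) (permRep_smooth (levS S) U (ZMod p) hU) 3) = 1 := by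
  have hfv : ∀ v : (datum S).ι, Module.Finite (ZMod p)
      ((datum S).Hv (permRep U (ZMod p)) (permRep_smooth (levS S) U (ZMod p) hU) v 2) :=
    fun v => finite_Hv p S U hU v 2 fun c => Module.finite_of_finrank_pos (by
      rw [h2 v.1 v.2 _ (liesOverPrime_smul_primeLocalPlace c.out v.1)]; exact Nat.one_pos)
  have hA := ((datum S).finrank_Hc_three_add (permRep U (ZMod p))
    (permRep_smooth (levS S) U (ZMod p) hU)).trans (sum_finrank_Hv_two p S U hU h2)
  exact hc_arith _ _ _ _ _ _ _ _ _ hA (finrank_range_locH_two_add p S U hU)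
    (Cx.chi_two (CU p S U)) (finrank_H0_triv ((levS S).sub U) p).2 hχ hb1

/-! ### The hypothesis `(base)` of the engine for `Bridge.datum S` -/

omit q in
/-- **(base)** (`LocDatum.finrank_sha_eq_of_base`, `LocDatum.countHyp_of_dims`) for the datum of
`(ℚ, S)`: below every `S`-level there is an `S`-level `N = G_K` (`K ⊇ μ_p` a base field) with
`h³_c(𝔽_p[N\G_ℚ]) = 1` and `2·χ₂(G_ℚ; 𝔽_p[N\G_ℚ]) = ∑_v χ₂(D_v; 𝔽_p[N\G_ℚ])`.
Inputs: (B1), (B2), (B3) and the global Euler characteristic formula on base fields. -/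
theorem base_datum (hpS : pPrime p ∈ S) (hb1 : B1 p S) (hb2 : B2 p S) (hb3 : B3 p S)
    (h : ∀ K : IntermediateField ℚ Qb, IsBaseField p S K →
      (∀ n ≤ 2, Module.Finite (ZMod p) ((CU p S K.fixingSubgroup).H n)) ∧
        2 * Cx.chi (CU p S K.fixingSubgroup) 2 = -(K.fixingSubgroup.index : ℤ)) :
    ∀ N₀ ∈ (datum S).L.lev, ∃ N, ∃ hN : N ∈ (datum S).L.lev, N ≤ N₀ ∧
      finrank (ZMod p) ((datum S).Hc (permRep N (ZMod p))
        (permRep_smooth (datum S).L N (ZMod p) ⟨N, hN, le_rfl⟩) 3) = 1 ∧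
      2 * Cx.chi ((datum S).C (permRep N (ZMod p))
        (permRep_smooth (datum S).L N (ZMod p) ⟨N, hN, le_rfl⟩)) 2 =
        ∑ v, Cx.chi ((datum S).Cv (permRep N (ZMod p))
          (permRep_smooth (datum S).L N (ZMod p) ⟨N, hN, le_rfl⟩) v) 2 := by
  intro N₀ hN₀
  obtain ⟨N₁, hN₁, hN₁χ⟩ := exists_mem_levS_le_ker p S hpS
  obtain ⟨N, hN, hNle⟩ := (levS S).inter N₀ hN₀ N₁ hN₁
  obtain ⟨K, hK, hKn, rfl⟩ := hN
  have hb : IsBaseField p S K := ⟨hK, fun s hs => MonoidHom.mem_ker.mp (hN₁χ (hNle hs).2)⟩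
  have hfd : FiniteDimensional ℚ K := hK.1
  obtain ⟨hfin, hχ⟩ := h K hb
  have hfi : K.fixingSubgroup.FiniteIndex := (levS S).finiteIndex _ ⟨K, hK, hKn, rfl⟩
  have hXfin : Module.Finite (ZMod p) (Representation.coindV K.fixingSubgroup.subtype
      (Representation.trivial (ZMod p) K.fixingSubgroup (ZMod p))) :=
    finite_perm K.fixingSubgroup (ZMod p)
  have hKlev : K.fixingSubgroup ∈ (levS S).lev := ⟨K, hK, hKn, rfl⟩
  have hU : ∃ N ∈ (levS S).lev, N ≤ K.fixingSubgroup := ⟨_, hKlev, le_rfl⟩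
  refine ⟨K.fixingSubgroup, hKlev, fun s hs => (hNle hs).1, ?_, ?_⟩
  · exact finrank_Hc_three_perm p S K.fixingSubgroup hU
      (fun q hq A hA => hb3 K hfd hb.cyc q hq A hA) (hfin 2 le_rfl) hχ (hb1 K hb)
      (cd_of_chi p S hpS h (permRep K.fixingSubgroup (ZMod p))
        (permRep_smooth (levS S) K.fixingSubgroup (ZMod p) hU))
  · exact two_chi_C_perm p S K.fixingSubgroup hU hpS
      (fun q hq A hA => hb2 K hfd hb.cyc q hq A hA)
      (fun q hq A hA => hb3 K hfd hb.cyc q hq A hA) hχ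

end

end Fermat.Agent.PT.Base.Mackey
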