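import Fermat.Agent.PT.Base.Formal
import Fermat.Agent.PT.Base.MackeyChi
import Fermat.Agent.PT.Base.Asm

/-!
# PT layer BASE-FORMAL: instantiation

The hypotheses of `Base.chi_CU` (`Base/Formal.lean`) which are not arithmetic base inputs are
discharged here:

* `mkKer : MKKer p S`, `mkEquiv : MKEquiv p S` — the Mackey dictionary (`Base/MackeyGQ.lean`);
* `locH_perm_not_surjective_datum` — `loc²(X_K)` is not onto (`Coh/NoLine.lean`, from (B2), (B3),
  (B3T), (B4));

hence
* `chi_CU_of_baseInputs`   : (F1) from `BaseInputs`;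
* `base_datum_of_baseInputs` : (F2) = the engine's `(base)` from `BaseInputs`;
* `s55_of_baseInputs_only` : the conclusion of S55 from `BaseInputs p S hpS` alone.
-/

set_option autoImplicit false

open CategoryTheory Module groupCohomology ExtCitation

namespace Fermat.Agent.PT.Base.Mackey

open scoped Pointwise
open Fermat.Agent.PT Fermat.Agent.PT.Bridge Fermat.Agent.PT.Shapiro Fermat.Agent.PT.Base

local notation "Qb" => AlgebraicClosure ℚ
local notation "GQ" => (AlgebraicClosure ℚ ≃ₐ[ℚ] AlgebraicClosure ℚ)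

variable (p : ℕ) [Fact p.Prime] (S : Finset Nat.Primes)

/-- **(MK-ker)** holds. -/
theorem mkKer : MKKer p S := fun U hU x => locH_two_eq_zero_iff p S U hU x

/-- **(MK-equiv)** holds. -/
theorem mkEquiv : MKEquiv p S := fun U hU q _ _ r hr n => ⟨hvEquivReps p S U hU q r hr n⟩

/-- `loc²` is not onto on the permutation module of a base field, from (B2), (B3), (B3T), (B4). -/
theorem locH_perm_not_surjective_datum (hpS : pPrime p ∈ S) (hb2 : B2 p S) (hb3 : B3 p S)
    (hb3T : B3T p S hpS) (hb4 : B4 p S hpS) (K : IntermediateField ℚ Qb)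
    (hK : IsBaseField p S K) (hX : (datum S).IsSmooth (permRep K.fixingSubgroup (ZMod p))) :
    ¬ Function.Surjective ((datum S).locH (permRep K.fixingSubgroup (ZMod p)) hX 2) := by
  have hfi : K.fixingSubgroup.FiniteIndex := finiteIndex_of_isBaseField hK
  have hτU : ∀ u ∈ K.fixingSubgroup, chiRep (cycloChar p) u = 1 := by
    intro u hu
    ext
    simp [hK.cyc u hu]
  exact (datum S).locH_perm_not_surjective (isSmooth_T p S hpS) K.fixingSubgroup
    (exists_mem_levS_le hK.unram) hτU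
    (fun M _ _ _ ρ hρ v => cdv_of_b23 p S hb2 hb3 ρ hρ v)
    ⟨⟨pPrime p, hpS⟩, Concrete.hT2 p S hpS hb3T _⟩ hb4

/-- **(F1)** from the arithmetic base inputs: for every base field `K`, `H^n(G_K; 𝔽_p)`
(`n ≤ 2`) is finite and `2·χ₂(G_K; 𝔽_p) = -[G_ℚ : G_K]`. -/
theorem chi_CU_of_baseInputs (hpS : pPrime p ∈ S) (H : BaseInputs p S hpS)
    (K : IntermediateField ℚ Qb) (hK : IsBaseField p S K) :
    (∀ n ≤ 2, Module.Finite (ZMod p) ((CU p S K.fixingSubgroup).H n)) ∧
      2 * Cx.chi (CU p S K.fixingSubgroup) 2 = -(K.fixingSubgroup.index : ℤ) :=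
  chi_CU H.b1 H.b3 H.b5 H.b6 (mkKer p S) (mkEquiv p S)
    (fun K hK hX => locH_perm_not_surjective_datum p S hpS H.b2 H.b3 H.b3T H.b4 K hK hX) K hK

/-- **(F2)** = the engine's `(base)` for `Bridge.datum S`, from the arithmetic base inputs. -/
theorem base_datum_of_baseInputs (hpS : pPrime p ∈ S) (H : BaseInputs p S hpS) :
    ∀ N₀ ∈ (datum S).L.lev, ∃ N, ∃ hN : N ∈ (datum S).L.lev, N ≤ N₀ ∧
      finrank (ZMod p) ((datum S).Hc (permRep N (ZMod p))
        (permRep_smooth (datum S).L N (ZMod p) ⟨N, hN, le_rfl⟩) 3) = 1 ∧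
      2 * Cx.chi ((datum S).C (permRep N (ZMod p))
        (permRep_smooth (datum S).L N (ZMod p) ⟨N, hN, le_rfl⟩)) 2 =
        ∑ v, Cx.chi ((datum S).Cv (permRep N (ZMod p))
          (permRep_smooth (datum S).L N (ZMod p) ⟨N, hN, le_rfl⟩) v) 2 :=
  base_datum p S hpS H.b1 H.b2 H.b3 (chi_CU_of_baseInputs p S hpS H)

/-- **S55 from the arithmetic base inputs alone.** -/
theorem s55_of_baseInputs_only (hp2 : p ≠ 2) (hpS : pPrime p ∈ S) (H : BaseInputs p S hpS)
    (M : Rep.{0} (ZMod p) GQ) [FiniteDimensional (ZMod p) M]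
    (hsm : ∀ m : M, ∃ F : IntermediateField ℚ Qb, FiniteDimensional ℚ F ∧
      ∀ s ∈ F.fixingSubgroup, M.ρ s m = m)
    (hMur : ∀ q : Nat.Primes, q ∉ S → ∀ A : ValuationSubring Qb,
      A.LiesOverPrime (q : ℕ) → ∀ g ∈ A.inertiaSubgroupIn ℚ, M.ρ g = 1) :
    ∃ B : sha₁ S (M.dualTwist (cycloChar p)) →ₗ[ZMod p] sha₂ S M →ₗ[ZMod p] ZMod p,
      (∀ y, (∀ x, B y x = 0) → y = 0) ∧ (∀ x, (∀ y, B y x = 0) → x = 0) :=
  Asm.s55_of_baseInputs S hp2 hpS H (chi_CU_of_baseInputs p S hpS H)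
    (base_datum_of_baseInputs p S hpS H) M hsm hMur

end Fermat.Agent.PT.Base.Mackey
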