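import Fermat.Agent.PT.Base.Asm
import Fermat.Agent.PT.Coh.GWPerf

/-!
# PT → TW: the Greenberg–Wiles package for `Bridge.datum S`

`exists_gwHyp_of_items` / `exists_gwHyp_of_baseInputs` : for `𝔇 = Bridge.datum S`, `k = 𝔽_p`,
`χ = cycloChar p`, `τ = Base.chiRep χ`, the package `LocDatum.GWHyp` (counting hypotheses,
trace, `alpha³`, local invariants, `Ẽ = 0`, local `alpha²`) from the nine base items of the
formal engine, resp. from the arithmetic base inputs `BaseInputs p S` together with `(F1)` and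
`(F2)` — the same hypotheses as `Asm.s55_of_items` / `Asm.s55_of_baseInputs`.

Consequences (`LocDatum.GWHyp.gw_formula`, `.cupV11_left_injective`,
`.resv_eq_zero_of_mem_SelDual`, `.gw_ineq`) are in `Coh/GWPerf.lean`.
-/

set_option autoImplicit false

open CategoryTheory Module groupCohomology ExtCitation
open Fermat.Agent.PT Fermat.Agent.PT.Bridge Fermat.Agent.PT.Base

namespace Fermat.Agent.PT.Base.GWOut

local notation "Qb" => AlgebraicClosure ℚ
local notation "GQ" => (AlgebraicClosure ℚ ≃ₐ[ℚ] AlgebraicClosure ℚ)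

variable {p : ℕ} [Fact p.Prime] (S : Finset Nat.Primes)

/-- **The Greenberg–Wiles package for `datum S` from the nine base items.** -/
theorem exists_gwHyp_of_items (hpS : pPrime p ∈ S)
    (fin : ∀ {M : Type} [AddCommGroup M] [Module (ZMod p) M] [Module.Finite (ZMod p) M]
      (ρ : Representation (ZMod p) GQ M) (hρ : (datum S).IsSmooth ρ) (n : ℕ), n ≤ 2 →
        Module.Finite (ZMod p) ((datum S).H ρ hρ n))
    (finv : ∀ {M : Type} [AddCommGroup M] [Module (ZMod p) M] [Module.Finite (ZMod p) M]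
      (ρ : Representation (ZMod p) GQ M) (hρ : (datum S).IsSmooth ρ) (v : (datum S).ι) (n : ℕ),
        n ≤ 2 → Module.Finite (ZMod p) ((datum S).Hv ρ hρ v n))
    (cd : ∀ {M : Type} [AddCommGroup M] [Module (ZMod p) M] [Module.Finite (ZMod p) M]
      (ρ : Representation (ZMod p) GQ M) (hρ : (datum S).IsSmooth ρ),
        Subsingleton ((datum S).H ρ hρ 3))
    (cdv : ∀ {M : Type} [AddCommGroup M] [Module (ZMod p) M] [Module.Finite (ZMod p) M]
      (ρ : Representation (ZMod p) GQ M) (hρ : (datum S).IsSmooth ρ) (v : (datum S).ι),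
        Subsingleton ((datum S).Hv ρ hρ v 3))
    (cdL : ∀ (v : (datum S).ι) (M : Type) [AddCommGroup M] [Module (ZMod p) M]
      [Module.Finite (ZMod p) M] (ρ : Representation (ZMod p) ((datum S).D v) M)
      (hρ : ((datum S).Lv v).IsSmooth ρ), Subsingleton ((((datum S).Lv v).cx ρ hρ).H 3))
    (hT2 : ∀ v, Nontrivial ((datum S).Hv (chiRep (cycloChar p)) (isSmooth_T p S hpS) v 2))
    (noLine : ∀ (v₀ : (datum S).ι)
      (x : (datum S).H (chiRep (cycloChar p)) (isSmooth_T p S hpS) 2),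
      (∀ v, v ≠ v₀ → (datum S).locH (chiRep (cycloChar p)) (isSmooth_T p S hpS) 2 x v = 0) →
        (datum S).locH (chiRep (cycloChar p)) (isSmooth_T p S hpS) 2 x v₀ = 0)
    (base : ∀ N₀ ∈ (datum S).L.lev, ∃ N, ∃ hN : N ∈ (datum S).L.lev, N ≤ N₀ ∧
      finrank (ZMod p) ((datum S).Hc (Shapiro.permRep N (ZMod p))
        (Shapiro.permRep_smooth (datum S).L N (ZMod p) ⟨N, hN, le_rfl⟩) 3) = 1 ∧
      2 * Cx.chi ((datum S).C (Shapiro.permRep N (ZMod p))
        (Shapiro.permRep_smooth (datum S).L N (ZMod p) ⟨N, hN, le_rfl⟩)) 2 =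
        ∑ v, Cx.chi ((datum S).Cv (Shapiro.permRep N (ZMod p))
          (Shapiro.permRep_smooth (datum S).L N (ZMod p) ⟨N, hN, le_rfl⟩) v) 2)
    (basev : ∀ v, ∀ N₀ ∈ ((datum S).Lv v).lev, ∃ N, ∃ hN : N ∈ ((datum S).Lv v).lev, N ≤ N₀ ∧
      finrank (ZMod p) ((((datum S).Lv v).cx (Shapiro.permRep N (ZMod p))
        (Shapiro.permRep_smooth ((datum S).Lv v) N (ZMod p) ⟨N, hN, le_rfl⟩)).H 2) = 1) :
    ∃ tr : (datum S).Hc (chiRep (cycloChar p)) (isSmooth_T p S hpS) 3 →ₗ[ZMod p] ZMod p,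
      LocDatum.GWHyp (datum S) (cycloChar p) (isSmooth_T p S hpS) tr := by
  have hne : Nonempty (datum S).ι := Final.nonempty_ι S hpS
  exact (datum S).exists_gwHyp_of_base (cycloChar p) (τ := chiRep (cycloChar p))
    (fun _ _ => rfl) (isSmooth_T p S hpS) (Final.hχ_datum S hpS) fin finv cd cdv cdL hT2
    noLine base basev

/-- **The Greenberg–Wiles package for `datum S` from the arithmetic base inputs** and the two
global statements `(F1)`, `(F2)` on the base fields (the hypotheses of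
`Asm.s55_of_baseInputs`). -/
theorem exists_gwHyp_of_baseInputs (hpS : pPrime p ∈ S) (H : BaseInputs p S hpS)
    (hF1 : ∀ K : IntermediateField ℚ Qb, IsBaseField p S K →
      (∀ n ≤ 2, Module.Finite (ZMod p) ((CU p S K.fixingSubgroup).H n)) ∧
        2 * Cx.chi (CU p S K.fixingSubgroup) 2 = -(K.fixingSubgroup.index : ℤ))
    (hF2 : ∀ N₀ ∈ (datum S).L.lev, ∃ N, ∃ hN : N ∈ (datum S).L.lev, N ≤ N₀ ∧
      finrank (ZMod p) ((datum S).Hc (Shapiro.permRep N (ZMod p))
        (Shapiro.permRep_smooth (datum S).L N (ZMod p) ⟨N, hN, le_rfl⟩) 3) = 1 ∧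
      2 * Cx.chi ((datum S).C (Shapiro.permRep N (ZMod p))
        (Shapiro.permRep_smooth (datum S).L N (ZMod p) ⟨N, hN, le_rfl⟩)) 2 =
        ∑ v, Cx.chi ((datum S).Cv (Shapiro.permRep N (ZMod p))
          (Shapiro.permRep_smooth (datum S).L N (ZMod p) ⟨N, hN, le_rfl⟩) v) 2) :
    ∃ tr : (datum S).Hc (chiRep (cycloChar p)) (isSmooth_T p S hpS) 3 →ₗ[ZMod p] ZMod p,
      LocDatum.GWHyp (datum S) (cycloChar p) (isSmooth_T p S hpS) tr :=
  exists_gwHyp_of_items S hpS
    (fun ρ hρ n hn => fin_of_chi p S hpS hF1 ρ hρ n hn)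
    (fun ρ hρ v n hn => finv_of_b23 p S H.b2 H.b3 ρ hρ v n hn)
    (fun ρ hρ => cd_of_chi p S hpS hF1 ρ hρ)
    (fun ρ hρ v => cdv_of_b23 p S H.b2 H.b3 ρ hρ v)
    (fun v M _ _ _ ρ hρ => cdL_of_b23 p S H.b2 H.b3 v M ρ hρ)
    (fun v => Concrete.hT2 p S hpS H.b3T v)
    H.b4
    hF2
    (fun v => Concrete.basev p S H.b3 v)

end Fermat.Agent.PT.Base.GWOut
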