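import Fermat.Agent.PT.Base.B1
import Fermat.Agent.PT.Base.B5
import Fermat.Agent.PT.G.PlaceCoset

/-!
# PT layer BASE: (B1c) PLACES

`#S_K = numPlaces S G_K`: the number of primes of `K` over `S` is the number of double cosets
`G_K \ G_ℚ / D_q`, summed over `q ∈ S` (`D_q` the decomposition group of `primeLocalPlace q`).
This is `PlaceCoset.card_primesOver_eq_sum_doubleCoset` for `A₀ := primeLocalPlace`.
-/

set_option autoImplicit false

open ExtCitation

namespace Fermat.Agent.PT.Base

local notation "Qb" => AlgebraicClosure ℚ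
local notation "GQ" => (AlgebraicClosure ℚ ≃ₐ[ℚ] AlgebraicClosure ℚ)

variable (p : ℕ) [Fact p.Prime] (S : Finset Nat.Primes)

/-- `#S_K = numPlaces S G_K` for every number field `K ⊆ ℚ̄`. -/
theorem card_primesOver_eq_numPlaces (K : IntermediateField ℚ Qb) [NumberField K] :
    Nat.card (Fermat.Agent.PT.KumBridge.primesOver K S) = numPlaces S K.fixingSubgroup :=
  Fermat.Agent.PT.G.card_primesOver_eq_sum_doubleCoset K S primeLocalPlace
    (fun q _ => liesOverPrime_primeLocalPlace q)

/-- **(B1c)** PLACES. -/
theorem placesHyp : PlacesHyp p S := fun K _ _ => card_primesOver_eq_numPlaces S K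

end Fermat.Agent.PT.Base
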