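import Fermat.Agent.PT.Base.Formal
import Fermat.Agent.PT.Base.Asm
import Fermat.Agent.PT.Base.Places
import Fermat.Agent.PT.G.HasseGeHyp
import Fermat.Agent.PT.G.G3Le
import Fermat.Agent.PT.G.KumB2
import Fermat.Agent.PT.Br.B3Done

/-!
# PT (S55): the arithmetic base inputs, assembled

* `baseInputs_of_b4` : `BaseInputs p S` from `(B4)` alone — `(B1)`, `(B2)`, `(B3)`, `(B3T)`,
  `(B5)`, `(B6)` are theorems on main;
* `s55_of_b4` : the conclusion of S55 from `(B4)` alone.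
-/

set_option autoImplicit false

open CategoryTheory Module groupCohomology ExtCitation
open Fermat.Agent.PT Fermat.Agent.PT.Bridge

namespace Fermat.Agent.PT.Base

local notation "Qb" => AlgebraicClosure ℚ
local notation "GQ" => (AlgebraicClosure ℚ ≃ₐ[ℚ] AlgebraicClosure ℚ)

variable {p : ℕ} [Fact p.Prime] (S : Finset Nat.Primes)

/-- **The base inputs from `(B4)` alone**: `(B1)`, `(B2)`, `(B3)`, `(B3T)`, `(B5)`, `(B6)` are
theorems. -/
theorem baseInputs_of_b4 (hp2 : p ≠ 2) (hpS : pPrime p ∈ S) (h4 : B4 p S hpS) :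
    BaseInputs p S hpS where
  b1 := b1_of hp2 hpS (placesHyp p S) (HasseGe.g3GeHyp hpS) (G.g3Le p S hp2 hpS)
  b2 := Kummer.b2 p S
  b3 := Br.Inst.b3_holds p hp2 S
  b3T := Br.Inst.b3T_holds p hp2 S hpS
  b4 := h4
  b5 := b5 p S hp2 hpS
  b6 := b6_of hp2 hpS (HasseGe.g3GeHyp hpS) (G.g3Le p S hp2 hpS)

/-- **S55 from `(B4)` alone.** -/
theorem s55_of_b4 (hp2 : p ≠ 2) (hpS : pPrime p ∈ S) (h4 : B4 p S hpS)
    (M : Rep.{0} (ZMod p) GQ) [FiniteDimensional (ZMod p) M]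
    (hsm : ∀ m : M, ∃ F : IntermediateField ℚ Qb, FiniteDimensional ℚ F ∧
      ∀ s ∈ F.fixingSubgroup, M.ρ s m = m)
    (hMur : ∀ q : Nat.Primes, q ∉ S → ∀ A : ValuationSubring Qb,
      A.LiesOverPrime (q : ℕ) → ∀ g ∈ A.inertiaSubgroupIn ℚ, M.ρ g = 1) :
    ∃ B : sha₁ S (M.dualTwist (cycloChar p)) →ₗ[ZMod p] sha₂ S M →ₗ[ZMod p] ZMod p,
      (∀ y, (∀ x, B y x = 0) → y = 0) ∧ (∀ x, (∀ y, B y x = 0) → x = 0) :=
  Asm.s55_of_baseInputs S hp2 hpS (baseInputs_of_b4 S hp2 hpS h4)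
    (fun K hK => chi_CU_of_inputs hpS (baseInputs_of_b4 S hp2 hpS h4) K hK)
    (base_of_inputs hpS (baseInputs_of_b4 S hp2 hpS h4)) M hsm hMur

end Fermat.Agent.PT.Base
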