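/-
PT layer BASE: the tower step of (S-A) on the complexes `CU p S G_K`.

For fields `K ≤ K'` (`K'` an `S`-level) with `G_{K'}` normal in `G_K` of index `p ^ j`:
finiteness of `H^{≤2}(G_K; 𝔽_p)` passes to `G_{K'}`, `χ₂(G_{K'}) ≤ p ^ j · χ₂(G_K)`, and
`[G_ℚ : G_{K'}] = p ^ j · [G_ℚ : G_K]`.  With (B5) this is the hypothesis `htower` of
`Base/Tower.rank_loc_eq_of_tower`.
-/
import Fermat.Agent.PT.Base.Interfaces
import Fermat.Agent.PT.Coh.CdCount

set_option autoImplicit false

open ExtCitation Module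

namespace Fermat.Agent.PT.Base

local notation "Qb" => AlgebraicClosure ℚ
local notation "GQ" => (AlgebraicClosure ℚ ≃ₐ[ℚ] AlgebraicClosure ℚ)

open Bridge CdCount

variable (p : ℕ) [Fact p.Prime] (S : Finset Nat.Primes)

/-- In a normal subgroup of `p`-power index every element has a `p`-power in the subgroup
(relative form). -/
theorem exists_pow_mem_of_relIndex {Γ : Type*} [Group Γ] (U V : Subgroup Γ)
    [hn : (V.subgroupOf U).Normal] {j : ℕ} (hj : V.relIndex U = p ^ j) :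
    ∀ g ∈ U, ∃ n : ℕ, g ^ p ^ n ∈ V := by
  intro g hg
  refine ⟨j, ?_⟩
  have h1 : (⟨g, hg⟩ : U) ^ (V.subgroupOf U).index ∈ V.subgroupOf U :=
    Subgroup.pow_index_mem (V.subgroupOf U) _
  have h2 : (V.subgroupOf U).index = p ^ j := hj
  rw [h2, Subgroup.mem_subgroupOf] at h1
  exact h1

/-- **Tower step (abstract subgroups).**  `V ≤ U ≤ G_ℚ`, `V` containing an `S`-level and normal
in `U` of index `p ^ j`. -/
theorem chi_CU_step (U V : Subgroup GQ) (hVU : V ≤ U) (hV : ∃ N ∈ (levS S).lev, N ≤ V)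
    [hn : (V.subgroupOf U).Normal] {j : ℕ} (hj : V.relIndex U = p ^ j)
    (hfin : ∀ n ≤ 2, Module.Finite (ZMod p) ((CU p S U).H n)) :
    (∀ n ≤ 2, Module.Finite (ZMod p) ((CU p S V).H n)) ∧
      Cx.chi (CU p S V) 2 ≤ (p : ℤ) ^ j * Cx.chi (CU p S U) 2 ∧
      V.index = p ^ j * U.index := by
  have hpow := exists_pow_mem_of_relIndex p U V hj
  refine ⟨finite_of_pgroup_rel (levS S) U V hVU hV V le_rfl hpow hfin, ?_, ?_⟩
  · have h := chi_le_of_pgroup_rel (levS S) U V hVU hV V le_rfl hpow hfin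
    rw [hj] at h
    exact_mod_cast h
  · rw [← hj]
    exact (Subgroup.relIndex_mul_index hVU).symm

/-- **Tower step (fields).**  `K ≤ K'`, `K'` unramified outside `S`, `G_{K'}` normal in `G_K` of
index `p ^ j` — the shape of the fields produced by (B5). -/
theorem chi_CU_tower (K K' : IntermediateField ℚ Qb) (hK' : K'.IsUnramifiedOutside S)
    (hle : K ≤ K') (hn : (K'.fixingSubgroup.subgroupOf K.fixingSubgroup).Normal) {j : ℕ}
    (hj : K'.fixingSubgroup.relIndex K.fixingSubgroup = p ^ j)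
    (hfin : ∀ n ≤ 2, Module.Finite (ZMod p) ((CU p S K.fixingSubgroup).H n)) :
    (∀ n ≤ 2, Module.Finite (ZMod p) ((CU p S K'.fixingSubgroup).H n)) ∧
      Cx.chi (CU p S K'.fixingSubgroup) 2 ≤ (p : ℤ) ^ j * Cx.chi (CU p S K.fixingSubgroup) 2 ∧
      K'.fixingSubgroup.index = p ^ j * K.fixingSubgroup.index :=
  chi_CU_step p S K.fixingSubgroup K'.fixingSubgroup
    (IntermediateField.fixingSubgroup_antitone hle) (exists_mem_levS_le hK') hj hfin

end Fermat.Agent.PT.Base
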